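import Fermat.Agent.S55.DIC.Unram1
import Fermat.Agent.S14.BridgeLift
import Fermat.Agent.S05.Inertia
/-!
# S55-DIC (UNRAM): `IntermediateField.IsUnramifiedOutside S`  <->  ramification indices
-/

set_option autoImplicit false

open NumberField IsDedekindDomain
open scoped Pointwise

namespace Fermat.Agent.S55.DIC

open Fermat.Agent.Lib.Frobenius


theorem un2_card_inf_eq_iff {G : Type*} [Group G] [Finite G] (D H : Subgroup G) :
    Nat.card (D ⊓ H : Subgroup G) = Nat.card D ↔ D ≤ H := by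
  constructor
  · intro h
    have h2 : (D ⊓ H : Subgroup G) = D :=
      Subgroup.eq_of_le_of_card_ge inf_le_left (by rw [h])
    exact h2 ▸ inf_le_right
  · intro h
    rw [inf_eq_left.mpr h]

section fin
variable (F M : Type*) [Field F] [NumberField F] [Field M] [NumberField M] [Algebra F M]
  [IsGalois ℚ M]

theorem un2_card_inertia (P : Ideal (𝓞 M)) [P.IsPrime] :
    Nat.card (P.inertia Gal(M/ℚ)) =
      (P.under (𝓞 F)).ramificationIdx ℤ * Nat.card (P.inertia Gal(M/F)) := by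
  have : IsGalois F M := IsGalois.tower_top_of_isGalois ℚ F M
  have h1 := Ideal.card_inertia_eq_ramificationIdxIn (G := Gal(M/ℚ)) (P.under ℤ) P
  have h2 := Ideal.card_inertia_eq_ramificationIdxIn (G := Gal(M/F)) (P.under (𝓞 F)) P
  rw [Ideal.ramificationIdxIn_eq_ramificationIdx (P.under ℤ) P Gal(M/ℚ)] at h1
  rw [Ideal.ramificationIdxIn_eq_ramificationIdx (P.under (𝓞 F)) P Gal(M/F)] at h2
  rw [h1, h2]
  exact Ideal.ramificationIdx_tower (R := ℤ) (P.under (𝓞 F)) P

/-- inertia at `P` fixes `F` iff `e = 1`. -/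
theorem un2_fin (P : Ideal (𝓞 M)) [P.IsPrime] :
    (∀ g ∈ P.inertia Gal(M/ℚ), ∀ x : F, g (algebraMap F M x) = algebraMap F M x) ↔
      (P.under (𝓞 F)).ramificationIdx ℤ = 1 := by
  have hcard := un2_card_inertia F M P
  let φ : Gal(M/F) →* Gal(M/ℚ) := AlgEquiv.restrictScalarsHom ℚ
  have hφ : Function.Injective φ := AlgEquiv.restrictScalars_injective ℚ
  have hcomap : P.inertia Gal(M/F) = (P.inertia Gal(M/ℚ)).comap φ := by
    ext g
    rfl
  have hrange : ∀ g : Gal(M/ℚ), g ∈ φ.range ↔ ∀ x : F, g (algebraMap F M x) = algebraMap F M x := by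
    intro g
    constructor
    · rintro ⟨h, rfl⟩ x
      exact h.commutes x
    · intro hg
      exact ⟨AlgEquiv.ofRingEquiv (f := g.toRingEquiv) hg, by ext; rfl⟩
  have hc2 : Nat.card (P.inertia Gal(M/F)) =
      Nat.card (P.inertia Gal(M/ℚ) ⊓ φ.range : Subgroup Gal(M/ℚ)) := by
    rw [hcomap, inf_comm, ← Subgroup.map_comap_eq, Subgroup.card_map_of_injective hφ]
  have hpos : 0 < Nat.card (P.inertia Gal(M/F)) := Nat.card_pos
  rw [show (∀ g ∈ P.inertia Gal(M/ℚ), ∀ x : F, g (algebraMap F M x) = algebraMap F M x) ↔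
    P.inertia Gal(M/ℚ) ≤ φ.range from ⟨fun h g hg => (hrange g).mpr (h g hg),
      fun h g hg => (hrange g).mp (h hg)⟩, ← un2_card_inf_eq_iff, ← hc2, hcard]
  constructor
  · intro h
    have : 1 * Nat.card (P.inertia Gal(M/F)) =
      (P.under (𝓞 F)).ramificationIdx ℤ * Nat.card (P.inertia Gal(M/F)) := by rw [one_mul]; exact h
    exact (Nat.eq_of_mul_eq_mul_right hpos this).symm
  · intro h
    rw [h, one_mul]

omit [IsGalois ℚ M] in
/-- the same for an arbitrary `ℚ`-algebra structure on `M`, in elementary terms. -/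
theorem un2_fin' [alg : Algebra ℚ M] [IsGalois ℚ M] (P : Ideal (𝓞 M)) [P.IsPrime] :
    (∀ g : M ≃ₐ[ℚ] M, (∀ x : 𝓞 M, ∃ y ∈ P, (y : M) = g x - x) →
        ∀ x : F, g (algebraMap F M x) = algebraMap F M x) ↔
      (P.under (𝓞 F)).ramificationIdx ℤ = 1 := by
  obtain rfl : alg = DivisionRing.toRatAlgebra := Subsingleton.elim _ _
  rw [← un2_fin F M P]
  constructor
  · intro h g hg
    exact h g (fun x => ⟨g • x - x, hg x, rfl⟩)
  · intro h g hg
    refine h g (fun x => ?_)
    obtain ⟨y, hy, hyx⟩ := hg x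
    have : g • x - x = y := by
      apply Subtype.ext
      exact hyx.symm
    show g • x - x ∈ P
    rw [this]
    exact hy

end fin




/-- `e(v/q) = ord v q`. -/
theorem un2_ramificationIdx {F : Type*} [Field F] [NumberField F] (v : HeightOneSpectrum (𝓞 F))
    {q : ℕ} (hq : q.Prime) (hv : ((q : ℕ) : 𝓞 F) ∈ v.asIdeal) :
    ((v.asIdeal.ramificationIdx ℤ : ℕ) : ℤ) = ord v ((q : ℕ) : F) := by
  have hq' : Prime (q : ℤ) := Nat.prime_iff_prime_int.mp hq
  have hlo : v.asIdeal.LiesOver (Ideal.span {(q : ℤ)}) :=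
    (Ideal.liesOver_span_iff Ideal.IsPrime.ne_top' hq').mpr (by simpa using hv)
  have hne : (Ideal.span {(q : ℤ)}) ≠ ⊥ := by
    rw [Ne, Ideal.span_singleton_eq_bot]
    exact hq'.ne_zero
  have hq0 : ((q : ℕ) : 𝓞 F) ≠ 0 := by exact_mod_cast hq.ne_zero
  have hmap : (Ideal.span {(q : ℤ)}).map (algebraMap ℤ (𝓞 F)) = Ideal.span {((q : ℕ) : 𝓞 F)} := by
    rw [Ideal.map_span, Set.image_singleton]
    simp
  have hnn : 0 ≤ ord v ((q : ℕ) : F) := by
    have := ord_nonneg_of_isIntegral v ((q : ℕ) : 𝓞 F)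
    simpa using this
  rw [← Ideal.ramificationIdx'_eq_ramificationIdx (Ideal.span {(q : ℤ)}) v.asIdeal hne]
  have key : ∀ n : ℕ, (Ideal.span {(q : ℤ)}).map (algebraMap ℤ (𝓞 F)) ≤ v.asIdeal ^ n ↔
      (n : ℤ) ≤ ord v ((q : ℕ) : F) := by
    intro n
    rw [hmap, Ideal.span_singleton_le_iff_mem, ← le_ord_iff_mem_pow v hq0]
    simp
  have := Ideal.ramificationIdx'_spec (p := Ideal.span {(q : ℤ)}) (P := v.asIdeal)
    (n := (ord v ((q : ℕ) : F)).toNat) ((key _).mpr (by rw [Int.toNat_of_nonneg hnn]))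
    (by rw [key]; push_cast; rw [Int.toNat_of_nonneg hnn]; omega)
  rw [this, Int.toNat_of_nonneg hnn]




section
variable {Ω : Type} [Field Ω] [Algebra ℚ Ω] [IsAlgClosure ℚ Ω]

attribute [-instance] DivisionRing.toRatAlgebra

omit [IsAlgClosure ℚ Ω] in
/-- nonunits of `A` in terms of `ord`. -/
theorem un2_mem_nonunits_iff (F : IntermediateField ℚ Ω) [NumberField F]
    (A : ValuationSubring Ω) (v : HeightOneSpectrum (𝓞 F))
    (hv : ∀ x : F, x ≠ 0 → ((x : Ω) ∈ A ↔ 0 ≤ ord v x)) (x : 𝓞 F) :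
    (((x : F) : Ω) ∈ A.nonunits) ↔ x ∈ v.asIdeal := by
  by_cases hx : x = 0
  · subst hx
    simp [A.mem_nonunits_iff]
  have hx' : (x : F) ≠ 0 := by
    simpa using hx
  rw [← ord_pos_iff_mem v hx, A.mem_nonunits_iff]
  have h1 := hv (x : F)⁻¹ (inv_ne_zero hx')
  rw [ord_inv] at h1
  have h2 : A.valuation ((x : F) : Ω) < 1 ↔ ¬ ((((x : F)⁻¹ : F) : Ω) ∈ A) := by
    rw [← A.valuation_le_one_iff, not_le]
    push_cast
    rw [map_inv₀, one_lt_inv₀ (by
      rw [zero_lt_iff, Ne, map_eq_zero]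
      exact_mod_cast hx')]
  rw [h2, h1]
  omega

/-- the prime of `𝓞 M` below `A`. -/
noncomputable def un2_incl (M : IntermediateField ℚ Ω) : 𝓞 M →+* integralClosure ℤ Ω :=
  ((algebraMap M Ω).comp (algebraMap (𝓞 M) M)).codRestrict (integralClosure ℤ Ω).toSubring
    (fun x => (NumberField.RingOfIntegers.isIntegral_coe x).map (IsScalarTower.toAlgHom ℤ M Ω))

omit [IsAlgClosure ℚ Ω] in
@[simp] theorem un2_coe_incl (M : IntermediateField ℚ Ω) (x : 𝓞 M) :
    ((un2_incl M x : integralClosure ℤ Ω) : Ω) = ((x : M) : Ω) := rfl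

theorem un2_main (F : IntermediateField ℚ Ω) [NumberField F]
    (A : ValuationSubring Ω) {q : ℕ} (hq : q.Prime) (hA : A.LiesOverPrime q)
    (v : HeightOneSpectrum (𝓞 F)) (hv : ∀ x : F, x ≠ 0 → ((x : Ω) ∈ A ↔ 0 ≤ ord v x)) :
    A.inertiaSubgroupIn ℚ ≤ F.fixingSubgroup ↔ ord v ((q : ℕ) : F) = 1 := by
  have hchar : CharZero Ω := algebraRat.charZero Ω
  have hFfin : FiniteDimensional ℚ F := by
    have e : (DivisionRing.toRatAlgebra : Algebra ℚ F) = F.algebra' := Subsingleton.elim _ _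
    have h := NumberField.to_finiteDimensional (K := F)
    rw [e] at h
    exact h
  let M : IntermediateField ℚ Ω := IntermediateField.normalClosure ℚ F Ω
  have hFM : F ≤ M := F.le_normalClosure
  have hMfin : FiniteDimensional ℚ M := normalClosure.is_finiteDimensional ℚ F Ω
  have hMnorm : Normal ℚ M := normalClosure.normal ℚ F Ω
  have hMgal : IsGalois ℚ M := ⟨⟩
  have hnf : NumberField M :=
    { to_charZero := inferInstance
      to_finiteDimensional := by
        have e : (DivisionRing.toRatAlgebra : Algebra ℚ M) = M.algebra' := Subsingleton.elim _ _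
        rw [e]
        exact hMfin }
  let _ : Algebra F M := (IntermediateField.inclusion hFM).toRingHom.toAlgebra
  have halg : ∀ x : F, ((algebraMap F M x : M) : Ω) = (x : Ω) := fun x => rfl
  let P : Ideal (𝓞 M) := (idealQ A).comap (un2_incl M)
  have hPprime : P.IsPrime := Ideal.comap_isPrime _ _
  have hmemP : ∀ x : 𝓞 M, x ∈ P ↔ ((x : M) : Ω) ∈ A.nonunits := by
    intro x
    rw [Ideal.mem_comap, mem_idealQ, un2_coe_incl]
  have hunder : P.under (𝓞 F) = v.asIdeal := by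
    ext x
    rw [Ideal.under_def, Ideal.mem_comap, hmemP, ← un2_mem_nonunits_iff F A v hv]
    rfl
  have hqv : ((q : ℕ) : 𝓞 F) ∈ v.asIdeal := by
    rw [← un2_mem_nonunits_iff F A v hv]
    have hA' : (q : Ω) ∈ A.nonunits := hA
    simpa using hA'
  have hram := un2_ramificationIdx v hq hqv
  have hfin := un2_fin' F M P
  rw [hunder] at hfin
  rw [← hram]
  rw [show ((v.asIdeal.ramificationIdx ℤ : ℕ) : ℤ) = 1 ↔ v.asIdeal.ramificationIdx ℤ = 1 by
    norm_cast, ← hfin]
  constructor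
  · intro h g hg x
    obtain ⟨σ₀, rfl⟩ := AlgEquiv.restrictNormalHom_surjective Ω g
    obtain ⟨τ, hτ, hin⟩ := Fermat.Agent.S14.lift_inertia A hq hA M.fixingSubgroup
      (M.fixingSubgroup_isClosed) σ₀ (by
        intro y hy hfix
        have hyM : y ∈ M := by
          rw [← InfiniteGalois.fixedField_fixingSubgroup M]
          intro τ
          exact hfix τ τ.2
        have hyi : IsIntegral ℤ (⟨y, hyM⟩ : M) := by
          have h1 : IsIntegral ℤ (algebraMap M Ω ⟨y, hyM⟩) := hy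
          exact (isIntegral_algebraMap_iff (algebraMap M Ω).injective).mp h1
        obtain ⟨z, hz, hzy⟩ := hg ⟨⟨y, hyM⟩, hyi⟩
        rw [hmemP, hzy] at hz
        have h2 := AlgEquiv.restrictNormal_commutes σ₀ M ⟨y, hyM⟩
        have h3 : (((AlgEquiv.restrictNormalHom M σ₀) ⟨y, hyM⟩ - ⟨y, hyM⟩ : M) : Ω) = σ₀ y - y := by
          push_cast
          exact congrArg (· - y) h2
        rw [← h3]
        exact hz)
    have h1 : (σ₀ * τ) (x : Ω) = x := (h hin) x
    have h2 : τ (x : Ω) = x := hτ ⟨(x : Ω), hFM x.2⟩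
    rw [AlgEquiv.mul_apply, h2] at h1
    apply Subtype.ext
    exact (AlgEquiv.restrictNormal_commutes σ₀ M (algebraMap F M x)).trans h1
  · intro h σ hσ
    have h1 := h (AlgEquiv.restrictNormalHom M σ) (by
      intro x
      refine ⟨(AlgEquiv.restrictNormalHom M σ) • x - x, ?_, rfl⟩
      rw [hmemP]
      have h2 := AlgEquiv.restrictNormal_commutes σ M (x : M)
      have h3 : ((((AlgEquiv.restrictNormalHom M σ) • x - x : 𝓞 M) : M) : Ω) =
          σ ((x : M) : Ω) - ((x : M) : Ω) := by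
        exact congrArg (· - ((x : M) : Ω)) h2
      rw [h3]
      exact Fermat.Agent.S05.inertia_sub_mem A hσ (isIntegral_mem A
        ((NumberField.RingOfIntegers.isIntegral_coe x).map (IsScalarTower.toAlgHom ℤ M Ω))))
    rw [IntermediateField.mem_fixingSubgroup_iff]
    intro x hx
    have h2 := congrArg (Subtype.val) (h1 ⟨x, hx⟩)
    exact (AlgEquiv.restrictNormal_commutes σ M (algebraMap F M ⟨x, hx⟩)).symm.trans h2

end


theorem un2_finiteDimensional {Ω : Type*} [Field Ω] [Algebra ℚ Ω] (F : IntermediateField ℚ Ω)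
    [NumberField F] : FiniteDimensional ℚ F := by
  have e : (DivisionRing.toRatAlgebra : Algebra ℚ F) = F.algebra' := Subsingleton.elim _ _
  have h := NumberField.to_finiteDimensional (K := F)
  rw [e] at h
  exact h

theorem un2_main_alg [alg : Algebra ℚ (AlgebraicClosure ℚ)]
    (F : IntermediateField ℚ (AlgebraicClosure ℚ)) [NumberField F]
    (A : ValuationSubring (AlgebraicClosure ℚ)) {q : ℕ} (hq : q.Prime) (hA : A.LiesOverPrime q)
    (v : HeightOneSpectrum (𝓞 F))
    (hv : ∀ x : F, x ≠ 0 → ((x : AlgebraicClosure ℚ) ∈ A ↔ 0 ≤ ord v x)) :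
    A.inertiaSubgroupIn ℚ ≤ F.fixingSubgroup ↔ ord v ((q : ℕ) : F) = 1 := by
  obtain rfl : alg = AlgebraicClosure.instAlgebra ℚ := Subsingleton.elim _ _
  exact @un2_main (AlgebraicClosure ℚ) _ (AlgebraicClosure.instAlgebra ℚ) inferInstance F _ A q hq hA
    v hv

/-- (U0) **the local dictionary**: inertia at `A` acts trivially on `F` iff `e(v / q) = 1`.
Proof: `M` = Galois closure of `F`, `P = A ∩ 𝓞 M`. The image of `A.inertiaSubgroupIn ℚ` in `Gal(M/ℚ)` is
the inertia group `I_P` (S13 `MinkLift`/`MinkDict`, S14 `BridgeLift.lift_inertia`), `#I_P = e(P/q)`,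
`#(I_P ∩ Gal(M/F)) = e(P/v)` (Mathlib `Ideal.card_inertia_eq_ramificationIdxIn`), `e(P/q) = e(P/v) e(v/q)`. -/
theorem inertia_le_fixingSubgroup_iff (F : IntermediateField ℚ Qb) [NumberField F]
    (A : ValuationSubring Qb) {q : ℕ} (hq : q.Prime) (hA : A.LiesOverPrime q)
    (v : HeightOneSpectrum (𝓞 F)) (hv : ∀ x : F, x ≠ 0 → ((x : Qb) ∈ A ↔ 0 ≤ ord v x)) :
    A.inertiaSubgroupIn ℚ ≤ F.fixingSubgroup ↔ ord v ((q : ℕ) : F) = 1 := by
  exact un2_main_alg F A hq hA v hv

/-- (U1) -/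
theorem isUnramifiedOutside_iff (F : IntermediateField ℚ Qb) [NumberField F]
    (S : Finset Nat.Primes) :
    F.IsUnramifiedOutside S ↔ ∀ q : Nat.Primes, q ∉ S → ∀ v : HeightOneSpectrum (𝓞 F),
      (((q : Nat.Primes) : ℕ) : 𝓞 F) ∈ v.asIdeal → ord v (((q : Nat.Primes) : ℕ) : F) = 1 := by
  constructor
  · intro h q hqS v hv
    obtain ⟨A, hA, hAv⟩ := exists_valuationSubring_above F v q.2 hv
    exact (inertia_le_fixingSubgroup_iff F A q.2 hA v hAv).mp (h.2 q hqS A hA)
  · intro h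
    refine ⟨un2_finiteDimensional F, fun q hqS A hA => ?_⟩
    obtain ⟨v, hv, hAv⟩ := exists_place_below F A q.2 hA
    exact (inertia_le_fixingSubgroup_iff F A q.2 hA v hAv).mpr (h q hqS v hv)

end Fermat.Agent.S55.DIC
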