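import Fermat.Agent.S55.DIC.Unram5
/-!
# S55-DIC (UNRAM): `IntermediateField.IsUnramifiedOutside S`  <->  ramification indices
-/

set_option autoImplicit false

open NumberField IsDedekindDomain

namespace Fermat.Agent.S55.DIC

open scoped Pointwise

section aux

variable {K L : Type*} [Field K] [Field L] [Algebra K L]

theorem unram6_mem_nonunits_iff (A : ValuationSubring L) (x : L) :
    x ∈ A.nonunits ↔ x = 0 ∨ x⁻¹ ∉ A := by
  rw [A.mem_nonunits_iff]
  by_cases hx : x = 0
  · simp [hx]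
  · simp only [hx, false_or]
    rw [← A.valuation_le_one_iff, map_inv₀, not_le]
    have hv : A.valuation x ≠ 0 := (A.valuation.ne_zero_iff).mpr hx
    rw [one_lt_inv₀ (zero_lt_iff.mpr hv)]

theorem unram6_mem_inertiaSubgroupIn_iff (A : ValuationSubring L) (τ : L ≃ₐ[K] L) :
    τ ∈ A.inertiaSubgroupIn K ↔ τ • A = A ∧ ∀ a ∈ A, τ a - a ∈ A.nonunits := by
  constructor
  · intro hτ
    obtain ⟨g, hg, rfl⟩ := Subgroup.mem_map.mp hτ
    refine ⟨g.2, fun a ha => ?_⟩
    have h1 : MulSemiringAction.toRingAut (A.decompositionSubgroup K)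
        (IsLocalRing.ResidueField A) g = 1 := MonoidHom.mem_ker.mp hg
    have h2 : g • IsLocalRing.residue A ⟨a, ha⟩ = IsLocalRing.residue A ⟨a, ha⟩ := by
      have := congrArg (fun f => f (IsLocalRing.residue A ⟨a, ha⟩)) h1
      simpa using this
    rw [← IsLocalRing.ResidueField.residue_smul, ← sub_eq_zero, ← map_sub,
      IsLocalRing.residue_eq_zero_iff] at h2
    exact ValuationSubring.coe_mem_nonunits_iff.mpr h2
  · rintro ⟨h1, h2⟩
    refine Subgroup.mem_map.mpr ⟨⟨τ, h1⟩, ?_, rfl⟩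
    refine MonoidHom.mem_ker.mpr ?_
    ext r
    obtain ⟨a, rfl⟩ := IsLocalRing.residue_surjective r
    change (⟨τ, h1⟩ : A.decompositionSubgroup K) • IsLocalRing.residue A a = IsLocalRing.residue A a
    rw [← IsLocalRing.ResidueField.residue_smul, ← sub_eq_zero, ← map_sub,
      IsLocalRing.residue_eq_zero_iff]
    exact ValuationSubring.coe_mem_nonunits_iff.mp (h2 a a.2)

theorem unram6_mem_inv_smul_iff (A : ValuationSubring L) (σ : L ≃ₐ[K] L) (x : L) :
    x ∈ σ⁻¹ • A ↔ σ x ∈ A := by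
  rw [ValuationSubring.mem_pointwise_smul_iff_inv_smul_mem, inv_inv]
  rfl

theorem unram6_mem_nonunits_inv_smul_iff (A : ValuationSubring L) (σ : L ≃ₐ[K] L) (x : L) :
    x ∈ (σ⁻¹ • A).nonunits ↔ σ x ∈ A.nonunits := by
  rw [unram6_mem_nonunits_iff, unram6_mem_nonunits_iff, unram6_mem_inv_smul_iff, map_inv₀,
    map_eq_zero_iff σ σ.injective]

theorem unram6_conj_mem_inertia (A : ValuationSubring L) (σ τ : L ≃ₐ[K] L)
    (hτ : τ ∈ A.inertiaSubgroupIn K) : σ⁻¹ * τ * σ ∈ (σ⁻¹ • A).inertiaSubgroupIn K := by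
  rw [unram6_mem_inertiaSubgroupIn_iff] at hτ ⊢
  obtain ⟨h1, h2⟩ := hτ
  constructor
  · rw [mul_smul, mul_smul, smul_inv_smul, h1]
  · intro a ha
    rw [unram6_mem_inv_smul_iff] at ha
    rw [unram6_mem_nonunits_inv_smul_iff, map_sub]
    have : σ ((σ⁻¹ * τ * σ) a) = τ (σ a) := by
      simp only [AlgEquiv.mul_apply]
      exact σ.apply_symm_apply _
    rw [this]
    exact h2 _ ha

theorem unram6_normal_Qb [alg : Algebra ℚ (AlgebraicClosure ℚ)] :
    Normal ℚ (AlgebraicClosure ℚ) := by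
  obtain rfl : alg = AlgebraicClosure.instAlgebra ℚ := Subsingleton.elim _ _
  infer_instance

theorem unram6_normalClosure_eq (F : IntermediateField ℚ (AlgebraicClosure ℚ))
    [alg : Algebra ℚ F] :
    IntermediateField.normalClosure ℚ F (AlgebraicClosure ℚ) =
      ⨆ f : AlgebraicClosure ℚ ≃ₐ[ℚ] AlgebraicClosure ℚ,
        F.map (f : AlgebraicClosure ℚ →ₐ[ℚ] AlgebraicClosure ℚ) := by
  have hn : Normal ℚ (AlgebraicClosure ℚ) := unram6_normal_Qb
  obtain rfl : alg = F.algebra' := Subsingleton.elim _ _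
  exact IntermediateField.normalClosure_def'' F

theorem unram6_transfer (K : IntermediateField ℚ (AlgebraicClosure ℚ)) [alg' : Algebra ℚ K]
    (hN : @Normal ℚ K _ _ K.algebra')
    (hfd : @FiniteDimensional ℚ K _ _ K.algebra'.toModule) :
    FiniteDimensional ℚ K ∧ IsGalois ℚ K := by
  have e : K.algebra' = alg' := Subsingleton.elim _ _
  have hfd0 := hfd
  rw [e] at hN hfd
  have hsep : Algebra.IsSeparable ℚ K := Algebra.IsAlgebraic.isSeparable_of_perfectField
  exact ⟨hfd0, ⟨⟩⟩

theorem unram6_normalClosure_props (F : IntermediateField ℚ (AlgebraicClosure ℚ))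
    [alg : Algebra ℚ F] [hF : FiniteDimensional ℚ F]
    [alg' : Algebra ℚ (IntermediateField.normalClosure ℚ F (AlgebraicClosure ℚ))] :
    F ≤ IntermediateField.normalClosure ℚ F (AlgebraicClosure ℚ) ∧
    FiniteDimensional ℚ (IntermediateField.normalClosure ℚ F (AlgebraicClosure ℚ)) ∧
    IsGalois ℚ (IntermediateField.normalClosure ℚ F (AlgebraicClosure ℚ)) := by
  have hn : Normal ℚ (AlgebraicClosure ℚ) := unram6_normal_Qb
  obtain rfl : alg = F.algebra' := Subsingleton.elim _ _
  exact ⟨IntermediateField.le_normalClosure F,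
    unram6_transfer _ (normalClosure.normal ℚ F (AlgebraicClosure ℚ))
      (normalClosure.is_finiteDimensional ℚ F (AlgebraicClosure ℚ))⟩

end aux

/-- (U7) conjugates and normal closures of `S`-levels are `S`-levels. -/
theorem isUnramifiedOutside_map (S : Finset Nat.Primes) (F : IntermediateField ℚ Qb)
    (hF : F.IsUnramifiedOutside S) (σ : GQ) :
    (F.map (σ : Qb →ₐ[ℚ] Qb)).IsUnramifiedOutside S := by
  have := hF.1
  refine ⟨(F.equivMap (σ : Qb →ₐ[ℚ] Qb)).toLinearEquiv.finiteDimensional, fun q hq A hA τ hτ => ?_⟩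
  have hB : (σ⁻¹ • A).LiesOverPrime (q : ℕ) := by
    change ((q : ℕ) : Qb) ∈ (σ⁻¹ • A).nonunits
    rw [unram6_mem_nonunits_inv_smul_iff, map_natCast]
    exact hA
  have h1 := hF.2 q hq (σ⁻¹ • A) hB (unram6_conj_mem_inertia A σ τ hτ)
  rw [IntermediateField.mem_fixingSubgroup_iff] at h1 ⊢
  rintro y hy
  obtain ⟨x, hx, rfl⟩ := (IntermediateField.mem_map F).mp hy
  have h2 := h1 x hx
  have h3 : σ ((σ⁻¹ * τ * σ) x) = τ (σ x) := by
    simp only [AlgEquiv.mul_apply]
    exact σ.apply_symm_apply _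
  have h4 : (σ⁻¹ * τ * σ) x = x := h2
  rw [h4] at h3
  exact h3.symm

theorem isUnramifiedOutside_normalClosure (S : Finset Nat.Primes) (F : IntermediateField ℚ Qb)
    (hF : F.IsUnramifiedOutside S) :
    (IntermediateField.normalClosure ℚ F Qb).IsUnramifiedOutside S := by
  have := hF.1
  refine ⟨(unram6_normalClosure_props F).2.1, fun q hq A hA => ?_⟩
  rw [← IntermediateField.le_iff_le, unram6_normalClosure_eq F]
  refine iSup_le fun σ => ?_
  rw [IntermediateField.le_iff_le]
  exact (isUnramifiedOutside_map S F hF σ).2 q hq A hA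

/-- every `S`-level is contained in a Galois `S`-level containing a given `S`-level. -/
theorem exists_galois_level (S : Finset Nat.Primes) (F : IntermediateField ℚ Qb)
    (hF : F.IsUnramifiedOutside S) :
    ∃ K : IntermediateField ℚ Qb, F ≤ K ∧ K.IsUnramifiedOutside S ∧ IsGalois ℚ K := by
  have := hF.1
  exact ⟨IntermediateField.normalClosure ℚ F Qb, (unram6_normalClosure_props F).1,
    isUnramifiedOutside_normalClosure S F hF, (unram6_normalClosure_props F).2.2⟩

end Fermat.Agent.S55.DIC
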