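import Fermat.Agent.S55.DIC.Dense
import Fermat.Agent.Lib.Frobenius
import Fermat.Prelude.Def_GroupCohomology_ContinuousUnramified
/-!
# S55-DIC (IMAGE): `AlgebraicClosure ℚ`, `padicEmbedding`, `localGaloisToGlobal`
Subfields `F : IntermediateField ℚ Qb`, `σ : GQ`; the embedding `embOf q F σ : x ↦ padicEmbedding q (σ x)`.
-/

set_option autoImplicit false
set_option linter.style.haveILetI false

open NumberField IsDedekindDomain
open scoped Pointwise

namespace Fermat.Agent.S55.DIC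

abbrev Qb : Type := AlgebraicClosure ℚ
abbrev GQ : Type := Qb ≃ₐ[ℚ] Qb

variable (q : ℕ) [Fact q.Prime]

/-- the embedding `x ↦ padicEmbedding q (σ x)` of a subfield `F` of `Qb`. -/
noncomputable def embOf (F : IntermediateField ℚ Qb) (σ : GQ) : F →+* PadicAlgCl q :=
  ((padicEmbedding q).toRingHom.comp (σ : Qb →+* Qb)).comp F.val.toRingHom

variable {q}

@[simp] theorem embOf_apply (F : IntermediateField ℚ Qb) (σ : GQ) (x : F) :
    embOf q F σ x = padicEmbedding q (σ (x : Qb)) := rfl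

section Image1Aux

local instance image1_isAlgebraicQbar : Algebra.IsAlgebraic ℚ (AlgebraicClosure ℚ) :=
  AlgebraicClosure.isAlgebraic ℚ
local instance image1_isAlgClosureQbar : IsAlgClosure ℚ (AlgebraicClosure ℚ) :=
  ⟨inferInstance, inferInstance⟩
local instance image1_normalQbar : Normal ℚ (AlgebraicClosure ℚ) :=
  IsAlgClosure.normal ℚ (AlgebraicClosure ℚ)

/-- every `ℚ`-embedding of `Qb` in `PadicAlgCl q` is `padicEmbedding q ∘ σ`. -/
theorem image1_exists_comp (φ : Qb →ₐ[ℚ] PadicAlgCl q) :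
    ∃ σ : GQ, ∀ x, padicEmbedding q (σ x) = φ x := by
  letI : Algebra Qb (PadicAlgCl q) := (padicEmbedding q).toRingHom.toAlgebra
  haveI : IsScalarTower ℚ Qb (PadicAlgCl q) :=
    IsScalarTower.of_algebraMap_eq' (Subsingleton.elim _ _)
  let ψ : Qb →ₐ[ℚ] Qb := φ.restrictNormal Qb
  have hψ : ∀ x, padicEmbedding q (ψ x) = φ x := fun x => φ.restrictNormal_commutes Qb x
  exact ⟨AlgEquiv.ofBijective ψ (Algebra.IsAlgebraic.algHom_bijective ψ), hψ⟩

/-- transport of membership along an automorphism matching the prime ideals. -/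
theorem image1_map_mem {K : Type*} [Field K] [Algebra ℚ K] [IsAlgClosure ℚ K] [CharZero K]
    (A B : ValuationSubring K) {ℓ : ℕ} (hℓ : ℓ.Prime)
    (hA : A.LiesOverPrime ℓ) (τ : K ≃ₐ[ℚ] K)
    (hτ : τ • Lib.Frobenius.idealQ A = Lib.Frobenius.idealQ B) {x : K} (hx : x ∈ A) :
    τ x ∈ B := by
  obtain ⟨b, s, hb, hs, hsn, hsx⟩ := Lib.Frobenius.exists_integral_fraction A hℓ hA x hx
  have hs0 : s ≠ 0 := by
    rintro rfl
    exact hsn (by simp)
  let s' : integralClosure ℤ K := ⟨s, hs⟩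
  let b' : integralClosure ℤ K := ⟨b, hb⟩
  have h1 : τ • s' ∉ Lib.Frobenius.idealQ B := by
    intro h
    rw [← hτ, Ideal.smul_mem_pointwise_smul_iff, Lib.Frobenius.mem_idealQ] at h
    exact hsn h
  rw [Lib.Frobenius.mem_idealQ] at h1
  have h2 : (τ s)⁻¹ ∈ B :=
    Lib.Frobenius.inv_mem_of_not_mem_nonunits B (Lib.Frobenius.isIntegral_mem B (τ • s').2) h1
  have h3 : τ x = τ b * (τ s)⁻¹ := by
    rw [← hsx, map_mul]
    have : τ s ≠ 0 := by simpa using hs0
    field_simp
  rw [h3]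
  exact mul_mem (Lib.Frobenius.isIntegral_mem B (τ • b').2) h2

/-- all valuation subrings of an algebraic closure of `ℚ` over a prime are conjugate. -/
theorem image1_exists_conj {K : Type*} [Field K] [Algebra ℚ K] [IsAlgClosure ℚ K] [CharZero K]
    (A B : ValuationSubring K) {ℓ : ℕ} (hℓ : ℓ.Prime)
    (hA : A.LiesOverPrime ℓ) (hB : B.LiesOverPrime ℓ) :
    ∃ σ : K ≃ₐ[ℚ] K, ∀ x : K, x ∈ A ↔ σ x ∈ B := by
  haveI := Lib.Frobenius.idealQ_liesOver A hℓ hA
  haveI := Lib.Frobenius.idealQ_liesOver B hℓ hB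
  haveI : Algebra.IsInvariant ℤ (integralClosure ℤ K) (K ≃ₐ[ℚ] K) := Lib.Frobenius.isInvariant
  letI : TopologicalSpace (integralClosure ℤ K) := ⊥
  haveI : DiscreteTopology (integralClosure ℤ K) := ⟨rfl⟩
  haveI : ContinuousSMul (K ≃ₐ[ℚ] K) (integralClosure ℤ K) := by
    rw [continuousSMul_iff_stabilizer_isOpen]
    intro b
    convert stabilizer_isOpen_of_isIntegral (K := ℚ) (b : K) using 2
    ext σ
    simp only [MulAction.mem_stabilizer_iff]
    exact Subtype.ext_iff
  have hunder : (Lib.Frobenius.idealQ A).under ℤ = (Lib.Frobenius.idealQ B).under ℤ := by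
    rw [← Ideal.LiesOver.over (p := Ideal.span {(ℓ : ℤ)}) (P := Lib.Frobenius.idealQ A),
      ← Ideal.LiesOver.over (p := Ideal.span {(ℓ : ℤ)}) (P := Lib.Frobenius.idealQ B)]
  obtain ⟨σ, hσ⟩ := Algebra.IsInvariant.exists_smul_of_under_eq_of_profinite (A := ℤ)
    (G := K ≃ₐ[ℚ] K) (Lib.Frobenius.idealQ A) (Lib.Frobenius.idealQ B) hunder
  refine ⟨σ, fun x => ⟨fun hx => image1_map_mem A B hℓ hA σ hσ.symm hx, fun hx => ?_⟩⟩
  have hσ' : σ⁻¹ • Lib.Frobenius.idealQ B = Lib.Frobenius.idealQ A := by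
    rw [hσ, inv_smul_smul]
  have := image1_map_mem B A hℓ hB σ⁻¹ hσ' hx
  simpa using this

/-- all valuation subrings of `Qb` over a prime are conjugate. -/
theorem image1_exists_conj_Qb (A B : ValuationSubring Qb) {ℓ : ℕ} (hℓ : ℓ.Prime)
    (hA : A.LiesOverPrime ℓ) (hB : B.LiesOverPrime ℓ) :
    ∃ σ : GQ, ∀ x : Qb, x ∈ A ↔ σ x ∈ B :=
  image1_exists_conj A B hℓ hA hB

end Image1Aux

/-- every embedding of `F` is an `embOf`. -/
theorem exists_embOf_eq (F : IntermediateField ℚ Qb) (j : F →+* PadicAlgCl q) :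
    ∃ σ : GQ, embOf q F σ = j := by
  letI : Algebra F (PadicAlgCl q) := j.toAlgebra
  haveI : Algebra.IsAlgebraic ℚ Qb := AlgebraicClosure.isAlgebraic ℚ
  haveI : Algebra.IsAlgebraic F Qb := Algebra.IsAlgebraic.tower_top (K := ℚ) F
  let φ₀ : Qb →ₐ[F] PadicAlgCl q := IsAlgClosed.lift
  let φ : Qb →ₐ[ℚ] PadicAlgCl q := φ₀.toRingHom.toRatAlgHom
  obtain ⟨σ, hσ⟩ := image1_exists_comp φ
  refine ⟨σ, RingHom.ext fun x => ?_⟩
  rw [embOf_apply, hσ]
  exact φ₀.commutes x

/-- (IM1) -/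
theorem padicPlace_liesOverPrime : (padicPlace q).LiesOverPrime q := by
  have hq : (q : ℕ) ≠ 0 := (Fact.out : q.Prime).ne_zero
  have hq1 : 1 < q := (Fact.out : q.Prime).one_lt
  change (q : Qb) ∈ (padicPlace q).nonunits
  rw [ValuationSubring.mem_nonunits_iff]
  by_contra hcon
  rw [not_lt] at hcon
  have h1 : (padicPlace q).valuation ((q : Qb)⁻¹) ≤ 1 := by
    rw [map_inv₀]
    exact inv_le_one_of_one_le₀ hcon
  rw [ValuationSubring.valuation_le_one_iff, mem_padicPlace_iff, map_inv₀, map_natCast,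
    ← NNReal.coe_le_coe, coe_nnnorm, norm_inv, norm_natCast_self, inv_inv] at h1
  have : (1 : ℝ) < q := by exact_mod_cast hq1
  simp at h1
  omega

/-- (IM2) all valuation subrings of `Qb` over `q` are conjugate to `padicPlace q`
(`Fermat.Agent.Lib.Frobenius.isInvariant`, `Algebra.IsInvariant.exists_smul_of_under_eq`, or (PL2)+compactness). -/
theorem exists_conj_padicPlace (A : ValuationSubring Qb) (hA : A.LiesOverPrime q) :
    ∃ σ : GQ, ∀ x : Qb, x ∈ A ↔ ‖padicEmbedding q (σ x)‖ ≤ 1 := by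
  obtain ⟨σ, hσ⟩ := image1_exists_conj_Qb A (padicPlace q) (Fact.out : q.Prime) hA
    padicPlace_liesOverPrime
  refine ⟨σ, fun x => ?_⟩
  rw [hσ x, mem_padicPlace_iff, ← NNReal.coe_le_coe, coe_nnnorm, NNReal.coe_one]

/-- (IM7) the local group of the place `σ` of `F`. -/
theorem conj_mem_fixingSubgroup_iff (F : IntermediateField ℚ Qb) (σ : GQ) (τ : Gq q) :
    σ⁻¹ * localGaloisToGlobal q τ * σ ∈ F.fixingSubgroup ↔
      τ ∈ (locF q (embOf q F σ)).fixingSubgroup := by
  rw [IntermediateField.mem_fixingSubgroup_iff, IntermediateField.mem_fixingSubgroup_iff]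
  have key : ∀ x : Qb, (σ⁻¹ * localGaloisToGlobal q τ * σ) x = x ↔
      τ (padicEmbedding q (σ x)) = padicEmbedding q (σ x) := by
    intro x
    have hinj : Function.Injective (padicEmbedding q) := (padicEmbedding q).toRingHom.injective
    rw [← padicEmbedding_localGaloisToGlobal, hinj.eq_iff]
    change σ⁻¹ (localGaloisToGlobal q τ (σ x)) = x ↔ _
    constructor
    · intro h
      have := congrArg σ h
      simpa using this
    · intro h
      rw [h]
      simp
  constructor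
  · intro h y hy
    induction hy using IntermediateField.adjoin_induction with
    | mem y hy =>
      obtain ⟨x, rfl⟩ := hy
      exact (key x).1 (h x x.2)
    | algebraMap a => exact τ.commutes a
    | add x y _ _ hx hy => rw [map_add, hx, hy]
    | inv x _ hx => rw [map_inv₀, hx]
    | mul x y _ _ hx hy => rw [map_mul, hx, hy]
  · intro h x hx
    exact (key x).2 (h _ (mem_locF (embOf q F σ) ⟨x, hx⟩))

theorem localGaloisToGlobal_mem_fixingSubgroup_iff (F : IntermediateField ℚ Qb) (τ : Gq q) :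
    localGaloisToGlobal q τ ∈ F.fixingSubgroup ↔ τ ∈ (locF q (embOf q F 1)).fixingSubgroup := by
  have := conj_mem_fixingSubgroup_iff F 1 τ
  simpa using this

end Fermat.Agent.S55.DIC
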