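import Mathlib

set_option autoImplicit false

open IsDedekindDomain Module

namespace Fermat.Agent.S55.DIC

/-! ### The index `[G : G^n]` -/

section powIdx

/-- `[G : G^n]` -/
noncomputable def powIdx (G : Type*) [CommGroup G] (n : ℕ) : ℕ :=
  (powMonoidHom n : G →* G).range.index

lemma powIdx_eq_card (G : Type*) [CommGroup G] (n : ℕ) :
    powIdx G n = Nat.card (G ⧸ (powMonoidHom n : G →* G).range) := rfl

lemma powIdx_congr {G H : Type*} [CommGroup G] [CommGroup H] (e : G ≃* H) (n : ℕ) :
    powIdx G n = powIdx H n := by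
  unfold powIdx
  have : (powMonoidHom n : G →* G).range = (powMonoidHom n : H →* H).range.comap e.toMonoidHom := by
    ext x
    simp only [MonoidHom.mem_range, powMonoidHom_apply, Subgroup.mem_comap, MulEquiv.coe_toMonoidHom]
    constructor
    · rintro ⟨y, rfl⟩; exact ⟨e y, by simp⟩
    · rintro ⟨y, hy⟩; exact ⟨e.symm y, by apply e.injective; simp [hy]⟩
  rw [this, Subgroup.index_comap_of_surjective _ e.surjective]

/-- for a finite group `[G : G^n] = #G[n]` -/
lemma powIdx_of_finite (G : Type*) [CommGroup G] [Finite G] (n : ℕ) :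
    powIdx G n = Nat.card (powMonoidHom n : G →* G).ker := by
  unfold powIdx
  have h1 := Subgroup.card_mul_index (powMonoidHom n : G →* G).range
  have h2 := Subgroup.card_mul_index (powMonoidHom n : G →* G).ker
  rw [Subgroup.index_ker] at h2
  have h3 : 0 < Nat.card (powMonoidHom n : G →* G).range := Nat.card_pos
  nlinarith [h1, h2, h3]

lemma powIdx_multiplicative (L : Type*) [AddCommGroup L] [Module.Free ℤ L] [Module.Finite ℤ L]
    (n : ℕ) : powIdx (Multiplicative L) n = n ^ finrank ℤ L := by
  rw [← AddSubgroup.index_range_nsmul L n, ← AddSubgroup.index_toSubgroup]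
  unfold powIdx
  congr 1

/-- The key exact-sequence lemma. -/
lemma powIdx_of_free_quotient (A : Type*) [CommGroup A] (B : Subgroup A) (n : ℕ) (hn : n ≠ 0)
    {L : Type*} [AddCommGroup L] [Module.Free ℤ L] [Module.Finite ℤ L]
    (φ : A →* Multiplicative L) (hφ : Function.Surjective φ) (hker : φ.ker = B) :
    powIdx A n = powIdx B n * n ^ finrank ℤ L := by
  set P : Subgroup A := (powMonoidHom n : A →* A).range with hP
  have h1 : P.relIndex (P ⊔ B) * (P ⊔ B).index = P.index :=
    Subgroup.relIndex_mul_index le_sup_left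
  have h2 : P.relIndex (P ⊔ B) = P.relIndex B := Subgroup.relIndex_sup_left B P
  have h3 : P.subgroupOf B = (powMonoidHom n : B →* B).range := by
    ext x
    simp only [Subgroup.mem_subgroupOf, hP, MonoidHom.mem_range, powMonoidHom_apply]
    constructor
    · rintro ⟨a, ha⟩
      have haB : a ∈ B := by
        rw [← hker, MonoidHom.mem_ker]
        have h : φ (a ^ n) = 1 := by
          rw [ha, ← MonoidHom.mem_ker, hker]; exact x.2
        rw [map_pow] at h
        have h' : n • (Multiplicative.toAdd (φ a)) = 0 := h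
        have h'' : Multiplicative.toAdd (φ a) = 0 := by
          have : (n : ℤ) • (Multiplicative.toAdd (φ a)) = 0 := by
            rw [natCast_zsmul]; exact h'
          exact (smul_eq_zero.1 this).resolve_left (by exact_mod_cast hn)
        exact h''
      exact ⟨⟨a, haB⟩, Subtype.ext ha⟩
    · rintro ⟨b, hb⟩
      exact ⟨b, by rw [← hb]; rfl⟩
  have h4 : (P.map φ).index = (P ⊔ B).index := by
    rw [Subgroup.index_map, hker, MonoidHom.range_eq_top_of_surjective φ hφ, Subgroup.index_top,
      mul_one]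
  have h5 : P.map φ = (powMonoidHom n : Multiplicative L →* Multiplicative L).range := by
    ext y
    simp only [Subgroup.mem_map, hP, MonoidHom.mem_range, powMonoidHom_apply]
    constructor
    · rintro ⟨_, ⟨a, rfl⟩, rfl⟩
      exact ⟨φ a, (map_pow φ a n).symm⟩
    · rintro ⟨z, rfl⟩
      obtain ⟨a, rfl⟩ := hφ z
      exact ⟨a ^ n, ⟨a, rfl⟩, map_pow φ a n⟩
  have h6 := powIdx_multiplicative L n
  unfold powIdx at h6 ⊢
  rw [← h1, h2, ← h4, h5, h6, Subgroup.relIndex, h3]

end powIdx

/-! ### `T`-units of a Dedekind domain with finite class group -/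

section Dedekind

variable {R : Type*} [CommRing R] [IsDedekindDomain R] (K : Type*) [Field K] [Algebra R K]
  [IsFractionRing R K] (T : Finset (HeightOneSpectrum R))

/-- The group of `T`-units (Mathlib's `Set.unit`). -/
noncomputable abbrev tUnit : Subgroup Kˣ := (T : Set (HeightOneSpectrum R)).unit K

lemma mem_tUnit_iff (u : Kˣ) :
    u ∈ tUnit K T ↔ ∀ v : HeightOneSpectrum R, v ∉ T → v.valuation K (u : K) = 1 := by
  constructor
  · intro h v hv
    exact h v (by simpa using hv)
  · intro h v hv
    exact h v (by simpa using hv)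

/-- the vector of (additive, sign reversed) valuations at the places of `T`. -/
noncomputable def valVec : Additive (tUnit K T) →+ (T → ℤ) where
  toFun u v := Multiplicative.toAdd (v.1.valuationOfNeZero ((Additive.toMul u : tUnit K T) : Kˣ))
  map_zero' := by ext v; simp
  map_add' a b := by ext v; simp

lemma valVec_apply (u : tUnit K T) (v : T) :
    valVec K T (Additive.ofMul u) v = Multiplicative.toAdd (v.1.valuationOfNeZero (u : Kˣ)) := rfl

/-- the lattice of valuation vectors of `T`-units. -/
noncomputable def valLattice : Submodule ℤ (T → ℤ) := (valVec K T).toIntLinearMap.range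

/-- the valuation homomorphism onto the lattice of valuation vectors. -/
noncomputable def valHom : tUnit K T →* Multiplicative (valLattice K T) where
  toFun u := Multiplicative.ofAdd ⟨valVec K T (Additive.ofMul u), ⟨Additive.ofMul u, rfl⟩⟩
  map_one' := by
    apply Multiplicative.toAdd.injective
    apply Subtype.ext
    simp
  map_mul' a b := by
    apply Multiplicative.toAdd.injective
    apply Subtype.ext
    simp

lemma valHom_surjective : Function.Surjective (valHom K T) := by
  intro y
  obtain ⟨⟨_, ⟨u, rfl⟩⟩, rfl⟩ := Multiplicative.ofAdd.surjective y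
  exact ⟨Additive.toMul u, rfl⟩

/-- global units as `T`-units. -/
noncomputable def unitsToTUnit : Rˣ →* tUnit K T :=
  (Units.map (algebraMap R K : R →* K)).codRestrict (tUnit K T) (by
    intro x v _
    have := v.valuation_of_unit_eq (K := K) x
    rw [← WithZero.coe_inj, HeightOneSpectrum.valuationOfNeZero_eq] at this
    exact this)

lemma unitsToTUnit_injective : Function.Injective (unitsToTUnit (R := R) K T) := by
  intro x y h
  have h1 : ((unitsToTUnit K T x : Kˣ) : K) = ((unitsToTUnit K T y : Kˣ) : K) := by rw [h]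
  exact Units.ext (FaithfulSMul.algebraMap_injective R K h1)

lemma valHom_eq_one_iff (u : tUnit K T) :
    valHom K T u = 1 ↔ ∀ v : HeightOneSpectrum R, v.valuation K ((u : Kˣ) : K) = 1 := by
  constructor
  · intro h v
    by_cases hv : v ∈ T
    · have h1 : valVec K T (Additive.ofMul u) = 0 := congrArg Subtype.val h
      have h2 := congrFun h1 ⟨v, hv⟩
      rw [valVec_apply] at h2
      have h3 : v.valuationOfNeZero (u : Kˣ) = 1 := h2
      rw [← HeightOneSpectrum.valuationOfNeZero_eq, h3]
      rfl
    · exact (mem_tUnit_iff K T u).1 u.2 v hv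
  · intro h
    apply Multiplicative.toAdd.injective
    apply Subtype.ext
    funext v
    change Multiplicative.toAdd (v.1.valuationOfNeZero (u : Kˣ)) = 0
    have h3 : v.1.valuationOfNeZero (u : Kˣ) = 1 := by
      rw [← WithZero.coe_inj, HeightOneSpectrum.valuationOfNeZero_eq, h v.1]
      rfl
    rw [h3]
    rfl

lemma valHom_ker : (valHom K T).ker = (unitsToTUnit (R := R) K T).range := by
  ext u
  rw [MonoidHom.mem_ker, valHom_eq_one_iff]
  constructor
  · intro h
    obtain ⟨a, ha⟩ := HeightOneSpectrum.mem_integers_of_valuation_le_one K ((u : Kˣ) : K)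
      (fun v => (h v).le)
    obtain ⟨b, hb⟩ := HeightOneSpectrum.mem_integers_of_valuation_le_one K (((u : Kˣ)⁻¹ : Kˣ) : K)
      (fun v => by
        rw [Units.val_inv_eq_inv_val, map_inv₀, h v, inv_one])
    have hab : a * b = 1 := by
      apply FaithfulSMul.algebraMap_injective R K
      rw [map_mul, ha, hb, map_one, Units.mul_inv]
    refine ⟨⟨a, b, hab, by rw [mul_comm, hab]⟩, ?_⟩
    apply Subtype.ext
    apply Units.ext
    exact ha
  · rintro ⟨x, rfl⟩ v
    have := v.valuation_of_unit_eq (K := K) x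
    rw [← WithZero.coe_inj, HeightOneSpectrum.valuationOfNeZero_eq] at this
    exact this

/-- the kernel of the valuation homomorphism is the group of global units. -/
noncomputable def unitsEquivKer : Rˣ ≃* (valHom K T).ker :=
  (MonoidHom.ofInjective (unitsToTUnit_injective K T)).trans
    (MulEquiv.subgroupCongr (valHom_ker K T).symm)

/-- a generator of `v ^ h`. -/
lemma exists_generator_pow [Finite (ClassGroup R)] (v : HeightOneSpectrum R) :
    ∃ a : R, a ≠ 0 ∧ a ∈ v.asIdeal ∧ ∀ w : HeightOneSpectrum R, w ≠ v → a ∉ w.asIdeal := by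
  classical
  set h := Nat.card (ClassGroup R) with hh
  have hpos : h ≠ 0 := Nat.card_pos.ne'
  have hv0 : v.asIdeal ∈ nonZeroDivisors (Ideal R) := mem_nonZeroDivisors_of_ne_zero v.ne_bot
  have h1 : ClassGroup.mk0 (⟨v.asIdeal, hv0⟩ ^ h : nonZeroDivisors (Ideal R)) = 1 := by
    rw [map_pow, hh, pow_card_eq_one']
  rw [ClassGroup.mk0_eq_one_iff] at h1
  obtain ⟨a, ha⟩ := h1.principal
  have ha' : v.asIdeal ^ h = Ideal.span {a} := ha
  refine ⟨a, ?_, ?_, ?_⟩
  · rintro rfl
    rw [Set.singleton_zero, Ideal.span_zero] at ha'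
    exact v.ne_bot (pow_eq_zero_iff hpos |>.1 ha')
  · have : a ∈ v.asIdeal ^ h := by rw [ha']; exact Ideal.mem_span_singleton_self a
    exact Ideal.pow_le_self hpos this
  · intro w hw haw
    have h2 : v.asIdeal ^ h ≤ w.asIdeal := by
      rw [ha', Ideal.span_singleton_le_iff_mem]; exact haw
    have h3 : v.asIdeal ≤ w.asIdeal := w.isPrime.le_of_pow_le h2
    have h4 : v.asIdeal = w.asIdeal := v.isMaximal.eq_of_le w.isPrime.ne_top h3
    exact hw (HeightOneSpectrum.ext h4.symm)

/-- for `v ∈ T` a `T`-unit whose valuation vector is a non-zero multiple of `e_v`. -/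
lemma exists_tUnit_single [Finite (ClassGroup R)] [DecidableEq T] (v : T) :
    ∃ (u : tUnit K T) (m : ℤ), m ≠ 0 ∧ valVec K T (Additive.ofMul u) = Pi.single v m := by
  obtain ⟨a, ha0, hav, haw⟩ := exists_generator_pow v.1
  have ha0' : algebraMap R K a ≠ 0 := by
    rw [Ne, map_eq_zero_iff _ (FaithfulSMul.algebraMap_injective R K)]; exact ha0
  have hval : ∀ w : HeightOneSpectrum R, w ≠ v.1 → w.valuation K (algebraMap R K a) = 1 := by
    intro w hw
    rw [HeightOneSpectrum.valuation_eq_one_iff_notMem]
    exact haw w hw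
  have hu : Units.mk0 (algebraMap R K a) ha0' ∈ tUnit K T := by
    rw [mem_tUnit_iff]
    intro w hw
    exact hval w (fun h => hw (h ▸ v.2))
  refine ⟨⟨_, hu⟩, valVec K T (Additive.ofMul ⟨_, hu⟩) v, ?_, ?_⟩
  · rw [valVec_apply]
    intro h
    have h3 : v.1.valuationOfNeZero (Units.mk0 (algebraMap R K a) ha0') = 1 := h
    rw [← WithZero.coe_inj, HeightOneSpectrum.valuationOfNeZero_eq] at h3
    have h4 : v.1.valuation K (algebraMap R K a) = 1 := h3
    rw [HeightOneSpectrum.valuation_eq_one_iff_notMem] at h4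
    exact h4 hav
  · funext w
    by_cases hw : w = v
    · subst hw; simp
    · rw [Pi.single_eq_of_ne hw, valVec_apply]
      have h3 : w.1.valuationOfNeZero (Units.mk0 (algebraMap R K a) ha0') = 1 := by
        rw [← WithZero.coe_inj, HeightOneSpectrum.valuationOfNeZero_eq]
        exact hval w.1 (fun h => hw (Subtype.ext h))
      change Multiplicative.toAdd (w.1.valuationOfNeZero (Units.mk0 (algebraMap R K a) ha0')) = 0
      rw [h3]; rfl

lemma finrank_valLattice [Finite (ClassGroup R)] : finrank ℤ (valLattice K T) = T.card := by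
  classical
  apply le_antisymm
  · have := (valLattice K T).finrank_le
    simpa using this
  · choose u m hm hu using fun v : T => exists_tUnit_single K T v
    let D : (T → ℤ) →ₗ[ℤ] (T → ℤ) := LinearMap.pi fun v => m v • LinearMap.proj v
    have hD : Function.Injective D := by
      intro x y hxy
      funext v
      have := congrFun hxy v
      simp only [D, LinearMap.pi_apply, LinearMap.smul_apply, LinearMap.proj_apply,
        smul_eq_mul] at this
      exact mul_left_cancel₀ (hm v) this
    have hr : finrank ℤ (LinearMap.range D) = T.card := by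
      rw [LinearMap.finrank_range_of_inj hD]; simp
    rw [← hr]
    apply Submodule.finrank_mono
    rintro _ ⟨x, rfl⟩
    have : D x = ∑ v : T, x v • valVec K T (Additive.ofMul (u v)) := by
      funext w
      simp only [D, LinearMap.pi_apply, LinearMap.smul_apply, LinearMap.proj_apply,
        smul_eq_mul, hu, Finset.sum_apply, Pi.smul_apply, Pi.single_apply, mul_ite, mul_zero,
        Finset.sum_ite_eq, Finset.mem_univ, if_true]
      ring
    rw [this]
    exact Submodule.sum_mem _ fun v _ => Submodule.smul_mem _ _ ⟨Additive.ofMul (u v), rfl⟩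

/-- **`T`-unit index, Dedekind form.** -/
theorem powIdx_tUnit [Finite (ClassGroup R)] (n : ℕ) (hn : n ≠ 0) :
    powIdx (tUnit K T) n = powIdx Rˣ n * n ^ T.card := by
  rw [powIdx_of_free_quotient (tUnit K T) (valHom K T).ker n hn (valHom K T)
    (valHom_surjective K T) rfl, finrank_valLattice, powIdx_congr (unitsEquivKer K T)]

end Dedekind

/-! ### Number fields -/

section NumberField

open NumberField

variable (F : Type*) [Field F] [NumberField F]

/-- `[O_F^× : (O_F^×)^n] = [μ(F) : μ(F)^n] * n ^ rank`. -/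
lemma powIdx_units (n : ℕ) (hn : n ≠ 0) :
    powIdx (𝓞 F)ˣ n = powIdx (Units.torsion F) n * n ^ Units.rank F := by
  have := powIdx_of_free_quotient (𝓞 F)ˣ (Units.torsion F) n hn
    (L := Additive ((𝓞 F)ˣ ⧸ Units.torsion F))
    { toFun := fun x => Multiplicative.ofAdd (Additive.ofMul (QuotientGroup.mk x))
      map_one' := rfl
      map_mul' := fun _ _ => rfl }
    (by
      intro y
      obtain ⟨x, hx⟩ := QuotientGroup.mk_surjective (Additive.toMul (Multiplicative.toAdd y))
      exact ⟨x, by
        change Multiplicative.ofAdd (Additive.ofMul (QuotientGroup.mk x)) = y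
        rw [hx]; rfl⟩)
    (by
      ext x
      rw [MonoidHom.mem_ker]
      change (QuotientGroup.mk x : (𝓞 F)ˣ ⧸ Units.torsion F) = 1 ↔ _
      rw [QuotientGroup.eq_one_iff])
  rw [this, Units.finrank_modTorsion]

omit [NumberField F] in
/-- the `n`-torsion of `μ(F)` is `μ_n(F)`. -/
lemma card_ker_pow_torsion (n : ℕ) (hn : n ≠ 0) :
    Nat.card (powMonoidHom n : Units.torsion F →* Units.torsion F).ker
      = Nat.card (rootsOfUnity n F) := by
  have hmem : ∀ x : (powMonoidHom n : Units.torsion F →* Units.torsion F).ker,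
      Units.map (algebraMap (𝓞 F) F : 𝓞 F →* F) (x.1.1) ∈ rootsOfUnity n F := by
    intro x
    have h1 : x.1 ^ n = 1 := x.2
    have h2 : (x.1.1) ^ n = 1 := congrArg Subtype.val h1
    rw [mem_rootsOfUnity, ← map_pow, h2, map_one]
  refine Nat.card_congr (Equiv.ofBijective (fun x => ⟨_, hmem x⟩) ⟨?_, ?_⟩)
  · intro x y hxy
    have h1 : Units.map (algebraMap (𝓞 F) F : 𝓞 F →* F) (x.1.1)
        = Units.map (algebraMap (𝓞 F) F : 𝓞 F →* F) (y.1.1) := congrArg Subtype.val hxy
    have h2 : algebraMap (𝓞 F) F (x.1.1 : 𝓞 F) = algebraMap (𝓞 F) F (y.1.1 : 𝓞 F) :=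
      congrArg Units.val h1
    exact Subtype.ext (Subtype.ext (Units.ext (FaithfulSMul.algebraMap_injective (𝓞 F) F h2)))
  · rintro ⟨ζ, hζ⟩
    rw [mem_rootsOfUnity] at hζ
    have hζ1 : (ζ : F) ^ n = 1 := by rw [← Units.val_pow_eq_pow_val, hζ, Units.val_one]
    have hζ2 : ((ζ⁻¹ : Fˣ) : F) ^ n = 1 := by
      rw [← Units.val_pow_eq_pow_val, inv_pow, hζ, inv_one, Units.val_one]
    have hi1 : IsIntegral ℤ (ζ : F) :=
      IsIntegral.of_pow (Nat.pos_of_ne_zero hn) (by rw [hζ1]; exact isIntegral_one)
    have hi2 : IsIntegral ℤ ((ζ⁻¹ : Fˣ) : F) :=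
      IsIntegral.of_pow (Nat.pos_of_ne_zero hn) (by rw [hζ2]; exact isIntegral_one)
    obtain ⟨a, ha⟩ : ∃ a : 𝓞 F, algebraMap (𝓞 F) F a = ζ := ⟨⟨ζ, hi1⟩, rfl⟩
    obtain ⟨b, hb⟩ : ∃ b : 𝓞 F, algebraMap (𝓞 F) F b = ((ζ⁻¹ : Fˣ) : F) := ⟨⟨_, hi2⟩, rfl⟩
    have hab : a * b = 1 := by
      apply FaithfulSMul.algebraMap_injective (𝓞 F) F
      rw [map_mul, ha, hb, map_one, Units.mul_inv]
    let z : (𝓞 F)ˣ := ⟨a, b, hab, by rw [mul_comm, hab]⟩
    have hz : z ^ n = 1 := by
      apply Units.ext
      apply FaithfulSMul.algebraMap_injective (𝓞 F) F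
      rw [Units.val_pow_eq_pow_val, map_pow, Units.val_one, map_one]
      change (algebraMap (𝓞 F) F a) ^ n = 1
      rw [ha, hζ1]
    have hzt : z ∈ Units.torsion F := by
      rw [Units.torsion, CommGroup.mem_torsion]
      exact isOfFinOrder_iff_pow_eq_one.2 ⟨n, Nat.pos_of_ne_zero hn, hz⟩
    refine ⟨⟨⟨z, hzt⟩, ?_⟩, ?_⟩
    · rw [MonoidHom.mem_ker]
      exact Subtype.ext hz
    · apply Subtype.ext
      apply Units.ext
      exact ha

/-- **Dirichlet's `T`-unit theorem, index form.** -/
theorem card_tUnit_quot_pow (T : Finset (HeightOneSpectrum (𝓞 F))) (n : ℕ) (hn : n ≠ 0) :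
    Nat.card (tUnit F T ⧸ (powMonoidHom n : tUnit F T →* tUnit F T).range)
      = Nat.card (rootsOfUnity n F) * n ^ (Units.rank F + T.card) := by
  rw [← powIdx_eq_card, powIdx_tUnit F T n hn, powIdx_units F n hn, powIdx_of_finite,
    card_ker_pow_torsion F n hn, pow_add, mul_assoc]

/-- the same with Mathlib's `Set.unit` spelled out. -/
theorem card_unit_quot_pow (T : Finset (HeightOneSpectrum (𝓞 F))) (n : ℕ) (hn : n ≠ 0) :
    Nat.card (((T : Set (HeightOneSpectrum (𝓞 F))).unit F) ⧸
        (powMonoidHom n : ((T : Set (HeightOneSpectrum (𝓞 F))).unit F) →* _).range)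
      = Nat.card (rootsOfUnity n F) * n ^ (Units.rank F + T.card) :=
  card_tUnit_quot_pow F T n hn

/-- in particular the quotient is finite. -/
theorem finite_tUnit_quot_pow (T : Finset (HeightOneSpectrum (𝓞 F))) (n : ℕ) (hn : n ≠ 0) :
    Finite (tUnit F T ⧸ (powMonoidHom n : tUnit F T →* tUnit F T).range) := by
  apply Nat.finite_of_card_ne_zero
  rw [card_tUnit_quot_pow F T n hn]
  have : NeZero n := ⟨hn⟩
  exact mul_ne_zero Nat.card_pos.ne' (pow_ne_zero _ hn)

end NumberField

end Fermat.Agent.S55.DIC
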