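import Fermat.Agent.S55.DIC.Image3

/-! umbrella file: IMAGE = Image1 + Image2 + Image3 -/
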