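import Fermat.Agent.S55.SREF.Defs
import Fermat.Agent.S55.DIC.Image

set_option autoImplicit false

open groupCohomology ExtCitation NumberField IsDedekindDomain
open scoped Pointwise
open Fermat.Agent.S55.SREF

namespace Fermat.Agent.S55.DIC.ForSREF

variable {p : ℕ} [Fact p.Prime] {S : Finset Nat.Primes}

/-- (D3) every valuation subring over `q` is a conjugate of the chosen one
(= `exists_conj_padicPlace`, Image1). -/
theorem exists_locPlace_eq (q : Nat.Primes) (𝒜 : ValuationSubring SREF.Qb)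
    (h𝒜 : 𝒜.LiesOverPrime (q : ℕ)) : ∃ γ : SREF.GQ, 𝒜 = locPlace q γ := by
  obtain ⟨σ, hσ⟩ := exists_conj_padicPlace (q := (q : ℕ)) 𝒜 h𝒜
  refine ⟨σ⁻¹, SetLike.ext fun x => ?_⟩
  rw [hσ x]
  change _ ↔ ‖padicEmbedding (q : ℕ) ((σ⁻¹)⁻¹ x)‖₊ ≤ 1
  rw [inv_inv, ← NNReal.coe_le_coe, coe_nnnorm, NNReal.coe_one]

/-- (D4) the local Galois group surjects onto the decomposition group
(= `range_localGaloisToGlobal`, Image3). -/
theorem exists_primeLocalToGlobal_eq (q : Nat.Primes) (σ : SREF.GQ)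
    (hσ : σ • primeLocalPlace q = primeLocalPlace q) :
    ∃ h : primeLocalGaloisGroup q, primeLocalToGlobal q h = σ := by
  have h : σ ∈ (padicPlace (q : ℕ)).decompositionSubgroup ℚ := MulAction.mem_stabilizer_iff.2 hσ
  rw [← range_localGaloisToGlobal] at h
  obtain ⟨τ, hτ⟩ := h
  exact ⟨τ, hτ⟩

/-- `SamePlace` is the equality of the induced places of `L` (= `placeOf_embOf_eq_iff`, Image3). -/
theorem samePlace_iff (L : IntermediateField ℚ SREF.Qb) [NumberField L] (q : Nat.Primes)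
    (γ γ' : SREF.GQ) :
    SamePlace L.fixingSubgroup q γ q γ' ↔
      placeOf (q : ℕ) (embOf (q : ℕ) L γ⁻¹) = placeOf (q : ℕ) (embOf (q : ℕ) L γ'⁻¹) := by
  rw [placeOf_embOf_eq_iff]
  constructor
  · rintro ⟨-, s, hs, h, rfl⟩
    refine ⟨(show Gq (q : ℕ) from h)⁻¹, s⁻¹, inv_mem hs, ?_⟩
    rw [map_inv, mul_inv_rev, mul_inv_rev, mul_assoc]
    rfl
  · rintro ⟨τ, h, hh, e⟩
    refine ⟨rfl, h⁻¹, inv_mem hh, (show primeLocalGaloisGroup q from τ⁻¹), ?_⟩
    have e2 : γ' = h⁻¹ * γ * (localGaloisToGlobal (q : ℕ) τ)⁻¹ := by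
      rw [← inv_inv γ', e, mul_inv_rev, mul_inv_rev, inv_inv, mul_assoc]
    rw [e2, ← map_inv]
    rfl

/-- the local group `locSub q γ G_L` is the fixing subgroup of the local field. -/
theorem mem_locSub_iff (L : IntermediateField ℚ SREF.Qb) (q : Nat.Primes) (γ : SREF.GQ)
    (h : primeLocalGaloisGroup q) :
    h ∈ locSub q γ L.fixingSubgroup ↔
      (show Gq (q : ℕ) from h) ∈ (locF (q : ℕ) (embOf (q : ℕ) L γ⁻¹)).fixingSubgroup := by
  rw [← conj_mem_fixingSubgroup_iff, inv_inv]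
  rfl

end Fermat.Agent.S55.DIC.ForSREF
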