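import Fermat.Agent.S55.DIC.Dense

/-!
# S55-DIC (DEGREE): `∑_{v | q} [K_v : ℚ_q] = [K : ℚ]`, by counting embeddings
-/

set_option autoImplicit false

open NumberField IsDedekindDomain

namespace Fermat.Agent.S55.DIC

variable {q : ℕ} [Fact q.Prime] {K : Type*} [Field K] [NumberField K]

variable (q K) in
/-- the finite places of `K` above `q`. -/
abbrev PlacesOver : Type _ := {v : HeightOneSpectrum (𝓞 K) // ((q : ℕ) : 𝓞 K) ∈ v.asIdeal}

/-- the place over `q` of an embedding -/
private noncomputable def degreePlace (j : K →+* PadicAlgCl q) : PlacesOver q K :=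
  ⟨placeOf q j, natCast_mem_primeOf j⟩

private theorem degreePlace_surjective :
    Function.Surjective (degreePlace : (K →+* PadicAlgCl q) → PlacesOver q K) := by
  rintro ⟨v, hv⟩
  obtain ⟨j, hj⟩ := exists_emb_placeOf_eq v hv
  exact ⟨j, Subtype.ext hj⟩

instance finite_placesOver : Finite (PlacesOver q K) :=
  Finite.of_surjective _ degreePlace_surjective

instance nonempty_placesOver : Nonempty (PlacesOver q K) :=
  ⟨degreePlace (Classical.arbitrary (K →+* PadicAlgCl q))⟩

instance finite_emb : Finite (K →+* PadicAlgCl q) := inferInstance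

theorem card_emb : Nat.card (K →+* PadicAlgCl q) = Module.finrank ℚ K := by
  rw [← Fintype.card_eq_nat_card]
  exact NumberField.Embeddings.card K (PadicAlgCl q)

/-- extension of an embedding of `locF q j` to an automorphism -/
private theorem degree_exists_algEquiv (L : IntermediateField ℚ_[q] (PadicAlgCl q))
    (φ : L →ₐ[ℚ_[q]] PadicAlgCl q) : ∃ τ : Gq q, ∀ x : L, τ (x : PadicAlgCl q) = φ x := by
  let ψ : PadicAlgCl q →ₐ[ℚ_[q]] PadicAlgCl q := φ.liftNormal (PadicAlgCl q)
  refine ⟨AlgEquiv.ofBijective ψ (Algebra.IsAlgebraic.algHom_bijective ψ), fun x => ?_⟩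
  exact φ.liftNormal_commutes (PadicAlgCl q) x

/-- the fibre of `placeOf` through `j` is the `Gq`-orbit of `j`; it is in bijection with
`locF q j →ₐ[ℚ_q] PadicAlgCl q`, which has `[locF q j : ℚ_q]` elements. -/
theorem card_fiber_placeOf (j : K →+* PadicAlgCl q) :
    Nat.card {j' : K →+* PadicAlgCl q // placeOf q j' = placeOf q j} =
      Module.finrank ℚ_[q] (locF q j) := by
  let j₀ : K →+* locF q j := j.codRestrict (locF q j).toSubfield.toSubring (mem_locF j)
  have hj₀ : ∀ x, ((j₀ x : locF q j) : PadicAlgCl q) = j x := fun _ => rfl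
  let f : (locF q j →ₐ[ℚ_[q]] PadicAlgCl q) →
      {j' : K →+* PadicAlgCl q // placeOf q j' = placeOf q j} := fun φ =>
    ⟨(φ : locF q j →+* PadicAlgCl q).comp j₀, by
      obtain ⟨τ, hτ⟩ := degree_exists_algEquiv _ φ
      refine ((placeOf_eq_iff j _).2 ⟨τ, fun x => ?_⟩).symm
      rw [← hj₀ x, hτ]
      rfl⟩
  have hf : Function.Bijective f := by
    constructor
    · intro φ φ' h
      apply IntermediateField.algHom_ext_of_eq_adjoin ℚ_[q] (rfl : locF q j = _)
      rintro _ ⟨x, rfl⟩
      have h1 := congrArg (fun t : {j' : K →+* PadicAlgCl q // placeOf q j' = placeOf q j} =>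
        t.1 x) h
      exact h1
    · rintro ⟨j', hj'⟩
      obtain ⟨τ, hτ⟩ := (placeOf_eq_iff j j').1 hj'.symm
      refine ⟨(τ : PadicAlgCl q →ₐ[ℚ_[q]] PadicAlgCl q).comp (locF q j).val, Subtype.ext ?_⟩
      ext x
      exact (hτ x).symm
  rw [← Nat.card_congr (Equiv.ofBijective f hf), ← Fintype.card_eq_nat_card]
  exact AlgHom.card ℚ_[q] (locF q j) (PadicAlgCl q)

/-- **sum of the local degrees.** -/
theorem sum_finrank_locF (jv : PlacesOver q K → (K →+* PadicAlgCl q))
    (h : ∀ v, placeOf q (jv v) = v.1) :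
    ∑ᶠ v : PlacesOver q K, Module.finrank ℚ_[q] (locF q (jv v)) = Module.finrank ℚ K := by
  classical
  have : Fintype (PlacesOver q K) := Fintype.ofFinite _
  rw [finsum_eq_sum_of_fintype, ← card_emb (q := q),
    ← Nat.card_congr (Equiv.sigmaFiberEquiv
      (degreePlace : (K →+* PadicAlgCl q) → PlacesOver q K)), Nat.card_sigma]
  refine Finset.sum_congr rfl fun v _ => ?_
  rw [← card_fiber_placeOf (jv v)]
  refine Nat.card_congr (Equiv.subtypeEquivRight fun j' => ?_)
  rw [h v]
  exact ⟨fun h1 => Subtype.ext h1, fun h1 => congrArg Subtype.val h1⟩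

/-- the index of `G_{K_j}` in `Gq` is the local degree. -/
theorem index_fixingSubgroup_locF (j : K →+* PadicAlgCl q) :
    (locF q j).fixingSubgroup.index = Module.finrank ℚ_[q] (locF q j) :=
  (IntermediateField.finrank_eq_fixingSubgroup_index (E' := PadicAlgCl q) (locF q j)).symm

end Fermat.Agent.S55.DIC
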