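import Fermat.Agent.S55.DIC.Image
import Fermat.Agent.S55.DIC.Degree

/-!
# S55-DIC (COUNT): for `L / ℚ` Galois: number of places over `q` = `[G_ℚ : G_L · D_q]`,
`#places * local degree = [L : ℚ]`
-/

set_option autoImplicit false

open NumberField IsDedekindDomain

namespace Fermat.Agent.S55.DIC

variable {q : ℕ} [Fact q.Prime]

lemma Count_normal' (L : IntermediateField ℚ Qb) [h : Normal ℚ L] :
    @Normal ℚ L _ _ (IntermediateField.algebra' L) := by
  convert h
  exact Subsingleton.elim _ _

lemma Count_apply_mem (L : IntermediateField ℚ Qb) [Normal ℚ L] (σ : GQ) {x : Qb} (hx : x ∈ L) :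
    σ x ∈ L := by
  have h := Count_normal' L
  have hn : Normal ℚ Qb := image1_normalQbar
  have h1 := (IntermediateField.normal_iff_forall_map_eq'.mp h) σ
  rw [← h1]
  exact ⟨x, hx, rfl⟩

lemma Count_fixingSubgroup_normal (L : IntermediateField ℚ Qb) [Normal ℚ L] :
    L.fixingSubgroup.Normal := by
  have h := Count_normal' L
  rw [← IntermediateField.restrictNormalHom_ker L]
  exact MonoidHom.normal_ker _

/-- for `L` normal over `ℚ` the local field does not depend on the place. -/
theorem locF_embOf_eq_of_normal (L : IntermediateField ℚ Qb) [Normal ℚ L] (σ : GQ) :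
    locF q (embOf q L σ) = locF q (embOf q L 1) := by
  have h : Set.range (embOf q L σ) = Set.range (embOf q L 1) := by
    ext y
    constructor
    · rintro ⟨x, rfl⟩
      exact ⟨⟨σ x, Count_apply_mem L σ x.2⟩, rfl⟩
    · rintro ⟨x, rfl⟩
      refine ⟨⟨σ⁻¹ x, Count_apply_mem L σ⁻¹ x.2⟩, ?_⟩
      simp only [embOf_apply]
      congr 1
      exact σ.apply_symm_apply _
  unfold locF
  rw [h]

/-- the map `σ ↦ placeOf q (embOf q L σ)` from `G_ℚ` to the places over `q` is onto. -/
theorem exists_placeOf_embOf_eq (L : IntermediateField ℚ Qb) [NumberField L]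
    (v : PlacesOver q L) : ∃ σ : GQ, placeOf q (embOf q L σ) = v.1 := by
  obtain ⟨j, hj⟩ := exists_emb_placeOf_eq v.1 v.2
  obtain ⟨σ, rfl⟩ := exists_embOf_eq L j
  exact ⟨σ, hj⟩

/-- **number of places** (`L` normal, so `G_L ⊔ D_q = G_L · D_q`). -/
theorem card_placesOver_eq_index (L : IntermediateField ℚ Qb) [NumberField L] [Normal ℚ L] :
    Nat.card (PlacesOver q L) = (L.fixingSubgroup ⊔ (localGaloisToGlobal q).range).index := by
  have hN : L.fixingSubgroup.Normal := Count_fixingSubgroup_normal L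
  set P : Subgroup GQ := L.fixingSubgroup ⊔ (localGaloisToGlobal q).range with hP
  have hmem : ∀ x : GQ, x ∈ P ↔ ∃ h ∈ L.fixingSubgroup, ∃ τ : Gq q,
      x = h * localGaloisToGlobal q τ := by
    intro x
    rw [← SetLike.mem_coe, hP, Subgroup.normal_mul, Set.mem_mul]
    constructor
    · rintro ⟨h, hh, d, ⟨τ, rfl⟩, rfl⟩
      exact ⟨h, hh, τ, rfl⟩
    · rintro ⟨h, hh, τ, rfl⟩
      exact ⟨h, hh, _, ⟨τ, rfl⟩, rfl⟩
  let Φ : GQ → PlacesOver q L := fun σ =>
    ⟨placeOf q (embOf q L σ⁻¹), natCast_mem_primeOf _⟩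
  have hΦ : ∀ σ σ' : GQ, Φ σ = Φ σ' ↔ σ⁻¹ * σ' ∈ P := by
    intro σ σ'
    rw [Subtype.ext_iff, placeOf_embOf_eq_iff, hmem]
    constructor
    · rintro ⟨τ, h, hh, he⟩
      refine ⟨σ⁻¹ * h⁻¹ * σ, ?_, τ⁻¹, ?_⟩
      · have := hN.conj_mem h⁻¹ (L.fixingSubgroup.inv_mem hh) σ⁻¹
        simpa using this
      · have h2 : σ' = h⁻¹ * σ * (localGaloisToGlobal q τ)⁻¹ := by
          rw [← inv_inv σ', he]
          group
        rw [h2, map_inv]
        group
    · rintro ⟨h, hh, τ, he⟩
      refine ⟨τ⁻¹, σ * h⁻¹ * σ⁻¹, ?_, ?_⟩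
      · exact hN.conj_mem h⁻¹ (L.fixingSubgroup.inv_mem hh) σ
      · have h2 : σ' = σ * (h * localGaloisToGlobal q τ) := by
          rw [← he]
          group
        rw [h2, map_inv]
        group
  have hsurj : Function.Surjective Φ := by
    intro v
    obtain ⟨σ, hσ⟩ := exists_placeOf_embOf_eq L v
    refine ⟨σ⁻¹, Subtype.ext ?_⟩
    simp only [Φ, inv_inv]
    exact hσ
  let Ψ : GQ ⧸ P → PlacesOver q L := Quotient.lift Φ (by
    intro a b hab
    exact (hΦ a b).mpr (QuotientGroup.leftRel_apply.mp hab))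
  have hΨ : Function.Bijective Ψ := by
    constructor
    · intro a b
      induction a using QuotientGroup.induction_on with | H a => ?_
      induction b using QuotientGroup.induction_on with | H b => ?_
      intro hab
      exact QuotientGroup.eq.mpr ((hΦ a b).mp hab)
    · intro v
      obtain ⟨σ, hσ⟩ := hsurj v
      exact ⟨QuotientGroup.mk σ, hσ⟩
  exact (Nat.card_eq_of_bijective Ψ hΨ).symm

/-- `g · n_q = n`. -/
theorem card_placesOver_mul_finrank (L : IntermediateField ℚ Qb) [NumberField L] [Normal ℚ L] :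
    Nat.card (PlacesOver q L) * Module.finrank ℚ_[q] (locF q (embOf q L 1)) =
      Module.finrank ℚ L := by
  classical
  choose s hs using exists_placeOf_embOf_eq (q := q) L
  have h := sum_finrank_locF (q := q) (K := L) (fun v => embOf q L (s v)) hs
  have h2 : ∀ v : PlacesOver q L, Module.finrank ℚ_[q] (locF q (embOf q L (s v))) =
      Module.finrank ℚ_[q] (locF q (embOf q L 1)) := fun v => by
    rw [locF_embOf_eq_of_normal]
  rw [finsum_congr h2] at h
  have := Fintype.ofFinite (PlacesOver q L)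
  rw [finsum_eq_sum_of_fintype, Finset.sum_const, Finset.card_univ, smul_eq_mul,
    ← Nat.card_eq_fintype_card] at h
  exact h

/-- the local degree as an index in the local Galois group. -/
theorem index_comap_fixingSubgroup (L : IntermediateField ℚ Qb) [NumberField L] :
    (L.fixingSubgroup.comap (localGaloisToGlobal q)).index =
      Module.finrank ℚ_[q] (locF q (embOf q L 1)) := by
  rw [← index_fixingSubgroup_locF]
  congr 1
  ext τ
  rw [Subgroup.mem_comap]
  exact localGaloisToGlobal_mem_fixingSubgroup_iff L τ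

end Fermat.Agent.S55.DIC
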