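import Fermat.Agent.S55.DIC.Ord
/-!
# S55-DIC (CLT): divisors outside `T`, the `T`-class group, the Selmer-type group `K(T,n)`
-/

set_option autoImplicit false

open NumberField IsDedekindDomain

namespace Fermat.Agent.S55.DIC

variable {K : Type*} [Field K] [NumberField K]

/-- divisors supported outside `T`. -/
abbrev DivT (T : Set (HeightOneSpectrum (𝓞 K))) : Type _ :=
  {v : HeightOneSpectrum (𝓞 K) // v ∉ T} →₀ ℤ

/-- the divisor (outside `T`) of an element of `Kˣ`. -/
noncomputable def divT (T : Set (HeightOneSpectrum (𝓞 K))) : Additive Kˣ →+ DivT T where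
  toFun x := Finsupp.ofSupportFinite (fun v => ord v.1 ((Additive.toMul x : Kˣ) : K))
    ((finite_ord_ne_zero ((Additive.toMul x : Kˣ) : K)).preimage Subtype.val_injective.injOn)
  map_zero' := by
    ext v; simp [Finsupp.ofSupportFinite_coe, ord_one]
  map_add' x y := by
    ext v
    rw [Finsupp.add_apply]
    simp only [Finsupp.ofSupportFinite_coe, toMul_add, Units.val_mul]
    exact ord_mul v.1 (Additive.toMul x).ne_zero (Additive.toMul y).ne_zero

@[simp] theorem divT_apply (T : Set (HeightOneSpectrum (𝓞 K))) (x : Kˣ)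
    (v : {v : HeightOneSpectrum (𝓞 K) // v ∉ T}) :
    divT T (Additive.ofMul x) v = ord v.1 (x : K) := rfl

/-- the `T`-class group. -/
abbrev ClT (T : Set (HeightOneSpectrum (𝓞 K))) : Type _ := DivT T ⧸ (divT T).range

open scoped nonZeroDivisors in
/-- `ord` of an integer is the multiplicity in the principal ideal. -/
theorem clt1_ord_coe (v : HeightOneSpectrum (𝓞 K)) {a : 𝓞 K} (ha : a ≠ 0) :
    ord v (algebraMap (𝓞 K) K a) =
      ((Associates.mk v.asIdeal).count (Associates.mk (Ideal.span {a})).factors : ℤ) := by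
  rw [ord, HeightOneSpectrum.valuation_of_algebraMap, HeightOneSpectrum.intValuation_if_neg v ha,
    WithZero.log_exp, neg_neg]

open scoped nonZeroDivisors in
/-- the multiplicity of `v` in the principal fractional ideal `(x)` is `ord v x`. -/
theorem clt1_count_spanSingleton (v : HeightOneSpectrum (𝓞 K)) {x : K} (hx : x ≠ 0) :
    FractionalIdeal.count K v (FractionalIdeal.spanSingleton (𝓞 K)⁰ x) = ord v x := by
  obtain ⟨a, b, hb, rfl⟩ := IsFractionRing.div_surjective (A := 𝓞 K) x
  have hb0 : b ≠ 0 := nonZeroDivisors.ne_zero hb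
  have ha0 : a ≠ 0 := by
    rintro rfl
    simp at hx
  have hb' : algebraMap (𝓞 K) K b ≠ 0 := by
    rw [Ne, map_eq_zero_iff _ (FaithfulSMul.algebraMap_injective (𝓞 K) K)]; exact hb0
  have ha' : algebraMap (𝓞 K) K a ≠ 0 := by
    rw [Ne, map_eq_zero_iff _ (FaithfulSMul.algebraMap_injective (𝓞 K) K)]; exact ha0
  rw [FractionalIdeal.count_well_defined K v (a := b) (J := Ideal.span {a})
    (by rw [Ne, FractionalIdeal.spanSingleton_eq_zero_iff]; exact hx)
    (by
      rw [FractionalIdeal.coeIdeal_span_singleton, FractionalIdeal.spanSingleton_mul_spanSingleton,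
        div_eq_inv_mul]),
    div_eq_mul_inv, ord_mul v ha' (inv_ne_zero hb'), ord_inv, clt1_ord_coe v ha0,
    clt1_ord_coe v hb0, sub_eq_add_neg]

open scoped nonZeroDivisors in
/-- the divisor outside `T` of an invertible fractional ideal. -/
noncomputable def clt1_divI (T : Set (HeightOneSpectrum (𝓞 K))) :
    (FractionalIdeal (𝓞 K)⁰ K)ˣ →* Multiplicative (DivT T) where
  toFun I := Multiplicative.ofAdd (Finsupp.ofSupportFinite
    (fun v => FractionalIdeal.count K v.1 (I : FractionalIdeal (𝓞 K)⁰ K))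
    ((FractionalIdeal.finite_factors (I : FractionalIdeal (𝓞 K)⁰ K)).preimage
      Subtype.val_injective.injOn))
  map_one' := by
    apply Multiplicative.toAdd.injective
    ext v
    simp [Finsupp.ofSupportFinite_coe, FractionalIdeal.count_one]
  map_mul' I J := by
    apply Multiplicative.toAdd.injective
    ext v
    rw [toAdd_mul, Finsupp.add_apply]
    simp only [toAdd_ofAdd, Finsupp.ofSupportFinite_coe, Units.val_mul]
    exact FractionalIdeal.count_mul K v.1 I.ne_zero J.ne_zero

open scoped nonZeroDivisors in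
theorem clt1_divI_apply (T : Set (HeightOneSpectrum (𝓞 K))) (I : (FractionalIdeal (𝓞 K)⁰ K)ˣ)
    (v : {v : HeightOneSpectrum (𝓞 K) // v ∉ T}) :
    Multiplicative.toAdd (clt1_divI T I) v
      = FractionalIdeal.count K v.1 (I : FractionalIdeal (𝓞 K)⁰ K) := rfl

open scoped nonZeroDivisors in
theorem clt1_divI_surjective (T : Set (HeightOneSpectrum (𝓞 K))) :
    Function.Surjective (clt1_divI (K := K) T) := by
  classical
  intro D
  let E : HeightOneSpectrum (𝓞 K) →₀ ℤ := (Multiplicative.toAdd D).extendDomain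
  have hne : E.prod (fun w n => (w.asIdeal : FractionalIdeal (𝓞 K)⁰ K) ^ n) ≠ 0 := by
    rw [Finsupp.prod, Finset.prod_ne_zero_iff]
    exact fun w _ => zpow_ne_zero _ (FractionalIdeal.coeIdeal_ne_zero.mpr w.ne_bot)
  refine ⟨Units.mk0 _ hne, ?_⟩
  apply Multiplicative.toAdd.injective
  ext v
  rw [clt1_divI_apply, Units.val_mk0, FractionalIdeal.count_finsuppProd]
  exact DFunLike.congr_fun (Finsupp.subtypeDomain_extendDomain (Multiplicative.toAdd D)) v

open scoped nonZeroDivisors in
theorem clt1_divI_principal (T : Set (HeightOneSpectrum (𝓞 K))) (x : Kˣ) :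
    Multiplicative.toAdd (clt1_divI T (toPrincipalIdeal (𝓞 K) K x)) = divT T (Additive.ofMul x) := by
  ext v
  rw [clt1_divI_apply, coe_toPrincipalIdeal, clt1_count_spanSingleton v.1 x.ne_zero, divT_apply]

open scoped nonZeroDivisors in
/-- the surjection from the ideal class group. -/
noncomputable def clt1_cl (T : Set (HeightOneSpectrum (𝓞 K))) :
    (FractionalIdeal (𝓞 K)⁰ K)ˣ ⧸ (toPrincipalIdeal (𝓞 K) K).range →* Multiplicative (ClT T) :=
  QuotientGroup.lift _ ((QuotientAddGroup.mk' (divT T).range).toMultiplicative.comp (clt1_divI T))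
    (by
      rintro _ ⟨x, rfl⟩
      apply Multiplicative.toAdd.injective
      change QuotientAddGroup.mk (Multiplicative.toAdd (clt1_divI T (toPrincipalIdeal (𝓞 K) K x))) = 0
      rw [clt1_divI_principal, QuotientAddGroup.eq_zero_iff]
      exact ⟨_, rfl⟩)

open scoped nonZeroDivisors in
theorem clt1_cl_mk (T : Set (HeightOneSpectrum (𝓞 K))) (I : (FractionalIdeal (𝓞 K)⁰ K)ˣ) :
    Multiplicative.toAdd (clt1_cl T (QuotientGroup.mk I))
      = QuotientAddGroup.mk (Multiplicative.toAdd (clt1_divI T I)) := rfl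

theorem clt1_cl_surjective (T : Set (HeightOneSpectrum (𝓞 K))) :
    Function.Surjective (clt1_cl (K := K) T) := by
  intro y
  obtain ⟨D, hD⟩ := QuotientAddGroup.mk_surjective (Multiplicative.toAdd y)
  obtain ⟨I, hI⟩ := clt1_divI_surjective T (Multiplicative.ofAdd D)
  refine ⟨QuotientGroup.mk I, ?_⟩
  apply Multiplicative.toAdd.injective
  rw [clt1_cl_mk, hI, ← hD]
  rfl

open scoped nonZeroDivisors in
theorem clt1_finite_cl :
    Finite ((FractionalIdeal (𝓞 K)⁰ K)ˣ ⧸ (toPrincipalIdeal (𝓞 K) K).range) :=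
  Finite.of_equiv _ (ClassGroup.equiv (R := 𝓞 K) K).toEquiv

/-- finiteness (surjection from `ClassGroup (𝓞 K)`). -/
instance finite_ClT (T : Set (HeightOneSpectrum (𝓞 K))) : Finite (ClT T) := by
  have := clt1_finite_cl (K := K)
  have h : Finite (Multiplicative (ClT T)) := Finite.of_surjective _ (clt1_cl_surjective T)
  exact h

theorem divT_eq_zero_iff (T : Set (HeightOneSpectrum (𝓞 K))) (x : Kˣ) :
    divT T (Additive.ofMul x) = 0 ↔ x ∈ T.unit K := by
  rw [mem_unit_iff_ord]
  constructor
  · intro h v hv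
    have := DFunLike.congr_fun h ⟨v, hv⟩
    simpa using this
  · intro h
    ext v
    rw [divT_apply, h v.1 v.2]
    rfl

/-- for `T` large the `T`-class group is trivial. -/
theorem exists_finset_subsingleton_ClT :
    ∃ T₀ : Finset (HeightOneSpectrum (𝓞 K)), ∀ T : Set (HeightOneSpectrum (𝓞 K)),
      (T₀ : Set (HeightOneSpectrum (𝓞 K))) ⊆ T → Subsingleton (ClT T) := by
  classical
  have := clt1_finite_cl (K := K)
  choose rep hrep using fun c : (FractionalIdeal (nonZeroDivisors (𝓞 K)) K)ˣ ⧸
    (toPrincipalIdeal (𝓞 K) K).range => QuotientGroup.mk_surjective c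
  have hfin : (⋃ c, {v : HeightOneSpectrum (𝓞 K) | FractionalIdeal.count K v
      (rep c : FractionalIdeal (nonZeroDivisors (𝓞 K)) K) ≠ 0}).Finite :=
    Set.finite_iUnion fun c => FractionalIdeal.finite_factors _
  refine ⟨hfin.toFinset, fun T hT => ⟨fun a b => ?_⟩⟩
  have key : ∀ y : ClT T, y = 0 := by
    intro y
    obtain ⟨c, hc⟩ := clt1_cl_surjective T (Multiplicative.ofAdd y)
    have h1 : y = Multiplicative.toAdd (clt1_cl T c) := by rw [hc]; rfl
    rw [h1, ← hrep c, clt1_cl_mk]
    have h2 : Multiplicative.toAdd (clt1_divI T (rep c)) = 0 := by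
      ext v
      rw [clt1_divI_apply]
      by_contra hne
      apply v.2
      apply hT
      rw [Set.Finite.coe_toFinset]
      exact Set.mem_iUnion.2 ⟨c, hne⟩
    rw [h2]
    rfl
  rw [key a, key b]

/-- explicit form. -/
theorem exists_ord_eq_of_subsingleton_ClT (T : Set (HeightOneSpectrum (𝓞 K)))
    [Subsingleton (ClT T)] (D : DivT T) : ∃ x : Kˣ, ∀ v, ord v.1 (x : K) = D v := by
  have h : (QuotientAddGroup.mk D : ClT T) = 0 := Subsingleton.elim _ _
  rw [QuotientAddGroup.eq_zero_iff] at h
  obtain ⟨x, hx⟩ := h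
  refine ⟨Additive.toMul x, fun v => ?_⟩
  rw [← hx]
  rfl

end Fermat.Agent.S55.DIC
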