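import Fermat.Agent.S55.DIC.ClT1
/-!
# S55-DIC (CLT): divisors outside `T`, the `T`-class group, the Selmer-type group `K(T,n)`
-/

set_option autoImplicit false

open NumberField IsDedekindDomain

namespace Fermat.Agent.S55.DIC

variable {K : Type*} [Field K] [NumberField K]

/-- `K(T,n) = {x ∈ Kˣ | n ∣ ord_v x for all v ∉ T}`. -/
def selT (T : Set (HeightOneSpectrum (𝓞 K))) (n : ℕ) : Subgroup Kˣ where
  carrier := {x | ∀ v ∉ T, (n : ℤ) ∣ ord v (x : K)}
  one_mem' := by intro v _; simp [ord_one]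
  mul_mem' {x y} hx hy := by
    intro v hv
    rw [Units.val_mul, ord_mul v x.ne_zero y.ne_zero]
    exact dvd_add (hx v hv) (hy v hv)
  inv_mem' {x} hx := by
    intro v hv
    rw [Units.val_inv_eq_inv_val, ord_inv]
    exact (dvd_neg).2 (hx v hv)

theorem pow_mem_selT (T : Set (HeightOneSpectrum (𝓞 K))) (n : ℕ) (x : Kˣ) : x ^ n ∈ selT T n := by
  intro v _
  rw [Units.val_pow_eq_pow_val, ord_pow]
  exact dvd_mul_right _ _

/-- the divisor `(1/n) div_T x`. -/
noncomputable def ClT2_divN (T : Set (HeightOneSpectrum (𝓞 K))) (n : ℕ) (x : Kˣ) : DivT T :=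
  (divT T (Additive.ofMul x)).mapRange (fun z => z / (n : ℤ)) (by simp)

theorem ClT2_divN_apply (T : Set (HeightOneSpectrum (𝓞 K))) (n : ℕ) (x : Kˣ)
    (v : {v : HeightOneSpectrum (𝓞 K) // v ∉ T}) :
    ClT2_divN T n x v = ord v.1 (x : K) / (n : ℤ) := by
  simp [ClT2_divN]

/-- the homomorphism `K(T,n) → Cl_T`, `x ↦ [(1/n) div_T x]`. -/
noncomputable def ClT2_psi (T : Set (HeightOneSpectrum (𝓞 K))) (n : ℕ) :
    selT T n →* Multiplicative (ClT T) where
  toFun x := Multiplicative.ofAdd (QuotientAddGroup.mk (ClT2_divN T n (x : Kˣ)))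
  map_one' := by
    have : ClT2_divN T n (1 : Kˣ) = 0 := by
      ext v
      rw [ClT2_divN_apply]
      simp [ord_one]
    simp [this]
  map_mul' x y := by
    have : ClT2_divN T n ((x : Kˣ) * (y : Kˣ)) = ClT2_divN T n (x : Kˣ) + ClT2_divN T n (y : Kˣ) := by
      ext v
      rw [Finsupp.add_apply, ClT2_divN_apply, ClT2_divN_apply, ClT2_divN_apply, Units.val_mul,
        ord_mul v.1 (x : Kˣ).ne_zero (y : Kˣ).ne_zero]
      exact Int.add_ediv_of_dvd_left (x.2 v.1 v.2)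
    rw [Subgroup.coe_mul, this, QuotientAddGroup.mk_add, ofAdd_add]

theorem ClT2_psi_apply (T : Set (HeightOneSpectrum (𝓞 K))) (n : ℕ) (x : selT T n) :
    ClT2_psi T n x = Multiplicative.ofAdd (QuotientAddGroup.mk (ClT2_divN T n (x : Kˣ))) := rfl

theorem ClT2_unit_le (T : Set (HeightOneSpectrum (𝓞 K))) (n : ℕ) : T.unit K ≤ selT T n := by
  intro x hx v hv
  rw [(mem_unit_iff_ord T x).1 hx v hv]
  exact dvd_zero _

theorem ClT2_range_le (T : Set (HeightOneSpectrum (𝓞 K))) (n : ℕ) :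
    (powMonoidHom n : Kˣ →* Kˣ).range ≤ selT T n := by
  rintro _ ⟨y, rfl⟩
  exact pow_mem_selT T n y

theorem ClT2_ker (T : Set (HeightOneSpectrum (𝓞 K))) (n : ℕ) (hn : 0 < n) :
    (ClT2_psi T n).ker =
      (T.unit K ⊔ (powMonoidHom n : Kˣ →* Kˣ).range).subgroupOf (selT T n) := by
  have hnZ : (n : ℤ) ≠ 0 := by exact_mod_cast hn.ne'
  ext x
  rw [MonoidHom.mem_ker, Subgroup.mem_subgroupOf, Subgroup.mem_sup, ClT2_psi_apply,
    ofAdd_eq_one, QuotientAddGroup.eq_zero_iff]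
  constructor
  · rintro ⟨y, hy⟩
    refine ⟨(x : Kˣ) * ((Additive.toMul y : Kˣ) ^ n)⁻¹, ?_, (Additive.toMul y : Kˣ) ^ n, ⟨_, rfl⟩, by
      simp⟩
    rw [mem_unit_iff_ord]
    intro v hv
    have h1 := DFunLike.congr_fun hy ⟨v, hv⟩
    rw [ClT2_divN_apply] at h1
    have h2 : divT T y ⟨v, hv⟩ = ord v ((Additive.toMul y : Kˣ) : K) := rfl
    rw [h2] at h1
    obtain ⟨c, hc⟩ := x.2 v hv
    rw [Units.val_mul, ord_mul v (x : Kˣ).ne_zero (Units.ne_zero _), Units.val_inv_eq_inv_val,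
      ord_inv, Units.val_pow_eq_pow_val, ord_pow, h1]
    simp only at hc ⊢
    rw [hc, Int.mul_ediv_cancel_left _ hnZ]
    ring
  · rintro ⟨u, hu, _, ⟨y, rfl⟩, hx⟩
    refine ⟨Additive.ofMul y, ?_⟩
    ext v
    rw [divT_apply, ClT2_divN_apply, ← hx, Units.val_mul,
      ord_mul v.1 u.ne_zero (Units.ne_zero _), (mem_unit_iff_ord T u).1 hu v.1 v.2, zero_add]
    simp only [powMonoidHom_apply, Units.val_pow_eq_pow_val]
    rw [ord_pow, Int.mul_ediv_cancel_left _ hnZ]

theorem ClT2_mem_range (T : Set (HeightOneSpectrum (𝓞 K))) (n : ℕ) (hn : 0 < n)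
    (c : Multiplicative (ClT T)) :
    c ∈ (ClT2_psi T n).range ↔ n • Multiplicative.toAdd c = 0 := by
  have hnZ : (n : ℤ) ≠ 0 := by exact_mod_cast hn.ne'
  constructor
  · rintro ⟨x, rfl⟩
    rw [ClT2_psi_apply, toAdd_ofAdd, ← QuotientAddGroup.mk_nsmul, QuotientAddGroup.eq_zero_iff]
    refine ⟨Additive.ofMul (x : Kˣ), ?_⟩
    ext v
    rw [divT_apply, Finsupp.smul_apply, ClT2_divN_apply, nsmul_eq_mul]
    exact (Int.mul_ediv_cancel' (x.2 v.1 v.2)).symm
  · intro h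
    obtain ⟨D, hD⟩ := QuotientAddGroup.mk_surjective (Multiplicative.toAdd c)
    rw [← hD, ← QuotientAddGroup.mk_nsmul, QuotientAddGroup.eq_zero_iff] at h
    obtain ⟨y, hy⟩ := h
    have hval : ∀ v : {v : HeightOneSpectrum (𝓞 K) // v ∉ T},
        ord v.1 ((Additive.toMul y : Kˣ) : K) = n * D v := by
      intro v
      have h1 := DFunLike.congr_fun hy v
      rw [Finsupp.smul_apply, nsmul_eq_mul] at h1
      exact h1
    have hmem : (Additive.toMul y : Kˣ) ∈ selT T n := fun v hv => ⟨_, hval ⟨v, hv⟩⟩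
    refine ⟨⟨_, hmem⟩, ?_⟩
    rw [ClT2_psi_apply]
    have : ClT2_divN T n (Additive.toMul y : Kˣ) = D := by
      ext v
      rw [ClT2_divN_apply, hval v, Int.mul_ediv_cancel_left _ hnZ]
    rw [this, hD, ofAdd_toAdd]

theorem ClT2_subgroupOf_unit (T : Set (HeightOneSpectrum (𝓞 K))) (n : ℕ) (hn : 0 < n) :
    (powMonoidHom n : Kˣ →* Kˣ).range.subgroupOf (T.unit K) =
      (powMonoidHom n : (T.unit K) →* _).range := by
  have hnZ : (n : ℤ) ≠ 0 := by exact_mod_cast hn.ne'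
  ext u
  rw [Subgroup.mem_subgroupOf]
  constructor
  · rintro ⟨y, hy⟩
    have hyU : y ∈ T.unit K := by
      rw [mem_unit_iff_ord]
      intro v hv
      have h1 := (mem_unit_iff_ord T (u : Kˣ)).1 u.2 v hv
      rw [← hy] at h1
      simp only [powMonoidHom_apply, Units.val_pow_eq_pow_val] at h1
      rw [ord_pow] at h1
      exact (mul_eq_zero.1 h1).resolve_left hnZ
    exact ⟨⟨y, hyU⟩, Subtype.ext hy⟩
  · rintro ⟨y, rfl⟩
    exact ⟨(y : Kˣ), rfl⟩

/-- **the exact sequence** `1 → U_T / n → K(T,n) / Kˣ^n → Cl_T[n] → 0` as a counting statement. -/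
theorem card_selT_quot (T : Finset (HeightOneSpectrum (𝓞 K))) (n : ℕ) (hn : 0 < n) :
    Nat.card (selT (T : Set (HeightOneSpectrum (𝓞 K))) n ⧸
        ((powMonoidHom n : Kˣ →* Kˣ).range.subgroupOf (selT (T : Set (HeightOneSpectrum (𝓞 K))) n))) =
      Nat.card (((T : Set (HeightOneSpectrum (𝓞 K))).unit K) ⧸
        (powMonoidHom n : ((T : Set (HeightOneSpectrum (𝓞 K))).unit K) →* _).range) *
      Nat.card {c : ClT (T : Set (HeightOneSpectrum (𝓞 K))) // n • c = 0} := by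
  set T' : Set (HeightOneSpectrum (𝓞 K)) := (T : Set (HeightOneSpectrum (𝓞 K))) with hT'
  set P : Subgroup Kˣ := (powMonoidHom n : Kˣ →* Kˣ).range with hP
  set U : Subgroup Kˣ := T'.unit K with hU
  set S : Subgroup Kˣ := selT T' n with hS
  have h1 : Nat.card (S ⧸ P.subgroupOf S) = P.relIndex S := rfl
  have h2 : P.relIndex (U ⊔ P) * (U ⊔ P).relIndex S = P.relIndex S :=
    Subgroup.relIndex_mul_relIndex _ _ _ le_sup_right
      (sup_le (ClT2_unit_le T' n) (ClT2_range_le T' n))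
  have h3 : P.relIndex (U ⊔ P) = P.relIndex U := Subgroup.relIndex_sup_right U P
  have h4 : P.relIndex U = Nat.card (U ⧸ (powMonoidHom n : U →* _).range) := by
    rw [← ClT2_subgroupOf_unit T' n hn]
    rfl
  have h5 : (U ⊔ P).relIndex S = Nat.card {c : ClT T' // n • c = 0} := by
    rw [Subgroup.relIndex, ← ClT2_ker T' n hn, Subgroup.index_ker]
    exact Nat.card_congr (Equiv.subtypeEquiv Multiplicative.toAdd
      (fun c => ClT2_mem_range T' n hn c))
  rw [h1, ← h2, h3, h4, h5]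

/-- finite abelian group: `#A[n] = #A/n`. -/
theorem card_torsion_eq_card_quot (T : Set (HeightOneSpectrum (𝓞 K))) (n : ℕ) :
    Nat.card {c : ClT T // n • c = 0} =
      Nat.card (ClT T ⧸ (nsmulAddMonoidHom n : ClT T →+ ClT T).range) := by
  set f : ClT T →+ ClT T := nsmulAddMonoidHom n with hf
  have h1 : Nat.card {c : ClT T // n • c = 0} = Nat.card f.ker := rfl
  have h2 := AddSubgroup.card_eq_card_quotient_mul_card_addSubgroup f.ker
  have h3 := AddSubgroup.card_eq_card_quotient_mul_card_addSubgroup f.range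
  have h4 : Nat.card (ClT T ⧸ f.ker) = Nat.card f.range :=
    Nat.card_congr (QuotientAddGroup.quotientKerEquivRange f).toEquiv
  have hpos : 0 < Nat.card f.range := Nat.card_pos
  rw [h1]
  rw [h4, h3, mul_comm] at h2
  exact (Nat.eq_of_mul_eq_mul_left hpos h2).symm

end Fermat.Agent.S55.DIC
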