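import Fermat.Agent.S55.DIC.Place
/-!
# S55-DIC (DECOMP): relative extensions `K / F`, decomposition groups = local Galois groups
`F K` number fields, `[Algebra F K]`, `j : K →+* PadicAlgCl q`, `j.comp (algebraMap F K)` its restriction.
-/

set_option autoImplicit false

open NumberField IsDedekindDomain
open scoped Pointwise

namespace Fermat.Agent.S55.DIC

variable {q : ℕ} [Fact q.Prime]
variable {F K : Type*} [Field F] [Field K] [Algebra F K]

theorem locF_comp_algebraMap_le (j : K →+* PadicAlgCl q) :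
    locF q (j.comp (algebraMap F K)) ≤ locF q j := by
  refine IntermediateField.adjoin.mono _ _ _ ?_
  rintro _ ⟨x, rfl⟩
  exact ⟨algebraMap F K x, rfl⟩

/-- extension of embeddings (`PadicAlgCl q` is algebraically closed). -/
theorem exists_emb_extension [Algebra.IsAlgebraic F K] (jF : F →+* PadicAlgCl q) :
    ∃ j : K →+* PadicAlgCl q, j.comp (algebraMap F K) = jF := by
  letI : Algebra F (PadicAlgCl q) := jF.toAlgebra
  refine ⟨((IsAlgClosed.lift : K →ₐ[F] PadicAlgCl q) : K →+* PadicAlgCl q), ?_⟩
  ext x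
  exact (IsAlgClosed.lift : K →ₐ[F] PadicAlgCl q).commutes x

/-- two extensions of the same embedding differ by an element of `Gal(K/F)`. -/
theorem exists_gal_of_comp_eq [Normal F K] (j j' : K →+* PadicAlgCl q)
    (h : j.comp (algebraMap F K) = j'.comp (algebraMap F K)) :
    ∃ g : K ≃ₐ[F] K, ∀ x, j' x = j (g x) := by
  letI : Algebra F (PadicAlgCl q) := (j.comp (algebraMap F K)).toAlgebra
  let φ : K →ₐ[F] PadicAlgCl q := { j with commutes' := fun _ => rfl }
  let φ' : K →ₐ[F] PadicAlgCl q :=
    { j' with commutes' := fun r => (RingHom.congr_fun h r).symm }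
  letI : Algebra K (PadicAlgCl q) := j.toAlgebra
  haveI : IsScalarTower F K (PadicAlgCl q) := IsScalarTower.of_algebraMap_eq (fun _ => rfl)
  refine ⟨φ'.restrictNormal' K, fun x => ?_⟩
  exact (AlgHom.restrictNormal_commutes φ' K x).symm

/-- (DC1) an element of `G_{F_j}` induces an element of `Gal(K/F)`. -/
theorem existsUnique_gal [Normal F K] (j : K →+* PadicAlgCl q) (τ : Gq q)
    (hτ : τ ∈ (locF q (j.comp (algebraMap F K))).fixingSubgroup) :
    ∃! g : K ≃ₐ[F] K, ∀ x, j (g x) = τ (j x) := by
  have h : j.comp (algebraMap F K) =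
      ((τ : PadicAlgCl q →+* PadicAlgCl q).comp j).comp (algebraMap F K) := by
    ext x
    have := (IntermediateField.mem_fixingSubgroup_iff _ _).1 hτ
      (j (algebraMap F K x)) (mem_locF (j.comp (algebraMap F K)) x)
    exact this.symm
  obtain ⟨g, hg⟩ := exists_gal_of_comp_eq j _ h
  refine ⟨g, fun x => (hg x).symm, fun g' hg' => ?_⟩
  ext x
  apply j.injective
  rw [hg' x, ← hg x]
  rfl

/-- (DC2) the homomorphism `G_{F_j} → Gal(K/F)`. -/
noncomputable def decompHom [Normal F K] (j : K →+* PadicAlgCl q) :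
    (locF q (j.comp (algebraMap F K))).fixingSubgroup →* (K ≃ₐ[F] K) where
  toFun τ := (existsUnique_gal j τ.1 τ.2).choose
  map_one' := by
    refine ((existsUnique_gal j (1 : Gq q) (one_mem _)).choose_spec.2 1 ?_).symm
    intro x; simp
  map_mul' σ τ := by
    refine ((existsUnique_gal j (σ.1 * τ.1) (mul_mem σ.2 τ.2)).choose_spec.2 _ ?_).symm
    intro x
    have h1 := (existsUnique_gal j σ.1 σ.2).choose_spec.1
    have h2 := (existsUnique_gal j τ.1 τ.2).choose_spec.1
    simp only [AlgEquiv.mul_apply]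
    rw [h1, h2]

theorem emb_decompHom [Normal F K] (j : K →+* PadicAlgCl q)
    (τ : (locF q (j.comp (algebraMap F K))).fixingSubgroup) (x : K) :
    j (decompHom j τ x) = (τ : Gq q) (j x) :=
  (existsUnique_gal j τ.1 τ.2).choose_spec.1 x

/-- (DC3) kernel. -/
theorem decompHom_eq_one_iff [Normal F K] (j : K →+* PadicAlgCl q)
    (τ : (locF q (j.comp (algebraMap F K))).fixingSubgroup) :
    decompHom j τ = 1 ↔ (τ : Gq q) ∈ (locF q j).fixingSubgroup := by
  constructor
  · intro h
    rw [IntermediateField.mem_fixingSubgroup_iff]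
    intro y hy
    have hle : locF q j ≤ IntermediateField.fixedField (Subgroup.zpowers (τ : Gq q)) := by
      refine IntermediateField.adjoin_le_iff.2 ?_
      rintro _ ⟨x, rfl⟩
      rw [SetLike.mem_coe, IntermediateField.mem_fixedField_iff]
      have h1 : (τ : Gq q) (j x) = j x := by
        rw [← emb_decompHom j τ x, h]; rfl
      intro f hf
      obtain ⟨n, rfl⟩ := Subgroup.mem_zpowers_iff.1 hf
      have hstab : (τ : Gq q) ∈ MulAction.stabilizer (Gq q) (j x) := h1
      exact (zpow_mem hstab n : _)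
    exact (IntermediateField.mem_fixedField_iff _ _).1 (hle hy) _ (Subgroup.mem_zpowers _)
  · intro h
    ext x
    apply j.injective
    rw [emb_decompHom]
    exact (IntermediateField.mem_fixingSubgroup_iff _ _).1 h _ (mem_locF j x)

/-- (DC6) `locF q j` is normal over `locF q (j ∘ algebraMap)`. -/
theorem map_mem_locF [Normal F K] (j : K →+* PadicAlgCl q) (τ : Gq q)
    (hτ : τ ∈ (locF q (j.comp (algebraMap F K))).fixingSubgroup) {y : PadicAlgCl q}
    (hy : y ∈ locF q j) : τ y ∈ locF q j := by
  have hle : locF q j ≤ (locF q j).comap (τ : PadicAlgCl q →ₐ[ℚ_[q]] PadicAlgCl q) := by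
    refine IntermediateField.adjoin_le_iff.2 ?_
    rintro _ ⟨x, rfl⟩
    obtain ⟨g, hg, -⟩ := existsUnique_gal j τ hτ
    change τ (j x) ∈ locF q j
    rw [← hg x]
    exact mem_locF j _
  exact hle hy

end Fermat.Agent.S55.DIC
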