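import Fermat.Agent.S55.DIC.Decomp1
/-!
# S55-DIC (DECOMP): relative extensions `K / F`, decomposition groups = local Galois groups
`F K` number fields, `[Algebra F K]`, `j : K →+* PadicAlgCl q`, `j.comp (algebraMap F K)` its restriction.
-/

set_option autoImplicit false

open NumberField IsDedekindDomain
open scoped Pointwise

namespace Fermat.Agent.S55.DIC

variable {q : ℕ} [Fact q.Prime]
variable {F K : Type*} [Field F] [Field K] [Algebra F K]

variable [NumberField F] [NumberField K]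


/-- the place of `F` below `placeOf q j`. -/
theorem primeOf_comp_algebraMap (j : K →+* PadicAlgCl q) :
    primeOf q (j.comp (algebraMap F K)) = (primeOf q j).comap (algebraMap (𝓞 F) (𝓞 K)) := by
  ext x
  rw [Ideal.mem_comap, mem_primeOf, mem_primeOf]
  rfl

theorem Decomp2_placeOf_eq_iff (j j' : K →+* PadicAlgCl q) :
    placeOf q j = placeOf q j' ↔ primeOf q j = primeOf q j' := by
  constructor
  · intro h
    have := congrArg HeightOneSpectrum.asIdeal h
    simpa using this
  · intro h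
    exact HeightOneSpectrum.ext h

/-- an automorphism fixing `j F` pointwise fixes `locF`. -/
theorem Decomp2_mem_fixingSubgroup {E : Type*} [Field E] (i : E →+* PadicAlgCl q) (τ : Gq q)
    (h : ∀ x, τ (i x) = i x) : τ ∈ (locF q i).fixingSubgroup := by
  rw [IntermediateField.mem_fixingSubgroup_iff]
  intro y hy
  have hle : locF q i ≤ IntermediateField.fixedField (Subgroup.zpowers τ) := by
    rw [locF, IntermediateField.adjoin_le_iff]
    rintro _ ⟨x, rfl⟩
    rw [SetLike.mem_coe, IntermediateField.mem_fixedField_iff]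
    intro f hf
    obtain ⟨n, rfl⟩ := Subgroup.mem_zpowers_iff.mp hf
    have h1 : τ ∈ MulAction.stabilizer (Gq q) (i x) := h x
    exact (Subgroup.zpow_mem _ h1 n : τ ^ n ∈ MulAction.stabilizer (Gq q) (i x))
  exact (IntermediateField.mem_fixedField_iff _ _).mp (hle hy) τ (Subgroup.mem_zpowers τ)

/-- (DC4) image of `decompHom` = decomposition group (uses `exists_algEquiv_of_placeOf_eq`). -/
theorem mem_range_decompHom_iff [Normal F K] (j : K →+* PadicAlgCl q) (g : K ≃ₐ[F] K) :
    g ∈ (decompHom j).range ↔ placeOf q (j.comp (g : K →+* K)) = placeOf q j := by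
  constructor
  · rintro ⟨τ, rfl⟩
    have h : j.comp ((decompHom j τ : K ≃ₐ[F] K) : K →+* K) =
        ((τ : Gq q) : PadicAlgCl q →+* PadicAlgCl q).comp j := by
      ext x
      exact emb_decompHom j τ x
    rw [h, placeOf_comp_algEquiv]
  · intro h
    obtain ⟨τ, hτ⟩ := exists_algEquiv_of_placeOf_eq j (j.comp (g : K →+* K)) h.symm
    have hfix : τ ∈ (locF q (j.comp (algebraMap F K))).fixingSubgroup := by
      apply Decomp2_mem_fixingSubgroup
      intro x
      have := hτ (algebraMap F K x)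
      simp only [RingHom.comp_apply, RingHom.coe_coe, AlgEquiv.commutes] at this ⊢
      exact this.symm
    refine ⟨⟨τ, hfix⟩, ?_⟩
    ext x
    apply j.injective
    rw [emb_decompHom]
    exact (hτ x).symm

theorem primeOf_comp_gal (j : K →+* PadicAlgCl q) (g : K ≃ₐ[F] K) :
    primeOf q (j.comp (g : K →+* K)) = g⁻¹ • primeOf q j := by
  ext x
  rw [Ideal.mem_inv_pointwise_smul_iff, mem_primeOf, mem_primeOf]
  rfl

/-- (DC5) the same with Mathlib's action of `Gal(K/F)` on the ideals of `𝓞 K`. -/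
theorem range_decompHom [Normal F K] (j : K →+* PadicAlgCl q) :
    (decompHom j).range = MulAction.stabilizer (K ≃ₐ[F] K) (primeOf q j) := by
  ext g
  rw [mem_range_decompHom_iff, Decomp2_placeOf_eq_iff, primeOf_comp_gal, MulAction.mem_stabilizer_iff,
    inv_smul_eq_iff, eq_comm]

/-- all places of `K` above `placeOf q (j ∘ algebraMap)` are the `placeOf q (j ∘ g)`. -/
theorem exists_gal_placeOf_eq [Normal F K] (j : K →+* PadicAlgCl q)
    (w : HeightOneSpectrum (𝓞 K))
    (hw : w.asIdeal.comap (algebraMap (𝓞 F) (𝓞 K)) = primeOf q (j.comp (algebraMap F K))) :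
    ∃ g : K ≃ₐ[F] K, placeOf q (j.comp (g : K →+* K)) = w := by
  have hq : ((q : ℕ) : 𝓞 K) ∈ w.asIdeal := by
    have h1 : ((q : ℕ) : 𝓞 F) ∈ w.asIdeal.comap (algebraMap (𝓞 F) (𝓞 K)) := by
      rw [hw]
      exact natCast_mem_primeOf _
    rw [Ideal.mem_comap, map_natCast] at h1
    exact h1
  obtain ⟨j', hj'⟩ := exists_emb_placeOf_eq w hq
  have h2 : placeOf q (j.comp (algebraMap F K)) = placeOf q (j'.comp (algebraMap F K)) := by
    rw [Decomp2_placeOf_eq_iff, primeOf_comp_algebraMap j', ← hw, ← hj']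
    rfl
  obtain ⟨τ, hτ⟩ := exists_algEquiv_of_placeOf_eq _ _ h2
  obtain ⟨g, hg⟩ := exists_gal_of_comp_eq (F := F)
    ((τ : PadicAlgCl q →+* PadicAlgCl q).comp j) j' (by
      ext x
      exact (hτ x).symm)
  refine ⟨g, ?_⟩
  have h3 : j' = (τ : PadicAlgCl q →+* PadicAlgCl q).comp (j.comp (g : K →+* K)) := by
    ext x
    exact hg x
  rw [← hj', h3, placeOf_comp_algEquiv]

/-- relative ramification index. -/
theorem ord_algebraMap (w : HeightOneSpectrum (𝓞 K)) (v : HeightOneSpectrum (𝓞 F))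
    (hw : w.asIdeal.comap (algebraMap (𝓞 F) (𝓞 K)) = v.asIdeal) {π : F} (hπ : ord v π = 1) (x : F) :
    ord w (algebraMap F K x) = ord w (algebraMap F K π) * ord v x := by
  by_cases hx : x = 0
  · subst hx
    simp [ord]
  have hπ0 : π ≠ 0 := by
    rintro rfl
    simp [ord] at hπ
  -- integers of `F` outside `v` have `ord w = 0`
  have key : ∀ a : 𝓞 F, a ∉ v.asIdeal → ord w (algebraMap F K (a : F)) = 0 := by
    intro a ha
    have ha0 : algebraMap (𝓞 F) (𝓞 K) a ≠ 0 := by
      intro h0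
      apply ha
      rw [← hw, Ideal.mem_comap, h0]
      exact zero_mem _
    have h1 : ¬ 0 < ord w ((algebraMap (𝓞 F) (𝓞 K) a : 𝓞 K) : K) := by
      rw [ord_pos_iff_mem w ha0]
      intro h2
      exact ha (hw ▸ Ideal.mem_comap.mpr h2)
    have h2 := ord_nonneg_of_isIntegral w (algebraMap (𝓞 F) (𝓞 K) a)
    have h3 : ((algebraMap (𝓞 F) (𝓞 K) a : 𝓞 K) : K) = algebraMap F K (a : F) := rfl
    rw [h3] at h1 h2
    omega
  set m := ord v x with hm
  have hy0 : x * (π ^ m)⁻¹ ≠ 0 := mul_ne_zero hx (inv_ne_zero (zpow_ne_zero _ hπ0))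
  have hy : ord v (x * (π ^ m)⁻¹) = 0 := by
    rw [ord_mul v hx (inv_ne_zero (zpow_ne_zero _ hπ0)), ord_inv, ord_zpow, hπ, ← hm]
    ring
  obtain ⟨a, b, ha, hb, hab⟩ := exists_div_of_ord_eq_zero v hy0 hy
  have hb0 : (b : F) ≠ 0 := by
    intro h0
    apply hb
    have : b = 0 := by exact_mod_cast h0
    rw [this]
    exact zero_mem _
  have ha0 : (a : F) ≠ 0 := by
    intro h0
    apply ha
    have : a = 0 := by exact_mod_cast h0
    rw [this]
    exact zero_mem _
  have hx_eq : x = (a : F) * (b : F)⁻¹ * π ^ m := by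
    have : x = x * (π ^ m)⁻¹ * π ^ m := by
      rw [mul_assoc, inv_mul_cancel₀ (zpow_ne_zero _ hπ0), mul_one]
    rw [this, hab, div_eq_mul_inv]
  have hinj : ∀ z : F, z ≠ 0 → algebraMap F K z ≠ 0 := fun z hz =>
    (map_ne_zero (algebraMap F K)).mpr hz
  conv_lhs => rw [hx_eq]
  rw [map_mul, map_mul, map_inv₀, map_zpow₀,
    ord_mul w (mul_ne_zero (hinj _ ha0) (inv_ne_zero (hinj _ hb0))) (zpow_ne_zero _ (hinj _ hπ0)),
    ord_mul w (hinj _ ha0) (inv_ne_zero (hinj _ hb0)), ord_inv, ord_zpow, key a ha, key b hb]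
  ring

end Fermat.Agent.S55.DIC
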