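import Fermat.Agent.S55.DIC.Decomp2
/-!
# S55-DIC (DECOMP): relative extensions `K / F`, decomposition groups = local Galois groups
`F K` number fields, `[Algebra F K]`, `j : K →+* PadicAlgCl q`, `j.comp (algebraMap F K)` its restriction.
-/

set_option autoImplicit false

open NumberField IsDedekindDomain
open scoped Pointwise

namespace Fermat.Agent.S55.DIC

variable {q : ℕ} [Fact q.Prime]
variable {F K : Type*} [Field F] [Field K] [Algebra F K]

variable [NumberField F] [NumberField K]

/-- (DC7) the index of `G_{K_j}` in `G_{F_j}` is the order of the decomposition group. -/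
theorem relIndex_fixingSubgroup [IsGalois F K] (j : K →+* PadicAlgCl q) :
    (locF q j).fixingSubgroup.relIndex (locF q (j.comp (algebraMap F K))).fixingSubgroup =
      Nat.card (MulAction.stabilizer (K ≃ₐ[F] K) (primeOf q j)) := by
  have hker : (decompHom (F := F) j).ker =
      (locF q j).fixingSubgroup.subgroupOf (locF q (j.comp (algebraMap F K))).fixingSubgroup := by
    ext τ
    rw [MonoidHom.mem_ker, decompHom_eq_one_iff, Subgroup.mem_subgroupOf]
  rw [Subgroup.relIndex, ← hker, Subgroup.index_ker, range_decompHom]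

/-- (DC8) a global norm is a product of conjugates, grouped by the decomposition group:
`j (N_{K/F} x) = ∏_{d ∈ D} τ_d (y)` with `y = ∏_{c ∈ D \ G} j (c x) ∈ locF q j`. -/
theorem exists_local_norm [IsGalois F K] (j : K →+* PadicAlgCl q) (x : K) :
    ∃ y ∈ locF q j, (x ≠ 0 → y ≠ 0) ∧
      ∀ (s : (MulAction.stabilizer (K ≃ₐ[F] K) (primeOf q j)) →
          (locF q (j.comp (algebraMap F K))).fixingSubgroup),
        (∀ d, decompHom j (s d) = d) →
        j (algebraMap F K (Algebra.norm F x)) = ∏ᶠ d, ((s d : Gq q) y) := by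
  classical
  have : FiniteDimensional F K := FiniteDimensional.right ℚ F K
  obtain ⟨T, hT, -⟩ :=
    Subgroup.exists_isComplement_right (MulAction.stabilizer (K ≃ₐ[F] K) (primeOf q j)) 1
  have : Fintype T := Fintype.ofFinite T
  have : Fintype (MulAction.stabilizer (K ≃ₐ[F] K) (primeOf q j)) := Fintype.ofFinite _
  refine ⟨j (∏ c : T, (c : K ≃ₐ[F] K) x), mem_locF j _, ?_, ?_⟩
  · intro hx
    rw [map_ne_zero, Finset.prod_ne_zero_iff]
    intro c _
    exact (map_ne_zero _).2 hx
  · intro s hs
    rw [finprod_eq_prod_of_fintype, Algebra.norm_eq_prod_automorphisms]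
    rw [← (Equiv.ofBijective _ hT).prod_comp, Fintype.prod_prod_type, map_prod]
    refine Finset.prod_congr rfl fun d _ => ?_
    rw [← emb_decompHom, hs d, map_prod, map_prod, map_prod]
    rfl

end Fermat.Agent.S55.DIC
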