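import Mathlib
import Fermat.Prelude.Def_GaloisRep_CompletionBridge

/-!
# S55-DIC : common definitions of the dictionary

`K` an abstract number field, `q` a prime, `j : K →+* PadicAlgCl q` an embedding.
* `locF q j`    : the local field `ℚ_q(j K)` inside `PadicAlgCl q` (model forced by the frozen statement)
* `primeOf q j` : the prime ideal `{x ∈ 𝓞 K | ‖j x‖ < 1}` of `𝓞 K`
* `placeOf q j` : the same as a `HeightOneSpectrum (𝓞 K)`
-/

set_option autoImplicit false

open NumberField IsDedekindDomain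

namespace Fermat.Agent.S55.DIC

variable (q : ℕ) [Fact q.Prime]

/-- the absolute Galois group of `ℚ_q` (model of the frozen statement). -/
abbrev Gq : Type := PadicAlgCl q ≃ₐ[ℚ_[q]] PadicAlgCl q

/-- the local field `ℚ_q(j K)`. -/
noncomputable def locF {K : Type*} [Field K] (j : K →+* PadicAlgCl q) :
    IntermediateField ℚ_[q] (PadicAlgCl q) :=
  IntermediateField.adjoin ℚ_[q] (Set.range j)

variable {q}

theorem mem_locF {K : Type*} [Field K] (j : K →+* PadicAlgCl q) (x : K) : j x ∈ locF q j :=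
  IntermediateField.subset_adjoin _ _ ⟨x, rfl⟩

/-- integral elements have norm `≤ 1`. -/
theorem norm_le_one_of_isIntegral {y : PadicAlgCl q} (hy : IsIntegral ℤ y) : ‖y‖ ≤ 1 := by
  have h : IsIntegral (padicIntegers q) y := hy.tower_top
  obtain ⟨z, hz⟩ := IsIntegrallyClosed.algebraMap_eq_of_integral h
  rw [← hz]
  exact z.2

theorem norm_emb_le_one {K : Type*} [Field K] (j : K →+* PadicAlgCl q) (x : 𝓞 K) :
    ‖j (x : K)‖ ≤ 1 :=
  norm_le_one_of_isIntegral ((NumberField.RingOfIntegers.isIntegral_coe x).map j.toIntAlgHom)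

variable (q)

/-- the ideal `{x ∈ 𝓞 K | ‖j x‖ < 1}`. -/
noncomputable def primeOf {K : Type*} [Field K] (j : K →+* PadicAlgCl q) : Ideal (𝓞 K) where
  carrier := {x | ‖j (x : K)‖ < 1}
  add_mem' {a b} ha hb := by
    simp only [Set.mem_ofPred_eq, map_add] at *
    exact lt_of_le_of_lt (IsUltrametricDist.norm_add_le_max _ _) (max_lt ha hb)
  zero_mem' := by simp
  smul_mem' c x hx := by
    simp only [Set.mem_ofPred_eq, smul_eq_mul, map_mul, norm_mul] at *
    exact mul_lt_one_of_nonneg_of_lt_one_right (norm_emb_le_one j c) (norm_nonneg _) hx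

variable {q}

theorem mem_primeOf {K : Type*} [Field K] (j : K →+* PadicAlgCl q) (x : 𝓞 K) :
    x ∈ primeOf q j ↔ ‖j (x : K)‖ < 1 := Iff.rfl

theorem norm_natCast_self : ‖((q : ℕ) : PadicAlgCl q)‖ = (q : ℝ)⁻¹ := by
  have h : ((q : ℕ) : PadicAlgCl q) = algebraMap ℚ_[q] (PadicAlgCl q) (q : ℚ_[q]) := by simp
  rw [h, PadicAlgCl.norm_extends, Padic.norm_p]

theorem natCast_mem_primeOf {K : Type*} [Field K] (j : K →+* PadicAlgCl q) :
    ((q : ℕ) : 𝓞 K) ∈ primeOf q j := by
  rw [mem_primeOf]
  simp only [map_natCast, norm_natCast_self]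
  exact inv_lt_one_of_one_lt₀ (by exact_mod_cast (Fact.out : q.Prime).one_lt)

instance primeOf_isPrime {K : Type*} [Field K] (j : K →+* PadicAlgCl q) :
    (primeOf q j).IsPrime where
  ne_top' := by
    rw [Ideal.ne_top_iff_one, mem_primeOf]
    simp
  mem_or_mem' {a b} hab := by
    simp only [mem_primeOf, map_mul, norm_mul] at *
    by_contra hcon
    push Not at hcon
    have ha : ‖j (a : K)‖ = 1 := le_antisymm (norm_emb_le_one j a) hcon.1
    have hb : ‖j (b : K)‖ = 1 := le_antisymm (norm_emb_le_one j b) hcon.2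
    rw [ha, hb] at hab
    norm_num at hab

theorem primeOf_ne_bot {K : Type*} [Field K] [CharZero K] (j : K →+* PadicAlgCl q) :
    primeOf q j ≠ ⊥ := by
  intro h
  have h1 := natCast_mem_primeOf (q := q) j
  rw [h, Ideal.mem_bot] at h1
  exact (Fact.out : q.Prime).ne_zero (by exact_mod_cast h1)

variable (q)

/-- the finite place of `K` cut out by `j`. -/
noncomputable def placeOf {K : Type*} [Field K] [NumberField K] (j : K →+* PadicAlgCl q) :
    HeightOneSpectrum (𝓞 K) :=
  ⟨primeOf q j, inferInstance, primeOf_ne_bot j⟩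

variable {q}

@[simp] theorem placeOf_asIdeal {K : Type*} [Field K] [NumberField K] (j : K →+* PadicAlgCl q) :
    (placeOf q j).asIdeal = primeOf q j := rfl

end Fermat.Agent.S55.DIC
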