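import Fermat.Agent.S55.DIC.Place
/-!
# S55-DIC (DENSE): `j K` is dense in `locF q j`; weak approximation; value group; residue rings
-/

set_option autoImplicit false

open NumberField IsDedekindDomain

namespace Fermat.Agent.S55.DIC

variable {q : ℕ} [Fact q.Prime]

/-- `locF q j` is generated by the image of a primitive element. -/
theorem dense1_locF_eq {K : Type*} [Field K] [NumberField K] (j : K →+* PadicAlgCl q) (θ : K)
    (hθ : IntermediateField.adjoin ℚ {θ} = ⊤) :
    locF q j = IntermediateField.adjoin ℚ_[q] {j θ} := by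
  apply le_antisymm
  · rw [locF, IntermediateField.adjoin_le_iff]
    rintro _ ⟨x, rfl⟩
    have hx : x ∈ IntermediateField.adjoin ℚ {θ} := by rw [hθ]; trivial
    have halg : IsAlgebraic ℚ θ := Algebra.IsAlgebraic.isAlgebraic θ
    have hx' : x ∈ (IntermediateField.adjoin ℚ {θ}).toSubalgebra := hx
    rw [IntermediateField.adjoin_simple_toSubalgebra_of_isAlgebraic halg,
      Algebra.adjoin_singleton_eq_range_aeval] at hx'
    obtain ⟨p, rfl⟩ := hx'
    have h1 : j (Polynomial.aeval θ p) = Polynomial.aeval (j θ) p := by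
      have := Polynomial.aeval_algHom_apply j.toRatAlgHom θ p
      simpa using this.symm
    show j (Polynomial.aeval θ p) ∈ IntermediateField.adjoin ℚ_[q] {j θ}
    rw [h1]
    have h2 : Polynomial.aeval (j θ) p =
        Polynomial.aeval (j θ) (p.map (algebraMap ℚ ℚ_[q])) := by
      rw [Polynomial.aeval_map_algebraMap]
    rw [h2]
    have h3 : Polynomial.aeval (j θ) (p.map (algebraMap ℚ ℚ_[q])) ∈
        Algebra.adjoin ℚ_[q] {j θ} := Polynomial.aeval_mem_adjoin_singleton _ _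
    exact IntermediateField.algebra_adjoin_le_adjoin _ _ h3
  · apply IntermediateField.adjoin.mono
    rintro _ rfl
    exact ⟨θ, rfl⟩

theorem dense1_isIntegral {K : Type*} [Field K] [NumberField K] (j : K →+* PadicAlgCl q) (θ : K) :
    IsIntegral ℚ_[q] (j θ) := by
  have h : IsIntegral ℚ θ := Algebra.IsIntegral.isIntegral θ
  have h1 : IsIntegral ℚ (j θ) := h.map j.toRatAlgHom
  exact h1.tower_top

/-- `locF q j` is finite over `ℚ_q` (`K = ℚ(θ)`, or a `ℚ`-basis of `K`). -/
instance finiteDimensional_locF {K : Type*} [Field K] [NumberField K] (j : K →+* PadicAlgCl q) :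
    FiniteDimensional ℚ_[q] (locF q j) := by
  obtain ⟨θ, hθ⟩ := Field.exists_primitive_element ℚ K
  rw [dense1_locF_eq j θ hθ]
  exact IntermediateField.adjoin.finiteDimensional (dense1_isIntegral j θ)

/-- `finrank ℚ_q (locF q j) ≤ [K : ℚ]`. -/
theorem finrank_locF_le {K : Type*} [Field K] [NumberField K] (j : K →+* PadicAlgCl q) :
    Module.finrank ℚ_[q] (locF q j) ≤ Module.finrank ℚ K := by
  obtain ⟨θ, hθ⟩ := Field.exists_primitive_element ℚ K
  rw [dense1_locF_eq j θ hθ, IntermediateField.adjoin.finrank (dense1_isIntegral j θ)]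
  have h1 : (minpoly ℚ θ).natDegree = Module.finrank ℚ K :=
    (Field.primitive_element_iff_minpoly_natDegree_eq ℚ θ).mp hθ
  rw [← h1]
  have hint : IsIntegral ℚ θ := Algebra.IsIntegral.isIntegral θ
  have h2 : minpoly ℚ_[q] (j θ) ∣ (minpoly ℚ θ).map (algebraMap ℚ ℚ_[q]) := by
    apply minpoly.dvd
    rw [Polynomial.aeval_map_algebraMap]
    have := Polynomial.aeval_algHom_apply j.toRatAlgHom θ (minpoly ℚ θ)
    rw [minpoly.aeval, map_zero] at this
    simpa using this
  have h3 : (minpoly ℚ θ).map (algebraMap ℚ ℚ_[q]) ≠ 0 :=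
    (Polynomial.map_ne_zero_iff (algebraMap ℚ ℚ_[q]).injective).mpr (minpoly.ne_zero hint)
  calc (minpoly ℚ_[q] (j θ)).natDegree
      ≤ ((minpoly ℚ θ).map (algebraMap ℚ ℚ_[q])).natDegree := Polynomial.natDegree_le_of_dvd h2 h3
    _ = (minpoly ℚ θ).natDegree := Polynomial.natDegree_map _

/-- the closure of `j K`, as an intermediate field. -/
theorem dense1_algebraMap_mem {K : Type*} [Field K] (j : K →+* PadicAlgCl q) (r : ℚ_[q]) :
    algebraMap ℚ_[q] (PadicAlgCl q) r ∈ closure (Set.range j) := by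
  rw [Metric.mem_closure_iff]
  intro ε hε
  obtain ⟨s, hs⟩ := Padic.rat_dense q r hε
  refine ⟨j (s : K), ⟨_, rfl⟩, ?_⟩
  rw [map_ratCast, dist_eq_norm]
  have : algebraMap ℚ_[q] (PadicAlgCl q) r - ((s : ℚ) : PadicAlgCl q) =
      algebraMap ℚ_[q] (PadicAlgCl q) (r - (s : ℚ_[q])) := by
    rw [map_sub, map_ratCast]
  rw [this, PadicAlgCl.norm_extends]
  exact hs

/-- **density.** The closure of the subfield `j K` is a subfield (`Subfield.topologicalClosure`)
containing `ℚ_q` (closure of `ℚ`) and `j K`. -/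
theorem exists_norm_sub_lt {K : Type*} [Field K] (j : K →+* PadicAlgCl q) {y : PadicAlgCl q}
    (hy : y ∈ locF q j) {ε : ℝ} (hε : 0 < ε) : ∃ x : K, ‖j x - y‖ < ε := by
  let C : Subfield (PadicAlgCl q) := j.fieldRange.topologicalClosure
  have hC : ∀ z, z ∈ C ↔ z ∈ closure (Set.range j) := by
    intro z
    rfl
  let C' : IntermediateField ℚ_[q] (PadicAlgCl q) :=
    { C with algebraMap_mem' := fun r => (hC _).mpr (dense1_algebraMap_mem j r) }
  have hle : locF q j ≤ C' := by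
    rw [locF, IntermediateField.adjoin_le_iff]
    rintro _ ⟨x, rfl⟩
    exact (hC _).mpr (subset_closure ⟨x, rfl⟩)
  have hy' : y ∈ closure (Set.range j) := (hC y).mp (hle hy)
  rw [Metric.mem_closure_iff] at hy'
  obtain ⟨_, ⟨x, rfl⟩, hx⟩ := hy' ε hε
  refine ⟨x, ?_⟩
  rwa [← dist_eq_norm, dist_comm]

/-- multiplicative form: `y ≠ 0` is `j x * u` with `‖u - 1‖ < ε`. -/
theorem exists_norm_div_sub_one_lt {K : Type*} [Field K] (j : K →+* PadicAlgCl q)
    {y : PadicAlgCl q} (hy : y ∈ locF q j) (hy0 : y ≠ 0) {ε : ℝ} (hε : 0 < ε) :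
    ∃ x : K, x ≠ 0 ∧ ‖y / j x - 1‖ < ε := by
  have hny : 0 < ‖y‖ := norm_pos_iff.mpr hy0
  have hδ : 0 < min ε 1 * ‖y‖ / 2 := by positivity
  obtain ⟨x, hx⟩ := exists_norm_sub_lt j hy hδ
  have hm1 : min ε 1 ≤ 1 := min_le_right _ _
  have hmε : min ε 1 ≤ ε := min_le_left _ _
  have hm0 : 0 < min ε 1 := lt_min hε one_pos
  have h1 : ‖y‖ / 2 ≤ ‖j x‖ := by
    have h2 : ‖y‖ ≤ ‖j x‖ + ‖j x - y‖ := by
      have := norm_sub_le (j x) (j x - y)
      simpa using this
    nlinarith
  have hjx : 0 < ‖j x‖ := by linarith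
  have hjx0 : j x ≠ 0 := norm_pos_iff.mp hjx
  refine ⟨x, fun h => hjx0 (by rw [h, map_zero]), ?_⟩
  have h3 : y / j x - 1 = (y - j x) / j x := by field_simp
  rw [h3, norm_div, div_lt_iff₀ hjx, norm_sub_rev]
  calc ‖j x - y‖ < min ε 1 * ‖y‖ / 2 := hx
    _ = min ε 1 * (‖y‖ / 2) := by ring
    _ ≤ min ε 1 * ‖j x‖ := by gcongr
    _ ≤ ε * ‖j x‖ := by gcongr

end Fermat.Agent.S55.DIC
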