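import Fermat.Agent.S55.DIC.Dense1
/-!
# S55-DIC (DENSE): `j K` is dense in `locF q j`; weak approximation; value group; residue rings
-/

set_option autoImplicit false

open NumberField IsDedekindDomain

namespace Fermat.Agent.S55.DIC

variable {q : ℕ} [Fact q.Prime]

variable {K : Type*} [Field K] [NumberField K]

/-- ultrametric principle. -/
theorem Dense2_norm_eq_of_sub_lt {a y : PadicAlgCl q} (h : ‖a - y‖ < ‖y‖) : ‖a‖ = ‖y‖ := by
  have h1 : a = (a - y) + y := by ring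
  rw [h1, IsUltrametricDist.norm_add_eq_max_of_norm_ne_norm h.ne, max_eq_right h.le]

theorem Dense2_ne_zero_of_ord {v : HeightOneSpectrum (𝓞 K)} {π : K} (hπ : ord v π = 1) :
    π ≠ 0 := by
  rintro rfl
  simp [ord] at hπ

/-- the value group of `locF q j` is the one of `K`. -/
theorem exists_norm_eq (j : K →+* PadicAlgCl q) {y : PadicAlgCl q} (hy : y ∈ locF q j)
    (hy0 : y ≠ 0) : ∃ x : K, x ≠ 0 ∧ ‖y‖ = ‖j x‖ := by
  obtain ⟨x, hx⟩ := exists_norm_sub_lt j hy (norm_pos_iff.mpr hy0)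
  have h := Dense2_norm_eq_of_sub_lt hx
  refine ⟨x, ?_, h.symm⟩
  rintro rfl
  rw [map_zero, norm_zero] at h
  exact hy0 (norm_eq_zero.mp h.symm)

theorem Dense2_norm_eq_zpow (j : K →+* PadicAlgCl q) {π : K} (hπ : ord (placeOf q j) π = 1)
    {x : K} (hx : x ≠ 0) : ‖j x‖ = ‖j π‖ ^ (ord (placeOf q j) x) := by
  have hπ0 : π ≠ 0 := Dense2_ne_zero_of_ord hπ
  set n := ord (placeOf q j) x with hn
  have hz : π ^ n ≠ 0 := zpow_ne_zero _ hπ0
  have h0 : ord (placeOf q j) (x * (π ^ n)⁻¹) = 0 := by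
    rw [ord_mul _ hx (inv_ne_zero hz), ord_inv, ord_zpow, hπ, ← hn]
    ring
  have h1 := norm_eq_one_of_ord_eq_zero j (mul_ne_zero hx (inv_ne_zero hz)) h0
  rw [map_mul, map_inv₀, map_zpow₀, norm_mul, norm_inv, norm_zpow] at h1
  have hne : ‖j π‖ ^ n ≠ 0 := zpow_ne_zero _ (norm_ne_zero_iff.mpr ((map_ne_zero j).mpr hπ0))
  field_simp at h1
  exact h1

/-- a uniformiser of `v` is a uniformiser of `locF q j`. -/
theorem exists_zpow_norm_eq (j : K →+* PadicAlgCl q) {π : K} (hπ : ord (placeOf q j) π = 1)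
    {y : PadicAlgCl q} (hy : y ∈ locF q j) (hy0 : y ≠ 0) : ∃ n : ℤ, ‖y‖ = ‖j π‖ ^ n := by
  obtain ⟨x, hx, hxy⟩ := exists_norm_eq j hy hy0
  exact ⟨ord (placeOf q j) x, by rw [hxy, Dense2_norm_eq_zpow j hπ hx]⟩

/-- inverting `b ∉ v` modulo `v ^ n`. -/
theorem Dense2_exists_inv_mod_pow (v : HeightOneSpectrum (𝓞 K)) {b : 𝓞 K} (hb : b ∉ v.asIdeal)
    (n : ℕ) : ∃ c : 𝓞 K, b * c - 1 ∈ v.asIdeal ^ n := by
  obtain ⟨y, i, hi, hyi⟩ := v.isMaximal.exists_inv hb
  obtain ⟨c, hc⟩ := sub_dvd_pow_sub_pow (1 : 𝓞 K) i n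
  refine ⟨y * c, ?_⟩
  have h1 : (1 : 𝓞 K) - i = y * b := by rw [← hyi]; ring
  rw [h1, one_pow] at hc
  have h2 : b * (y * c) - 1 = - i ^ n := by
    linear_combination -hc
  rw [h2]
  exact neg_mem (Ideal.pow_mem_pow hi n)

/-- elements of `K` with `ord v = 0` are approximated by integers. -/
theorem Dense2_approx_of_ord_eq_zero (j : K →+* PadicAlgCl q) {x : K} (hx : x ≠ 0)
    (h : ord (placeOf q j) x = 0) {ε : ℝ} (hε : 0 < ε) :
    ∃ a : 𝓞 K, ‖j (a : K) - j x‖ < ε := by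
  obtain ⟨a, b, -, hb, rfl⟩ := exists_div_of_ord_eq_zero (placeOf q j) hx h
  obtain ⟨n, hn⟩ := exists_ord_bound j hε
  obtain ⟨c, hc⟩ := Dense2_exists_inv_mod_pow (placeOf q j) hb n
  have hb0 : (b : K) ≠ 0 := by
    intro h0
    apply hb
    have : b = 0 := by exact_mod_cast h0
    rw [this]
    exact Submodule.zero_mem _
  have hb1 : ‖j (b : K)‖ = 1 := by
    refine le_antisymm (norm_emb_le_one j b) (not_lt.mp fun hlt => hb ?_)
    exact (mem_primeOf j b).mpr hlt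
  refine ⟨a * c, ?_⟩
  have e1 : j ((a * c : 𝓞 K) : K) - j ((a : K) / (b : K)) =
      j (a : K) * j ((b * c - 1 : 𝓞 K) : K) / j (b : K) := by
    have hjb : j (b : K) ≠ 0 := (map_ne_zero j).mpr hb0
    rw [map_div₀]
    field_simp
    push_cast
    simp only [map_sub, map_mul, map_one]
    ring
  rw [e1, norm_div, norm_mul, hb1, div_one]
  rcases eq_or_ne (b * c - 1) 0 with h0 | h0
  · rw [h0]
    simpa using hε
  · have h0' : ((b * c - 1 : 𝓞 K) : K) ≠ 0 := by exact_mod_cast h0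
    have h2 := hn _ h0' ((le_ord_iff_mem_pow _ h0 n).mpr hc)
    calc ‖j (a : K)‖ * ‖j ((b * c - 1 : 𝓞 K) : K)‖ ≤ 1 * ‖j ((b * c - 1 : 𝓞 K) : K)‖ :=
          mul_le_mul_of_nonneg_right (norm_emb_le_one j a) (norm_nonneg _)
      _ < ε := by rw [one_mul]; exact h2

/-- elements of `K` of norm `≤ 1` are approximated by integers. -/
theorem Dense2_approx_of_norm_le_one (j : K →+* PadicAlgCl q) {x : K} (h : ‖j x‖ ≤ 1)
    {ε : ℝ} (hε : 0 < ε) : ∃ a : 𝓞 K, ‖j (a : K) - j x‖ < ε := by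
  rcases eq_or_ne x 0 with rfl | hx
  · exact ⟨0, by simpa using hε⟩
  rcases h.lt_or_eq with hlt | heq
  · -- replace `x` by `x + 1`
    have h1 : ‖j (x + 1)‖ = 1 := by
      have : ‖j (x + 1) - 1‖ < ‖(1 : PadicAlgCl q)‖ := by
        rw [map_add, map_one, add_sub_cancel_right, norm_one]
        exact hlt
      rw [Dense2_norm_eq_of_sub_lt this, norm_one]
    have hx1 : x + 1 ≠ 0 := by
      intro h0
      rw [h0, map_zero, norm_zero] at h1
      exact zero_ne_one h1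
    have hord : ord (placeOf q j) (x + 1) = 0 := by
      apply le_antisymm
      · exact not_lt.mp fun hpos => (((norm_lt_one_iff j hx1).mpr hpos).ne h1)
      · exact (norm_le_one_iff j hx1).mp h1.le
    obtain ⟨a, ha⟩ := Dense2_approx_of_ord_eq_zero j hx1 hord hε
    refine ⟨a - 1, ?_⟩
    have e : j ((a - 1 : 𝓞 K) : K) - j x = j (a : K) - j (x + 1) := by
      push_cast
      simp only [map_sub, map_add, map_one]
      ring
    rw [e]
    exact ha
  · have hord : ord (placeOf q j) x = 0 := by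
      apply le_antisymm
      · exact not_lt.mp fun hpos => (((norm_lt_one_iff j hx).mpr hpos).ne heq)
      · exact (norm_le_one_iff j hx).mp heq.le
    exact Dense2_approx_of_ord_eq_zero j hx hord hε

/-- integers of `locF q j` are approximated by integers of `K`. -/
theorem exists_integer_norm_sub_lt (j : K →+* PadicAlgCl q) {y : PadicAlgCl q}
    (hy : y ∈ locF q j) (hy1 : ‖y‖ ≤ 1) {ε : ℝ} (hε : 0 < ε) : ∃ x : 𝓞 K, ‖j (x : K) - y‖ < ε := by
  obtain ⟨x0, hx0⟩ := exists_norm_sub_lt j hy (lt_min hε one_pos)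
  have h1 : ‖j x0‖ ≤ 1 := by
    have e : j x0 = (j x0 - y) + y := by ring
    rw [e]
    exact (IsUltrametricDist.norm_add_le_max _ _).trans
      (max_le (hx0.le.trans (min_le_right _ _)) hy1)
  obtain ⟨a, ha⟩ := Dense2_approx_of_norm_le_one j h1 hε
  refine ⟨a, ?_⟩
  have e : j (a : K) - y = (j (a : K) - j x0) + (j x0 - y) := by ring
  rw [e]
  exact lt_of_le_of_lt (IsUltrametricDist.norm_add_le_max _ _)
    (max_lt ha (hx0.trans_le (min_le_left _ _)))

/-- residue rings: the number of classes of `{y ∈ locF q j | ‖y‖ ≤ 1}` modulo `‖y - y'‖ ≤ ‖j c‖`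
is `#(𝓞 K / v ^ ord_v c)`; stated as a bijection-free counting statement:
the map `𝓞 K → {integers of locF}` induces: (surjectivity) `exists_integer_norm_sub_lt`,
(kernel) this lemma. -/
theorem norm_le_norm_iff_mem_pow (j : K →+* PadicAlgCl q) {π : K} (hπ : ord (placeOf q j) π = 1)
    (x : 𝓞 K) (n : ℕ) : ‖j (x : K)‖ ≤ ‖j π‖ ^ n ↔ x ∈ (placeOf q j).asIdeal ^ n := by
  rcases eq_or_ne x 0 with rfl | hx
  · simp only [map_zero, norm_zero, Submodule.zero_mem, iff_true]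
    positivity
  · have hπ0 : π ≠ 0 := Dense2_ne_zero_of_ord hπ
    have hx' : (x : K) ≠ 0 := by exact_mod_cast hx
    rw [← norm_pow, ← map_pow, norm_le_norm_iff j hx' (pow_ne_zero n hπ0), ord_pow, hπ, mul_one,
      le_ord_iff_mem_pow _ hx]

end Fermat.Agent.S55.DIC
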