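import Fermat.Agent.S55.DIC.Dense2
/-!
# S55-DIC (DENSE): `j K` is dense in `locF q j`; weak approximation; value group; residue rings
-/

set_option autoImplicit false

open NumberField IsDedekindDomain

namespace Fermat.Agent.S55.DIC

variable {q : ℕ} [Fact q.Prime]

variable {K : Type*} [Field K] [NumberField K]

/-- weak approximation with a precision depending on the place. -/
theorem dense3_weak_approximation_aux {ι : Type*} [Finite ι] (ℓ : ι → ℕ) [∀ i, Fact (ℓ i).Prime]
    (j : ∀ i, K →+* PadicAlgCl (ℓ i)) (hj : Function.Injective fun i => placeOf (ℓ i) (j i))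
    (y : ∀ i, PadicAlgCl (ℓ i)) (hy : ∀ i, y i ∈ locF (ℓ i) (j i)) (ε : ι → ℝ)
    (hε : ∀ i, 0 < ε i) :
    ∃ x : K, ∀ i, ‖j i x - y i‖ < ε i := by
  classical
  cases nonempty_fintype ι
  choose x hx using fun i => exists_norm_sub_lt (j i) (hy i) (hε i)
  choose n hn using fun i => exists_ord_bound (j i) (hε i)
  obtain ⟨z, hz⟩ := exists_forall_ord_sub_ge
    (Finset.univ.image fun i => placeOf (ℓ i) (j i))
    (Function.extend (fun i => placeOf (ℓ i) (j i)) x (fun _ => 0)) (Finset.univ.sup n)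
  refine ⟨z, fun i => ?_⟩
  have hzi := hz (placeOf (ℓ i) (j i)) (Finset.mem_image_of_mem _ (Finset.mem_univ i))
  rw [hj.extend_apply] at hzi
  have h1 : ‖j i (z - x i)‖ < ε i := by
    by_cases h0 : z - x i = 0
    · rw [h0, map_zero, norm_zero]; exact hε i
    · refine hn i _ h0 (le_trans ?_ (hzi.resolve_left h0))
      exact_mod_cast Finset.le_sup (f := n) (Finset.mem_univ i)
  have h2 : j i z - y i = j i (z - x i) + (j i (x i) - y i) := by
    rw [map_sub]; ring
  rw [h2]
  exact lt_of_le_of_lt (IsUltrametricDist.norm_add_le_max _ _) (max_lt h1 (hx i))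

/-- **weak approximation** at finitely many distinct places (possibly of different residue
characteristics). Proof: `exists_norm_sub_lt` at each place, then `exists_forall_ord_sub_ge`
and `exists_ord_bound`. -/
theorem weak_approximation {ι : Type*} [Finite ι] (ℓ : ι → ℕ) [∀ i, Fact (ℓ i).Prime]
    (j : ∀ i, K →+* PadicAlgCl (ℓ i)) (hj : Function.Injective fun i => placeOf (ℓ i) (j i))
    (y : ∀ i, PadicAlgCl (ℓ i)) (hy : ∀ i, y i ∈ locF (ℓ i) (j i)) {ε : ℝ} (hε : 0 < ε) :
    ∃ x : K, ∀ i, ‖j i x - y i‖ < ε := by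
  exact dense3_weak_approximation_aux ℓ j hj y hy (fun _ => ε) (fun _ => hε)

/-- multiplicative weak approximation. -/
theorem weak_approximation_mul {ι : Type*} [Finite ι] (ℓ : ι → ℕ) [∀ i, Fact (ℓ i).Prime]
    (j : ∀ i, K →+* PadicAlgCl (ℓ i)) (hj : Function.Injective fun i => placeOf (ℓ i) (j i))
    (y : ∀ i, PadicAlgCl (ℓ i)) (hy : ∀ i, y i ∈ locF (ℓ i) (j i)) (hy0 : ∀ i, y i ≠ 0)
    {ε : ℝ} (hε : 0 < ε) :
    ∃ x : K, x ≠ 0 ∧ ∀ i, ‖y i / j i x - 1‖ < ε := by
  cases isEmpty_or_nonempty ι with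
  | inl h => exact ⟨1, one_ne_zero, fun i => (h.false i).elim⟩
  | inr h =>
    obtain ⟨x, hx⟩ := dense3_weak_approximation_aux ℓ j hj y hy (fun i => min ε 1 * ‖y i‖)
      (fun i => mul_pos (lt_min hε one_pos) (norm_pos_iff.mpr (hy0 i)))
    have hnorm : ∀ i, ‖j i x‖ = ‖y i‖ := by
      intro i
      have h1 : ‖j i x - y i‖ < ‖y i‖ :=
        lt_of_lt_of_le (hx i) (mul_le_of_le_one_left (norm_nonneg _) (min_le_right _ _))
      have h2 : j i x = (j i x - y i) + y i := by ring
      rw [h2, IsUltrametricDist.norm_add_eq_max_of_norm_ne_norm h1.ne, max_eq_right h1.le]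
    have hne : ∀ i, j i x ≠ 0 := fun i => by
      rw [← norm_pos_iff, hnorm i]; exact norm_pos_iff.mpr (hy0 i)
    refine ⟨x, ?_, fun i => ?_⟩
    · obtain ⟨i⟩ := h
      intro h0
      exact hne i (by rw [h0, map_zero])
    · have h3 : y i / j i x - 1 = (y i - j i x) / j i x := by
        field_simp [hne i]
      rw [h3, norm_div, hnorm i, div_lt_iff₀ (norm_pos_iff.mpr (hy0 i)), norm_sub_rev]
      exact lt_of_lt_of_le (hx i) (mul_le_mul_of_nonneg_right (min_le_left _ _) (norm_nonneg _))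

end Fermat.Agent.S55.DIC
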