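import Fermat.Agent.S55.SREF.Defs
import Fermat.Agent.S55.DIC.Unram2

set_option autoImplicit false

open groupCohomology ExtCitation NumberField IsDedekindDomain
open scoped Pointwise
open Fermat.Agent.S55.SREF

namespace Fermat.Agent.S55.DIC.ForSREF

variable {p : ℕ} [Fact p.Prime] {S : Finset Nat.Primes}

/-- (D1) `e = 1` outside `S`: the value group of an `S`-level field at `𝒜 | q ∉ S` is generated
by `q`.  From `exists_place_below` (Unram1), `inertia_le_fixingSubgroup_iff` (Unram2): `m = ord v z`,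
`z / q ^ m` has `ord = 0`, so it and its inverse are in `𝒜`. -/
theorem exists_hasOrd (K : IntermediateField ℚ SREF.Qb) (hK : K.IsUnramifiedOutside S)
    (q : Nat.Primes) (hq : q ∉ S) (𝒜 : ValuationSubring SREF.Qb) (h𝒜 : 𝒜.LiesOverPrime (q : ℕ))
    (z : SREF.Qb) (hz : z ∈ K) (hz0 : z ≠ 0) : ∃ m : ℤ, HasOrd 𝒜 q z m := by
  haveI : FiniteDimensional ℚ K := hK.1
  haveI : NumberField K := ⟨⟩
  obtain ⟨v, -, hv⟩ := exists_place_below K 𝒜 q.2 h𝒜
  have he : ord v (((q : ℕ) : ℕ) : K) = 1 :=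
    (inertia_le_fixingSubgroup_iff K 𝒜 q.2 h𝒜 v hv).mp (hK.2 q hq 𝒜 h𝒜)
  set z' : K := ⟨z, hz⟩ with hz'
  have hz'0 : z' ≠ 0 := fun h => hz0 (congrArg Subtype.val h)
  have hq0 : (((q : ℕ) : ℕ) : K) ≠ 0 := by exact_mod_cast q.2.ne_zero
  set m : ℤ := ord v z' with hm
  set w : K := z' / (((q : ℕ) : ℕ) : K) ^ m with hw
  have hw0 : w ≠ 0 := div_ne_zero hz'0 (zpow_ne_zero _ hq0)
  have hordw : ord v w = 0 := by
    rw [hw, div_eq_mul_inv, ord_mul v hz'0 (inv_ne_zero (zpow_ne_zero _ hq0)), ord_inv, ord_zpow,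
      he]
    ring
  have h1 : (w : SREF.Qb) ∈ 𝒜 := (hv w hw0).mpr hordw.ge
  have h2 : ((w⁻¹ : K) : SREF.Qb) ∈ 𝒜 :=
    (hv w⁻¹ (inv_ne_zero hw0)).mpr (by rw [ord_inv, hordw]; simp)
  have hval : 𝒜.valuation (w : SREF.Qb) = 1 := by
    apply le_antisymm ((𝒜.valuation_le_one_iff _).mpr h1)
    have h3 := (𝒜.valuation_le_one_iff _).mpr h2
    push_cast at h3
    rw [map_inv₀] at h3
    have hne : 𝒜.valuation (w : SREF.Qb) ≠ 0 := by
      rw [Ne, map_eq_zero]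
      exact_mod_cast hw0
    exact (inv_le_one₀ (zero_lt_iff.mpr hne)).mp h3
  refine ⟨m, ?_⟩
  have hzw : z = (w : SREF.Qb) * ((q : ℕ) : SREF.Qb) ^ m := by
    have : z' = w * (((q : ℕ) : ℕ) : K) ^ m := by
      rw [hw, div_mul_cancel₀ _ (zpow_ne_zero _ hq0)]
    have h4 := congrArg (algebraMap K SREF.Qb) this
    rw [map_mul, map_zpow₀, map_natCast] at h4
    exact h4
  unfold HasOrd
  rw [hzw, map_mul, hval, one_mul, map_zpow₀]

end Fermat.Agent.S55.DIC.ForSREF
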