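import Fermat.Agent.S55.SREF.Defs
import Fermat.Agent.Lib.Frobenius

set_option autoImplicit false

open groupCohomology ExtCitation NumberField IsDedekindDomain
open scoped Pointwise
open Fermat.Agent.S55.SREF

namespace Fermat.Agent.S55.DIC.ForSREF

variable {p : ℕ} [Fact p.Prime] {S : Finset Nat.Primes}

section
variable {K : Type*} [Field K] [Algebra ℚ K] [IsAlgClosure ℚ K]

omit [Algebra ℚ K] [IsAlgClosure ℚ K] in
/-- nonunits in terms of membership. -/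
theorem fs2_mem_nonunits_iff (A : ValuationSubring K) (x : K) :
    x ∈ A.nonunits ↔ x = 0 ∨ x⁻¹ ∉ A := by
  rw [ValuationSubring.mem_nonunits_iff]
  by_cases hx : x = 0
  · simp [hx]
  · rw [← A.valuation_le_one_iff, map_inv₀, not_le]
    simp only [hx, false_or]
    rw [one_lt_inv₀ (by simpa [zero_lt_iff] using hx)]

omit [IsAlgClosure ℚ K] in
theorem fs2_nonunits_iff (L : IntermediateField ℚ K)
    (𝒜 𝒜' : ValuationSubring K) (h : ∀ x ∈ L, x ∈ 𝒜 ↔ x ∈ 𝒜') (x : K) (hx : x ∈ L) :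
    x ∈ 𝒜.nonunits ↔ x ∈ 𝒜'.nonunits := by
  rw [fs2_mem_nonunits_iff, fs2_mem_nonunits_iff, h _ (inv_mem hx)]

open Fermat.Agent.Lib.Frobenius in
/-- a valuation subring of `ℚ̄` which lies over no prime is trivial. -/
theorem fs2_eq_top (𝒜 : ValuationSubring K) (h : ∀ ℓ : ℕ, ℓ.Prime → ¬ 𝒜.LiesOverPrime ℓ) :
    𝒜 = ⊤ := by
  have : CharZero K := algebraRat.charZero K
  have hnat : ∀ n : ℕ, n ≠ 0 → ((n : K))⁻¹ ∈ 𝒜 := by
    intro n
    induction n using Nat.recOnMul with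
    | zero => intro h0; exact absurd rfl h0
    | one => intro _; simp
    | prime ℓ hℓ =>
      intro _
      exact inv_mem_of_not_mem_nonunits 𝒜 (natCast_mem _ ℓ) (h ℓ hℓ)
    | mul a b ha hb =>
      intro hab
      rw [Nat.cast_mul, mul_inv]
      exact mul_mem (ha (left_ne_zero_of_mul hab)) (hb (right_ne_zero_of_mul hab))
  rw [eq_top_iff]
  intro x _
  have halg : IsAlgebraic ℤ x :=
    (IsFractionRing.isAlgebraic_iff ℤ ℚ K).mpr (Algebra.IsAlgebraic.isAlgebraic (R := ℚ) x)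
  obtain ⟨n, hn0, hn⟩ := halg.exists_integral_multiple
  have h1 : n • x ∈ 𝒜 := isIntegral_mem 𝒜 hn
  have h2 : ((n.natAbs : ℕ) : K)⁻¹ ∈ 𝒜 := hnat _ (Int.natAbs_ne_zero.mpr hn0)
  have h3 : ((n : ℤ) : K)⁻¹ ∈ 𝒜 := by
    rcases Int.natAbs_eq n with h4 | h4
    · rw [h4]; simpa using h2
    · rw [h4]; simpa [inv_neg] using h2
  have h5 : x = ((n : ℤ) : K)⁻¹ * (n • x) := by
    have : ((n : ℤ) : K) ≠ 0 := by exact_mod_cast hn0
    rw [zsmul_eq_mul]
    field_simp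
  rw [h5]
  exact mul_mem h3 h1

open Fermat.Agent.Lib.Frobenius in
/-- transport of membership along an automorphism matching the centres. -/
theorem fs2_map_mem (𝒜 𝒜' : ValuationSubring K) {ℓ : ℕ} (hℓ : ℓ.Prime)
    (hA : 𝒜.LiesOverPrime ℓ) (τ : (K ≃ₐ[ℚ] K)) (hτ : τ • idealQ 𝒜 = idealQ 𝒜') {x : K}
    (hx : x ∈ 𝒜) : τ x ∈ 𝒜' := by
  have : CharZero K := algebraRat.charZero K
  obtain ⟨b, s, hb, hs, hsn, hsx⟩ := exists_integral_fraction 𝒜 hℓ hA x hx
  have hs0 : s ≠ 0 := by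
    rintro rfl
    exact hsn (by simp)
  let s' : integralClosure ℤ K := ⟨s, hs⟩
  let b' : integralClosure ℤ K := ⟨b, hb⟩
  have h1 : τ • s' ∉ idealQ 𝒜' := by
    intro h
    rw [← hτ, Ideal.smul_mem_pointwise_smul_iff, mem_idealQ] at h
    exact hsn h
  rw [mem_idealQ] at h1
  have h2 : (τ s)⁻¹ ∈ 𝒜' := inv_mem_of_not_mem_nonunits 𝒜' (isIntegral_mem 𝒜' (τ • s').2) h1
  have h3 : τ x = τ b * (τ s)⁻¹ := by
    rw [← hsx, map_mul]
    have : τ s ≠ 0 := by simpa using hs0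
    field_simp
  rw [h3]
  exact mul_mem (isIntegral_mem 𝒜' (τ • b').2) h2

/-- a closed subgroup `H` of `G_ℚ` acts transitively on the primes of `ℤ̄` with the same trace on
the `H`-invariants. -/
theorem fs2_exists_smul (H : Subgroup (K ≃ₐ[ℚ] K)) (hH : IsClosed (H : Set (K ≃ₐ[ℚ] K)))
    (P Q : Ideal (integralClosure ℤ K)) [P.IsPrime] [Q.IsPrime]
    (hPQ : ∀ b : integralClosure ℤ K, (∀ g ∈ H, g • b = b) → (b ∈ P ↔ b ∈ Q)) :
    ∃ g ∈ H, Q = g • P := by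
  let : TopologicalSpace (integralClosure ℤ K) := ⊥
  have : DiscreteTopology (integralClosure ℤ K) := ⟨rfl⟩
  have : ContinuousSMul (K ≃ₐ[ℚ] K) (integralClosure ℤ K) := by
    rw [continuousSMul_iff_stabilizer_isOpen]
    intro b
    convert stabilizer_isOpen_of_isIntegral (K := ℚ) (b : K) using 2
    ext σ
    simp only [MulAction.mem_stabilizer_iff]
    exact Subtype.ext_iff
  have : CompactSpace H := isCompact_iff_compactSpace.mp hH.isCompact
  let A₀ := FixedPoints.subalgebra ℤ (integralClosure ℤ K) H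
  have : SMulCommClass H A₀ (integralClosure ℤ K) := ⟨fun g a b => by
    show g • ((a : integralClosure ℤ K) * b) = (a : integralClosure ℤ K) * g • b
    rw [smul_mul', a.2 g]⟩
  have : Algebra.IsInvariant A₀ (integralClosure ℤ K) H :=
    ⟨fun b hb => ⟨⟨b, hb⟩, rfl⟩⟩
  obtain ⟨g, hg⟩ := Algebra.IsInvariant.exists_smul_of_under_eq_of_profinite (A := A₀) (G := H) P Q
    (by
      ext a
      simp only [Ideal.under_def, Ideal.mem_comap]
      exact hPQ a fun g hg => a.2 ⟨g, hg⟩)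
  exact ⟨g, g.2, hg⟩

open Fermat.Agent.Lib.Frobenius in
theorem fs2_main (L : IntermediateField ℚ K)
    (𝒜 𝒜' : ValuationSubring K) (h : ∀ x ∈ L, x ∈ 𝒜 ↔ x ∈ 𝒜') :
    ∃ σ ∈ L.fixingSubgroup, 𝒜' = σ • 𝒜 := by
  by_cases hex : ∃ ℓ : ℕ, ℓ.Prime ∧ 𝒜.LiesOverPrime ℓ
  · obtain ⟨ℓ, hℓ, hA⟩ := hex
    have hA' : 𝒜'.LiesOverPrime ℓ := (fs2_nonunits_iff L 𝒜 𝒜' h _ (natCast_mem L ℓ)).mp hA
    obtain ⟨g, hgL, hg⟩ := fs2_exists_smul L.fixingSubgroup
      (InfiniteGalois.fixingSubgroup_isClosed L) (idealQ 𝒜) (idealQ 𝒜') (by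
        intro b hb
        have hbL : (b : K) ∈ L := by
          rw [← InfiniteGalois.fixedField_fixingSubgroup L, IntermediateField.mem_fixedField_iff]
          intro g hg
          exact congrArg Subtype.val (hb g hg)
        rw [mem_idealQ, mem_idealQ]
        exact fs2_nonunits_iff L 𝒜 𝒜' h _ hbL)
    refine ⟨g, hgL, ?_⟩
    ext x
    rw [ValuationSubring.mem_pointwise_smul_iff_inv_smul_mem]
    constructor
    · intro hx
      exact fs2_map_mem 𝒜' 𝒜 hℓ hA' g⁻¹ (by rw [hg, inv_smul_smul]) hx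
    · intro hx
      have := fs2_map_mem 𝒜 𝒜' hℓ hA g hg.symm hx
      simpa using this
  · push Not at hex
    have h1 : 𝒜 = ⊤ := fs2_eq_top 𝒜 hex
    have h2 : 𝒜' = ⊤ := fs2_eq_top 𝒜' fun ℓ hℓ hA' =>
      hex ℓ hℓ ((fs2_nonunits_iff L 𝒜 𝒜' h _ (natCast_mem L ℓ)).mpr hA')
    refine ⟨1, one_mem _, ?_⟩
    rw [one_smul, h1, h2]


end

/-- (D2) valuation subrings inducing the same valuation ring of `L` are `G_L`-conjugate.
(`Algebra.IsInvariant` for the integral closure of `ℤ` in `Qb` under the profinite group `G_L`,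
Mathlib `RingTheory/Invariant/Profinite.lean`; compare `Lib/Frobenius.lean` `isInvariant`, `idealQ`,
`exists_integral_fraction`.) -/
theorem exists_smul_eq_of_forall_mem_iff (L : IntermediateField ℚ SREF.Qb) [NumberField L]
    (𝒜 𝒜' : ValuationSubring SREF.Qb) (h : ∀ x ∈ L, x ∈ 𝒜 ↔ x ∈ 𝒜') :
    ∃ σ ∈ L.fixingSubgroup, 𝒜' = σ • 𝒜 := by
  have : IsAlgClosure ℚ SREF.Qb := ⟨inferInstance, AlgebraicClosure.isAlgebraic ℚ⟩
  exact fs2_main L 𝒜 𝒜' h

end Fermat.Agent.S55.DIC.ForSREF
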