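import Fermat.Agent.S55.SREF.Defs
import Fermat.Agent.S55.DIC.TUnits

set_option autoImplicit false

open groupCohomology ExtCitation NumberField IsDedekindDomain
open scoped Pointwise
open Fermat.Agent.S55.SREF

namespace Fermat.Agent.S55.DIC.ForSREF

variable {p : ℕ} [Fact p.Prime] {S : Finset Nat.Primes}

theorem FS7_finite_placesOver (S : Finset Nat.Primes) (L : IntermediateField ℚ SREF.Qb)
    [NumberField L] : (placesOver S L).Finite := by
  have h : placesOver S L ⊆ ⋃ q ∈ S, {v : HeightOneSpectrum (𝓞 L) |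
      v.asIdeal ∣ Ideal.span {(((q : ℕ) : 𝓞 L))}} := by
    rintro v ⟨q, hq, hv⟩
    simp only [Set.mem_iUnion, Set.mem_ofPred_eq]
    exact ⟨q, hq, Ideal.dvd_span_singleton.mpr hv⟩
  refine Set.Finite.subset (Set.Finite.biUnion S.finite_toSet fun q _ => ?_) h
  apply Ideal.finite_factors
  rw [Ne, Ideal.zero_eq_bot, Ideal.span_singleton_eq_bot]
  exact_mod_cast q.2.ne_zero

/-- (D7) the `S`-unit theorem mod `p` (`μ_p ⊆ L`, `p` odd, so `L` is totally complex).
From helper15's `card_tUnit_quot_pow` (Fermat/Agent/S55/DIC/TUnits.lean):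
`#U_T/n = #μ_n(F) * n ^ (rank F + #T)`, `rank = r₁ + r₂ - 1`, `r₁ = 0`, `2 r₂ = [L:ℚ]`, `#μ_p(L) = p`;
`placesOver S L` is finite. -/
theorem card_sUnits_mod_pow (hp2 : p ≠ 2) (L : IntermediateField ℚ SREF.Qb) [NumberField L]
    (ζ : SREF.Qbˣ) (hζ : IsPrimitiveRoot ζ p) (hζL : (ζ : SREF.Qb) ∈ L) :
    Nat.card ((placesOver S L).unit L ⧸
      ((powMonoidHom p : (placesOver S L).unit L →* (placesOver S L).unit L).range)) =
      p ^ sNum S L := by
  have hp : p.Prime := Fact.out
  have hp3 : 2 < p := lt_of_le_of_ne hp.two_le (Ne.symm hp2)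
  have : NeZero p := ⟨hp.ne_zero⟩
  -- the primitive root in `L`
  have hζ' : IsPrimitiveRoot (⟨(ζ : SREF.Qb), hζL⟩ : L) p := by
    apply IsPrimitiveRoot.of_map_of_injective (f := algebraMap L SREF.Qb) _
      (algebraMap L SREF.Qb).injective
    exact IsPrimitiveRoot.coe_units_iff.mpr hζ
  have hroots : Nat.card (rootsOfUnity p L) = p := by
    exact hζ'.card_rootsOfUnity
  have hreal : InfinitePlace.nrRealPlaces L = 0 := NumberField.InfinitePlace.IsPrimitiveRoot.nrRealPlaces_eq_zero_of_two_lt hp3 hζ'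
  have hdeg := InfinitePlace.card_add_two_mul_card_eq_rank L
  rw [hreal, zero_add] at hdeg
  have hrank : Units.rank L = InfinitePlace.nrComplexPlaces L - 1 := by
    rw [Units.rank, InfinitePlace.card_eq_nrRealPlaces_add_nrComplexPlaces, hreal, zero_add]
  have hpos : 0 < Module.finrank ℚ L := Module.finrank_pos
  obtain ⟨T, hT⟩ : ∃ T : Finset (HeightOneSpectrum (𝓞 L)),
      (T : Set (HeightOneSpectrum (𝓞 L))) = placesOver S L :=
    ⟨(FS7_finite_placesOver S L).toFinset, Set.Finite.coe_toFinset _⟩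
  have hs : sNum S L = T.card + InfinitePlace.nrComplexPlaces L := by
    rw [sNum, ← hT, Set.ncard_coe_finset, ← hdeg]
    simp
  rw [hs, ← hT, card_unit_quot_pow L T p hp.ne_zero, hroots, hrank, ← pow_succ']
  congr 1
  omega

end Fermat.Agent.S55.DIC.ForSREF
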