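import Fermat.Agent.S55.DIC.Defs

/-!
# S55-DIC (IMAGE), helper file: Krasner's lemma ⟹ every finite extension of `ℚ_q` inside
`PadicAlgCl q` is generated by the image of one algebraic number.
-/

set_option autoImplicit false

open Polynomial IntermediateField

namespace Fermat.Agent.S55.DIC

variable {q : ℕ} [Fact q.Prime]

/-- a positive lower bound for the distance from `a` to its other conjugates -/
theorem image2aux_exists_delta (a : PadicAlgCl q) :
    ∃ δ : ℝ, 0 < δ ∧ ∀ a' : PadicAlgCl q, IsConjRoot ℚ_[q] a a' → a ≠ a' → δ ≤ ‖a - a'‖ := by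
  classical
  have hint : IsIntegral ℚ_[q] a := (Algebra.IsAlgebraic.isAlgebraic a).isIntegral
  let S : Finset (PadicAlgCl q) :=
    {x ∈ ((minpoly ℚ_[q] a).rootSet (PadicAlgCl q)).toFinset | x ≠ a}
  by_cases hS : S.Nonempty
  · refine ⟨Finset.min' (S.image fun x => ‖a - x‖) (Finset.image_nonempty.mpr hS), ?_, ?_⟩
    · simp only [Finset.lt_min'_iff, Finset.mem_image, forall_exists_index, and_imp,
        forall_apply_eq_imp_iff₂]
      rintro a' ha'
      simp only [Finset.mem_filter, Set.mem_toFinset, S] at ha'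
      rw [norm_pos_iff, sub_ne_zero]
      exact ha'.2.symm
    · intro a' conj ne
      apply Finset.min'_le (S.image fun x => ‖a - x‖) (‖a - a'‖)
      apply Finset.mem_image_of_mem
      simp only [Finset.mem_filter, Set.mem_toFinset, S]
      rw [← (isConjRoot_iff_mem_minpoly_rootSet hint)]
      exact ⟨conj, ne.symm⟩
  · refine ⟨1, one_pos, ?_⟩
    intro a' conj ne
    simp only [ne_eq, Finset.not_nonempty_iff_eq_empty, Finset.filter_eq_empty_iff,
      Set.mem_toFinset, not_not, S] at hS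
    rw [isConjRoot_iff_mem_minpoly_rootSet hint] at conj
    exact (ne (hS conj).symm).elim

/-- an element of `PadicAlgCl q` which is a root of a nonzero rational polynomial is in the image of
`padicEmbedding`. -/
theorem image2aux_mem_range (g : ℚ[X]) (b : PadicAlgCl q)
    (hb : b ∈ (g.map (algebraMap ℚ (PadicAlgCl q))).roots) :
    ∃ β : AlgebraicClosure ℚ, padicEmbedding q β = b := by
  have hs : (g.map (algebraMap ℚ (AlgebraicClosure ℚ))).Splits := IsAlgClosed.splits _
  have h1 : (g.map (algebraMap ℚ (AlgebraicClosure ℚ))).map (padicEmbedding q).toRingHom =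
      g.map (algebraMap ℚ (PadicAlgCl q)) := by
    rw [Polynomial.map_map]
    congr 1
    exact Subsingleton.elim _ _
  rw [← h1, hs.roots_map, Multiset.mem_map] at hb
  obtain ⟨β, _, hβ⟩ := hb
  exact ⟨β, hβ⟩

/-- **Krasner**: a simple extension `ℚ_q(a)` is `ℚ_q(b)` with `b` the image of an algebraic
number. -/
theorem image2aux_simple (a : PadicAlgCl q) :
    ∃ β : AlgebraicClosure ℚ, ℚ_[q]⟮padicEmbedding q β⟯ = ℚ_[q]⟮a⟯ := by
  have hint : IsIntegral ℚ_[q] a := (Algebra.IsAlgebraic.isAlgebraic a).isIntegral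
  set f := minpoly ℚ_[q] a with hf
  have fmon : f.Monic := minpoly.monic hint
  have firr : Irreducible f := minpoly.irreducible hint
  have fa0 : f.aeval a = 0 := minpoly.aeval _ _
  have fnatdeg0 : f.natDegree ≠ 0 := (Irreducible.natDegree_pos firr).ne'
  obtain ⟨δ, δpos, norm_sub_le⟩ := image2aux_exists_delta a
  have hε : (δ / (max ‖a‖ 1)) ^ f.natDegree / (f.natDegree + 1) > 0 := by positivity
  have hi : DenseRange (algebraMap ℚ ℚ_[q]) := Padic.denseRange_ratCast q
  obtain ⟨g, gmon, gdeg, gcoeff⟩ :=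
    exists_monic_and_natDegree_eq_and_norm_map_algebraMap_coeff_sub_lt hi fmon hε
  obtain ⟨b, hb, hab⟩ := exists_aroots_norm_sub_lt_of_norm_coeff_sub_lt (L := PadicAlgCl q)
      hε fa0 fmon (gmon.map _) (gdeg ▸ (g.natDegree_map _)) gcoeff (IsAlgClosed.splits _)
  have hab : ‖a - b‖ < δ := by
    rw [← Real.rpow_natCast, ← mul_comm_div, div_self, one_mul,
        ← Real.rpow_mul (div_pos δpos (by positivity)).le, mul_inv_cancel₀] at hab
    · simpa [mul_assoc, div_mul_cancel₀ _ (by positivity : (max ‖a‖ 1) > 0).ne'] using hab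
    · simp [fnatdeg0]
    · positivity
  have hb' : b ∈ (g.map (algebraMap ℚ (PadicAlgCl q))).roots := by
    rw [Polynomial.aroots_def, Polynomial.map_map] at hb
    have hcomp : (algebraMap ℚ_[q] (PadicAlgCl q)).comp (algebraMap ℚ ℚ_[q]) =
        algebraMap ℚ (PadicAlgCl q) := Subsingleton.elim _ _
    rw [hcomp] at hb
    exact hb
  obtain ⟨β, rfl⟩ := image2aux_mem_range g b hb'
  refine ⟨β, ?_⟩
  set b := padicEmbedding q β with hbdef
  simp only [Polynomial.mem_aroots', ne_eq] at hb
  have hbint : IsIntegral ℚ_[q] b := ⟨g.map _, gmon.map _, hb.2⟩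
  have hmem : a ∈ ℚ_[q]⟮b⟯ :=
    IsKrasner.krasner firr.separable (IsAlgClosed.splits _) hbint
      fun a' h1 h2 ↦ lt_of_lt_of_le hab (norm_sub_le a' h1 h2)
  have hle : ℚ_[q]⟮a⟯ ≤ ℚ_[q]⟮b⟯ := by
    rw [adjoin_simple_le_iff]
    exact hmem
  have : FiniteDimensional ℚ_[q] ℚ_[q]⟮b⟯ := adjoin.finiteDimensional hbint
  refine (eq_of_le_of_finrank_le hle ?_).symm
  rw [adjoin.finrank hbint, adjoin.finrank hint, ← hf, gdeg, ← g.natDegree_map (algebraMap ℚ ℚ_[q])]
  exact natDegree_le_of_dvd (minpoly.dvd _ _ hb.2) (gmon.map _).ne_zero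

/-- **Krasner**, for finite extensions. -/
theorem image2aux_krasner (E : IntermediateField ℚ_[q] (PadicAlgCl q))
    [FiniteDimensional ℚ_[q] E] :
    ∃ β : AlgebraicClosure ℚ, ℚ_[q]⟮padicEmbedding q β⟯ = E := by
  obtain ⟨α, hα⟩ := Field.exists_primitive_element ℚ_[q] E
  obtain ⟨β, hβ⟩ := image2aux_simple (α : PadicAlgCl q)
  refine ⟨β, ?_⟩
  rw [hβ, ← IntermediateField.lift_adjoin_simple, hα, IntermediateField.lift_top]

end Fermat.Agent.S55.DIC
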