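import Fermat.Agent.S55.DIC.Image1
import Fermat.Agent.S55.DIC.Image2Aux
/-!
# S55-DIC (IMAGE): `AlgebraicClosure ℚ`, `padicEmbedding`, `localGaloisToGlobal`
Subfields `F : IntermediateField ℚ Qb`, `σ : GQ`; the embedding `embOf q F σ : x ↦ padicEmbedding q (σ x)`.
-/

set_option autoImplicit false

open NumberField IsDedekindDomain

namespace Fermat.Agent.S55.DIC

variable {q : ℕ} [Fact q.Prime]

/-- (IM6) **Krasner**: every finite extension of `ℚ_q` is `ℚ_q (F)` for a number field `F`
(Mathlib: `IsKrasner.krasner`; approximate the minimal polynomial of a primitive element by a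
polynomial over `ℚ`, continuity of roots). -/
theorem exists_numberField_locF_eq (E : IntermediateField ℚ_[q] (PadicAlgCl q))
    [FiniteDimensional ℚ_[q] E] :
    ∃ F : IntermediateField ℚ Qb, FiniteDimensional ℚ F ∧ locF q (embOf q F 1) = E := by
  obtain ⟨β, hβ⟩ := image2aux_krasner E
  have hint : IsIntegral ℚ β := ((AlgebraicClosure.isAlgebraic ℚ).isAlgebraic β).isIntegral
  refine ⟨IntermediateField.adjoin ℚ {β}, IntermediateField.adjoin.finiteDimensional hint, ?_⟩
  rw [← hβ]
  apply le_antisymm
  · unfold locF
    rw [IntermediateField.adjoin_le_iff]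
    rintro _ ⟨⟨x, hx⟩, rfl⟩
    change padicEmbedding q x ∈ IntermediateField.adjoin ℚ_[q] {padicEmbedding q β}
    induction hx using IntermediateField.adjoin_induction with
    | mem x hx =>
      rw [Set.mem_singleton_iff] at hx
      subst hx
      exact IntermediateField.mem_adjoin_simple_self _ _
    | algebraMap r =>
      rw [AlgHom.commutes, eq_ratCast]
      exact SubfieldClass.ratCast_mem _ r
    | add x y _ _ hx hy =>
      rw [map_add]
      exact add_mem hx hy
    | inv x _ hx =>
      rw [map_inv₀]
      exact inv_mem hx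
    | mul x y _ _ hx hy =>
      rw [map_mul]
      exact mul_mem hx hy
  · rw [IntermediateField.adjoin_simple_le_iff]
    exact mem_locF (embOf q (IntermediateField.adjoin ℚ {β}) 1)
      ⟨β, IntermediateField.mem_adjoin_simple_self ℚ β⟩

/-- level-constancy for the local group = constancy modulo an open subgroup. -/
theorem exists_level_iff_exists_finite {P : Subgroup (Gq q) → Prop}
    (hP : ∀ H H' : Subgroup (Gq q), H ≤ H' → P H' → P H) :
    (∃ F : IntermediateField ℚ Qb, FiniteDimensional ℚ F ∧
        P (F.fixingSubgroup.comap (localGaloisToGlobal q))) ↔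
      ∃ E : IntermediateField ℚ_[q] (PadicAlgCl q), FiniteDimensional ℚ_[q] E ∧
        P E.fixingSubgroup := by
  have key : ∀ F : IntermediateField ℚ Qb,
      F.fixingSubgroup.comap (localGaloisToGlobal q) = (locF q (embOf q F 1)).fixingSubgroup := by
    intro F
    ext τ
    rw [Subgroup.mem_comap]
    exact localGaloisToGlobal_mem_fixingSubgroup_iff F τ
  constructor
  · rintro ⟨F, hF, hPF⟩
    have : NumberField F := { to_charZero := inferInstance, to_finiteDimensional := hF }
    exact ⟨locF q (embOf q F 1), inferInstance, key F ▸ hPF⟩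
  · rintro ⟨E, hE, hPE⟩
    obtain ⟨F, hF, rfl⟩ := exists_numberField_locF_eq E
    exact ⟨F, hF, (key F).symm ▸ hPE⟩

/-- (IM3) -/
theorem localGaloisToGlobal_injective : Function.Injective (localGaloisToGlobal q) := by
  rw [injective_iff_map_eq_one]
  intro τ hτ
  ext y
  have hy : IsIntegral ℚ_[q] y := (Algebra.IsAlgebraic.isAlgebraic y).isIntegral
  have : FiniteDimensional ℚ_[q] (IntermediateField.adjoin ℚ_[q] {y}) :=
    IntermediateField.adjoin.finiteDimensional hy
  obtain ⟨F, _, hF⟩ := exists_numberField_locF_eq (IntermediateField.adjoin ℚ_[q] {y})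
  have h1 : localGaloisToGlobal q τ ∈ F.fixingSubgroup := by
    rw [hτ]
    exact one_mem _
  rw [localGaloisToGlobal_mem_fixingSubgroup_iff, hF] at h1
  exact (IntermediateField.mem_fixingSubgroup_iff _ _).1 h1 y
    (IntermediateField.mem_adjoin_simple_self _ y)

end Fermat.Agent.S55.DIC
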