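import Fermat.Agent.S55.DIC.Image2
/-!
# S55-DIC (IMAGE): `AlgebraicClosure ℚ`, `padicEmbedding`, `localGaloisToGlobal`
Subfields `F : IntermediateField ℚ Qb`, `σ : GQ`; the embedding `embOf q F σ : x ↦ padicEmbedding q (σ x)`.
-/

set_option autoImplicit false

open NumberField IsDedekindDomain

namespace Fermat.Agent.S55.DIC

variable {q : ℕ} [Fact q.Prime]

/-- (IM8) places of `F` over `q` = double cosets `G_F \ GQ / Gq` (finite level (PL3) only). -/
theorem placeOf_embOf_eq_iff (F : IntermediateField ℚ Qb) [NumberField F] (σ σ' : GQ) :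
    placeOf q (embOf q F σ) = placeOf q (embOf q F σ') ↔
      ∃ τ : Gq q, ∃ h ∈ F.fixingSubgroup, σ' = localGaloisToGlobal q τ * σ * h := by
  rw [placeOf_eq_iff]
  constructor
  · rintro ⟨τ, hτ⟩
    refine ⟨τ, (localGaloisToGlobal q τ * σ)⁻¹ * σ', ?_, by group⟩
    rw [IntermediateField.mem_fixingSubgroup_iff]
    intro x hx
    have h1 := hτ ⟨x, hx⟩
    simp only [embOf_apply] at h1
    rw [← padicEmbedding_localGaloisToGlobal] at h1
    have h2 : σ' x = localGaloisToGlobal q τ (σ x) := (padicEmbedding q).toRingHom.injective h1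
    show (localGaloisToGlobal q τ * σ)⁻¹ (σ' x) = x
    rw [h2]
    show (localGaloisToGlobal q τ * σ)⁻¹ ((localGaloisToGlobal q τ * σ) x) = x
    exact AlgEquiv.symm_apply_apply _ x
  · rintro ⟨τ, h, hh, rfl⟩
    refine ⟨τ, fun x => ?_⟩
    simp only [embOf_apply]
    rw [← padicEmbedding_localGaloisToGlobal]
    have hx : h (x : Qb) = x := (IntermediateField.mem_fixingSubgroup_iff _ _).mp hh x x.2
    show padicEmbedding q (localGaloisToGlobal q τ (σ (h (x : Qb)))) = _
    rw [hx]

open scoped Pointwise in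
theorem Image3_isClosed_eval (y z : PadicAlgCl q) : IsClosed {τ : Gq q | τ y = z} := by
  have hlc : IsLocallyConstant (fun τ : Gq q => τ y) := by
    rw [IsLocallyConstant.iff_exists_open]
    intro τ₀
    refine ⟨τ₀ • (MulAction.stabilizer (Gq q) y : Set (Gq q)),
      (stabilizer_isOpen_of_isIntegral (K := ℚ_[q]) y).leftCoset τ₀, ?_, ?_⟩
    · exact ⟨1, one_mem _, by simp⟩
    · rintro _ ⟨s, hs, rfl⟩
      have hs' : s y = y := hs
      show (τ₀ * s) y = τ₀ y
      rw [AlgEquiv.mul_apply, hs']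
  exact hlc.isClosed_fiber z

open scoped Pointwise in
theorem Image3_norm_le_one_iff {g : GQ} (hg : g ∈ (padicPlace q).decompositionSubgroup ℚ) (x : Qb) :
    ‖padicEmbedding q (g x)‖ ≤ 1 ↔ ‖padicEmbedding q x‖ ≤ 1 := by
  have hg' : g • padicPlace q = padicPlace q := hg
  have h := ValuationSubring.smul_mem_pointwise_smul_iff (g := g) (S := padicPlace q) (x := x)
  rw [hg'] at h
  exact h

theorem Image3_norm_lt_one_iff {g : GQ} (hg : g ∈ (padicPlace q).decompositionSubgroup ℚ) (x : Qb) :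
    ‖padicEmbedding q (g x)‖ < 1 ↔ ‖padicEmbedding q x‖ < 1 := by
  by_cases hx : x = 0
  · simp [hx]
  have h := Image3_norm_le_one_iff hg x⁻¹
  rw [map_inv₀, map_inv₀, map_inv₀, norm_inv, norm_inv] at h
  have h1 : 0 < ‖padicEmbedding q x‖ := by
    rw [norm_pos_iff, ne_eq, map_eq_zero]; exact hx
  have h2 : 0 < ‖padicEmbedding q (g x)‖ := by
    rw [norm_pos_iff, ne_eq, map_eq_zero, map_eq_zero]; exact hx
  rw [inv_le_one₀ h1, inv_le_one₀ h2] at h
  rw [← not_le, ← not_le, h]

/-- (IM4) the image of `localGaloisToGlobal` is the decomposition group of `padicPlace q`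
((PL3) at every finite level + compactness of `Gq q`). -/
theorem range_localGaloisToGlobal :
    (localGaloisToGlobal q).range = (padicPlace q).decompositionSubgroup ℚ := by
  apply le_antisymm
  · rintro _ ⟨τ, rfl⟩
    exact localGaloisToGlobal_mem_decompositionSubgroup q τ
  intro g hg
  let ι := {F : IntermediateField ℚ Qb // FiniteDimensional ℚ F}
  let t : ι → Set (Gq q) := fun F =>
    {τ | ∀ x ∈ F.1, τ (padicEmbedding q x) = padicEmbedding q (g x)}
  have hne : Nonempty ι := ⟨⟨⊥, inferInstance⟩⟩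
  have hdir : Directed (· ⊇ ·) t := by
    intro F F'
    have := F.2
    have := F'.2
    refine ⟨⟨F.1 ⊔ F'.1, IntermediateField.finiteDimensional_sup F.1 F'.1⟩, ?_, ?_⟩
    · intro τ hτ x hx
      exact hτ x ((le_sup_left : F.1 ≤ F.1 ⊔ F'.1) hx)
    · intro τ hτ x hx
      exact hτ x ((le_sup_right : F'.1 ≤ F.1 ⊔ F'.1) hx)
  have hnonempty : ∀ F, (t F).Nonempty := by
    intro F
    have := F.2
    have : NumberField F.1 := ⟨⟩
    have hpl : placeOf q (embOf q F.1 1) = placeOf q (embOf q F.1 g) := by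
      apply HeightOneSpectrum.ext
      ext x
      simp only [placeOf_asIdeal, mem_primeOf, embOf_apply]
      exact (Image3_norm_lt_one_iff hg _).symm
    obtain ⟨τ, hτ⟩ := (placeOf_eq_iff _ _).mp hpl
    exact ⟨τ, fun x hx => (hτ ⟨x, hx⟩).symm⟩
  have hclosed : ∀ F, IsClosed (t F) := by
    intro F
    have : t F = ⋂ x ∈ F.1, {τ : Gq q | τ (padicEmbedding q x) = padicEmbedding q (g x)} := by
      ext τ
      simp [t]
    rw [this]
    exact isClosed_biInter fun x _ => Image3_isClosed_eval _ _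
  obtain ⟨τ, hτ⟩ := IsCompact.nonempty_iInter_of_directed_nonempty_isCompact_isClosed t hdir
    hnonempty (fun F => (hclosed F).isCompact) hclosed
  refine ⟨τ, ?_⟩
  ext x
  apply (padicEmbedding q).toRingHom.injective
  show padicEmbedding q (localGaloisToGlobal q τ x) = padicEmbedding q (g x)
  rw [padicEmbedding_localGaloisToGlobal]
  have hx : IsIntegral ℚ x := (AlgebraicClosure.isAlgebraic ℚ).isIntegral.isIntegral x
  exact Set.mem_iInter.mp hτ ⟨IntermediateField.adjoin ℚ {x},
    IntermediateField.adjoin.finiteDimensional hx⟩ x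
    (IntermediateField.mem_adjoin_simple_self ℚ x)

theorem Image3_mem_inertiaSubgroupIn_iff (A : ValuationSubring Qb) (σ : GQ) :
    σ ∈ A.inertiaSubgroupIn ℚ ↔
      σ ∈ A.decompositionSubgroup ℚ ∧ ∀ x ∈ A, σ x - x ∈ A.nonunits := by
  constructor
  · rintro ⟨g, hg, rfl⟩
    refine ⟨g.2, fun x hx => ?_⟩
    have hg' : g ∈ A.inertiaSubgroup ℚ := hg
    rw [ValuationSubring.inertiaSubgroup, MonoidHom.mem_ker] at hg'
    have h1 : g • IsLocalRing.residue A ⟨x, hx⟩ = IsLocalRing.residue A ⟨x, hx⟩ := by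
      have := congrArg (fun f : RingAut (IsLocalRing.ResidueField A) =>
        f (IsLocalRing.residue A ⟨x, hx⟩)) hg'
      exact this
    rw [← IsLocalRing.ResidueField.residue_smul, ← sub_eq_zero, ← map_sub,
      IsLocalRing.residue_eq_zero_iff] at h1
    exact ValuationSubring.coe_mem_nonunits_iff.mpr h1
  · rintro ⟨hdec, h⟩
    refine ⟨⟨σ, hdec⟩, ?_, rfl⟩
    show (⟨σ, hdec⟩ : A.decompositionSubgroup ℚ) ∈ A.inertiaSubgroup ℚ
    rw [ValuationSubring.inertiaSubgroup, MonoidHom.mem_ker]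
    ext x
    show (⟨σ, hdec⟩ : A.decompositionSubgroup ℚ) • x = x
    obtain ⟨⟨a, ha⟩, rfl⟩ := IsLocalRing.residue_surjective x
    rw [← IsLocalRing.ResidueField.residue_smul, ← sub_eq_zero, ← map_sub,
      IsLocalRing.residue_eq_zero_iff]
    exact ValuationSubring.coe_mem_nonunits_iff.mp (h a ha)

theorem Image3_mem_padicPlace (x : Qb) : x ∈ padicPlace q ↔ ‖padicEmbedding q x‖ ≤ 1 :=
  Iff.rfl

theorem Image3_mem_nonunits_padicPlace (x : Qb) :
    x ∈ (padicPlace q).nonunits ↔ ‖padicEmbedding q x‖ < 1 := by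
  rw [ValuationSubring.mem_nonunits_iff_or, Image3_mem_padicPlace]
  by_cases hx : x = 0
  · simp [hx]
  have h1 : 0 < ‖padicEmbedding q x‖ := by
    rw [norm_pos_iff, ne_eq, map_eq_zero]; exact hx
  rw [map_inv₀, norm_inv, inv_le_one₀ h1, not_le]
  simp [hx]

/-- `padicEmbedding q` has dense image (Krasner + density at finite level). -/
theorem Image3_exists_norm_sub_lt (y : PadicAlgCl q) {ε : ℝ} (hε : 0 < ε) :
    ∃ x : Qb, ‖padicEmbedding q x - y‖ < ε := by
  have hy : IsIntegral ℚ_[q] y := Algebra.IsIntegral.isIntegral y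
  have : FiniteDimensional ℚ_[q] (IntermediateField.adjoin ℚ_[q] {y}) :=
    IntermediateField.adjoin.finiteDimensional hy
  obtain ⟨F, -, hF⟩ := exists_numberField_locF_eq (IntermediateField.adjoin ℚ_[q] {y})
  have hmem : y ∈ locF q (embOf q F 1) := by
    rw [hF]; exact IntermediateField.mem_adjoin_simple_self _ y
  obtain ⟨x, hx⟩ := exists_norm_sub_lt (embOf q F 1) hmem hε
  exact ⟨x, hx⟩

theorem Image3_norm_algEquiv (τ : Gq q) (y : PadicAlgCl q) : ‖τ y‖ = ‖y‖ :=
  congrArg NNReal.toReal (nnnorm_padicAlgCl_algEquiv q τ y)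

/-- (IM5) inertia. -/
theorem localGaloisToGlobal_mem_inertia_iff (τ : Gq q) :
    localGaloisToGlobal q τ ∈ (padicPlace q).inertiaSubgroupIn ℚ ↔
      ∀ y : PadicAlgCl q, ‖y‖ ≤ 1 → ‖τ y - y‖ < 1 := by
  rw [Image3_mem_inertiaSubgroupIn_iff]
  constructor
  · rintro ⟨-, h⟩ y hy
    obtain ⟨x, hx⟩ := Image3_exists_norm_sub_lt y one_pos
    have hx1 : ‖padicEmbedding q x‖ ≤ 1 := by
      have : padicEmbedding q x = (padicEmbedding q x - y) + y := by ring
      rw [this]
      exact (IsUltrametricDist.norm_add_le_max _ _).trans (max_le hx.le hy)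
    have h1 := (Image3_mem_nonunits_padicPlace _).mp (h x hx1)
    rw [map_sub, padicEmbedding_localGaloisToGlobal] at h1
    have h2 : τ y - y = (τ (padicEmbedding q x) - padicEmbedding q x)
        + ((padicEmbedding q x - y) + -τ (padicEmbedding q x - y)) := by
      rw [map_sub]; ring
    rw [h2]
    refine lt_of_le_of_lt (IsUltrametricDist.norm_add_le_max _ _) (max_lt h1 ?_)
    refine lt_of_le_of_lt (IsUltrametricDist.norm_add_le_max _ _) (max_lt hx ?_)
    rw [norm_neg, Image3_norm_algEquiv]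
    exact hx
  · intro h
    refine ⟨localGaloisToGlobal_mem_decompositionSubgroup q τ, fun x hx => ?_⟩
    rw [Image3_mem_nonunits_padicPlace, map_sub, padicEmbedding_localGaloisToGlobal]
    exact h _ hx

end Fermat.Agent.S55.DIC
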