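import Fermat.Agent.S55.DIC.Defs
/-!
# S55-DIC (ORD): the additive valuation `ord v x : ℤ` at a finite place of a number field
(valid for any Dedekind domain; stated for `𝓞 K`.)  Pure Mathlib.
-/

set_option autoImplicit false

open NumberField IsDedekindDomain

namespace Fermat.Agent.S55.DIC

variable {K : Type*} [Field K] [NumberField K]

/-- additive normalised valuation, `ord v 0 = 0` by convention. -/
noncomputable def ord (v : HeightOneSpectrum (𝓞 K)) (x : K) : ℤ :=
  - WithZero.log (v.valuation K x)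

theorem valuation_eq_exp_neg_ord (v : HeightOneSpectrum (𝓞 K)) {x : K} (hx : x ≠ 0) :
    v.valuation K x = WithZero.exp (-(ord v x)) := by
  have h : v.valuation K x ≠ 0 := (Valuation.ne_zero_iff _).2 hx
  rw [ord, neg_neg, WithZero.exp_log h]

theorem ord_mul (v : HeightOneSpectrum (𝓞 K)) {x y : K} (hx : x ≠ 0) (hy : y ≠ 0) :
    ord v (x * y) = ord v x + ord v y := by
  have h1 : v.valuation K x ≠ 0 := (Valuation.ne_zero_iff _).2 hx
  have h2 : v.valuation K y ≠ 0 := (Valuation.ne_zero_iff _).2 hy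
  rw [ord, ord, ord, map_mul, WithZero.log_mul h1 h2, neg_add]

theorem ord_one (v : HeightOneSpectrum (𝓞 K)) : ord v (1 : K) = 0 := by
  rw [ord, map_one, WithZero.log_one, neg_zero]

theorem ord_inv (v : HeightOneSpectrum (𝓞 K)) (x : K) : ord v x⁻¹ = - ord v x := by
  rw [ord, ord, map_inv₀, WithZero.log_inv]

theorem ord_pow (v : HeightOneSpectrum (𝓞 K)) (x : K) (n : ℕ) : ord v (x ^ n) = n * ord v x := by
  rw [ord, ord, map_pow, WithZero.log_pow, nsmul_eq_mul, mul_neg]

theorem ord_zpow (v : HeightOneSpectrum (𝓞 K)) (x : K) (n : ℤ) : ord v (x ^ n) = n * ord v x := by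
  rw [ord, ord, map_zpow₀, WithZero.log_zpow, smul_eq_mul, mul_neg]

/-- `ord` as a homomorphism on units. -/
noncomputable def ordHom (v : HeightOneSpectrum (𝓞 K)) : Kˣ →* Multiplicative ℤ where
  toFun x := Multiplicative.ofAdd (ord v (x : K))
  map_one' := by simp [ord_one]
  map_mul' x y := by simp [ord_mul v x.ne_zero y.ne_zero]

theorem ord_eq_neg_toAdd_valuationOfNeZero (v : HeightOneSpectrum (𝓞 K)) (x : Kˣ) :
    ord v (x : K) = - Multiplicative.toAdd (v.valuationOfNeZero x) := by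
  rw [ord, ← HeightOneSpectrum.valuationOfNeZero_eq]
  rfl

theorem ord_add_ge (v : HeightOneSpectrum (𝓞 K)) {x y : K} (hxy : x + y ≠ 0) (hx : x ≠ 0)
    (hy : y ≠ 0) : min (ord v x) (ord v y) ≤ ord v (x + y) := by
  have h1 : v.valuation K x ≠ 0 := (Valuation.ne_zero_iff _).2 hx
  have h2 : v.valuation K y ≠ 0 := (Valuation.ne_zero_iff _).2 hy
  have h3 : v.valuation K (x + y) ≠ 0 := (Valuation.ne_zero_iff _).2 hxy
  rcases le_max_iff.1 ((v.valuation K).map_add x y) with h | h
  · refine (min_le_left _ _).trans ?_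
    rw [ord, ord, neg_le_neg_iff]
    exact (WithZero.log_le_log h3 h1).2 h
  · refine (min_le_right _ _).trans ?_
    rw [ord, ord, neg_le_neg_iff]
    exact (WithZero.log_le_log h3 h2).2 h

theorem ord_nonneg_of_isIntegral (v : HeightOneSpectrum (𝓞 K)) (x : 𝓞 K) : 0 ≤ ord v (x : K) := by
  by_cases hx : (x : K) = 0
  · rw [hx, ord, map_zero, WithZero.log_zero, neg_zero]
  · have h1 : v.valuation K (x : K) ≠ 0 := (Valuation.ne_zero_iff _).2 hx
    rw [ord, neg_nonneg, WithZero.log_le_iff_le_exp h1, WithZero.exp_zero]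
    exact v.valuation_le_one x

theorem ord_pos_iff_mem (v : HeightOneSpectrum (𝓞 K)) {x : 𝓞 K} (hx : x ≠ 0) :
    0 < ord v (x : K) ↔ x ∈ v.asIdeal := by
  have hx' : (x : K) ≠ 0 := by
    intro h
    exact hx (NumberField.RingOfIntegers.coe_injective (by simpa using h))
  have h1 : v.valuation K (x : K) ≠ 0 := (Valuation.ne_zero_iff _).2 hx'
  rw [ord, neg_pos, WithZero.log_lt_iff_lt_exp h1, WithZero.exp_zero]
  exact v.valuation_lt_one_iff_mem x

theorem le_ord_iff_mem_pow (v : HeightOneSpectrum (𝓞 K)) {x : 𝓞 K} (hx : x ≠ 0) (n : ℕ) :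
    (n : ℤ) ≤ ord v (x : K) ↔ x ∈ v.asIdeal ^ n := by
  have hx' : (x : K) ≠ 0 := by
    intro h
    exact hx (NumberField.RingOfIntegers.coe_injective (by simpa using h))
  have h1 : v.valuation K (x : K) ≠ 0 := (Valuation.ne_zero_iff _).2 hx'
  rw [ord, le_neg, WithZero.log_le_iff_le_exp h1, ← v.intValuation_le_pow_iff_mem,
    ← v.valuation_of_algebraMap (K := K)]

end Fermat.Agent.S55.DIC
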