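import Fermat.Agent.S55.DIC.Ord1
/-!
# S55-DIC (ORD): the additive valuation `ord v x : ℤ` at a finite place of a number field
(valid for any Dedekind domain; stated for `𝓞 K`.)  Pure Mathlib.
-/

set_option autoImplicit false

open NumberField IsDedekindDomain

namespace Fermat.Agent.S55.DIC

variable {K : Type*} [Field K] [NumberField K]

theorem Ord2_ord_zero (v : HeightOneSpectrum (𝓞 K)) : ord v (0 : K) = 0 := by
  simp [ord]

theorem Ord2_ord_neg (v : HeightOneSpectrum (𝓞 K)) (x : K) : ord v (-x) = ord v x := by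
  simp [ord, Valuation.map_neg]

theorem Ord2_coe_ne_zero {a : 𝓞 K} (ha : a ≠ 0) : (a : K) ≠ 0 := by
  intro h
  exact ha (RingOfIntegers.coe_injective (by simpa using h))

theorem Ord2_coe_mul (a b : 𝓞 K) : ((a * b : 𝓞 K) : K) = (a : K) * (b : K) :=
  map_mul (algebraMap (𝓞 K) K) a b

theorem Ord2_coe_pow (a : 𝓞 K) (n : ℕ) : ((a ^ n : 𝓞 K) : K) = (a : K) ^ n :=
  map_pow (algebraMap (𝓞 K) K) a n

theorem Ord2_ord_div (v : HeightOneSpectrum (𝓞 K)) {x y : K} (hx : x ≠ 0) (hy : y ≠ 0) :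
    ord v (x / y) = ord v x - ord v y := by
  rw [div_eq_mul_inv, ord_mul v hx (inv_ne_zero hy), ord_inv]
  ring

/-- an element which is integral at all finite places is an algebraic integer. -/
theorem exists_integer_of_forall_ord_nonneg (x : K)
    (h : ∀ v : HeightOneSpectrum (𝓞 K), 0 ≤ ord v x) : ∃ a : 𝓞 K, (a : K) = x := by
  have hx : x ∈ (algebraMap (𝓞 K) K).range := by
    apply HeightOneSpectrum.mem_integers_of_valuation_le_one
    intro v
    rcases eq_or_ne x 0 with rfl | hx0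
    · simp
    · rw [valuation_eq_exp_neg_ord v hx0, ← WithZero.exp_zero, WithZero.exp_le_exp]
      have := h v
      omega
  obtain ⟨a, ha⟩ := hx
  exact ⟨a, ha⟩

theorem exists_uniformizer (v : HeightOneSpectrum (𝓞 K)) : ∃ π : 𝓞 K, ord v (π : K) = 1 := by
  obtain ⟨π, hπ⟩ := v.intValuation_exists_uniformizer
  refine ⟨π, ?_⟩
  have h : v.valuation K (π : K) = WithZero.exp (-1 : ℤ) := by
    rw [← hπ]
    exact v.valuation_of_algebraMap π
  rw [ord, h, WithZero.log_exp]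
  norm_num

theorem Ord2_ne_zero_imp_mem (v : HeightOneSpectrum (𝓞 K)) {a : 𝓞 K} (ha : a ≠ 0)
    (h : ord v (a : K) ≠ 0) : a ∈ v.asIdeal := by
  rw [← ord_pos_iff_mem v ha]
  have := ord_nonneg_of_isIntegral v a
  omega

theorem Ord2_finite_mem {a : 𝓞 K} (ha : a ≠ 0) :
    {v : HeightOneSpectrum (𝓞 K) | a ∈ v.asIdeal}.Finite := by
  have hI : Ideal.span {a} ≠ 0 := by
    rw [Ne, Ideal.zero_eq_bot, Ideal.span_singleton_eq_bot]
    exact ha
  refine (Ideal.finite_factors hI).subset ?_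
  intro v hv
  rw [Set.mem_setOf_eq] at hv ⊢
  rw [Ideal.dvd_iff_le, Ideal.span_singleton_le_iff_mem]
  exact hv

theorem finite_ord_ne_zero (x : K) : {v : HeightOneSpectrum (𝓞 K) | ord v x ≠ 0}.Finite := by
  rcases eq_or_ne x 0 with rfl | hx
  · simp [Ord2_ord_zero]
  obtain ⟨a, b, hb, rfl⟩ := IsFractionRing.div_surjective (A := 𝓞 K) x
  have hb0 : b ≠ 0 := nonZeroDivisors.ne_zero hb
  have ha0 : a ≠ 0 := by
    rintro rfl
    simp at hx
  refine ((Ord2_finite_mem ha0).union (Ord2_finite_mem hb0)).subset ?_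
  intro v hv
  rw [Set.mem_setOf_eq] at hv
  have hd : ord v (algebraMap (𝓞 K) K a / algebraMap (𝓞 K) K b) =
      ord v (a : K) - ord v (b : K) := Ord2_ord_div v (Ord2_coe_ne_zero ha0) (Ord2_coe_ne_zero hb0)
  rw [hd] at hv
  by_cases h1 : ord v (a : K) = 0
  · right
    exact Ord2_ne_zero_imp_mem v hb0 (by omega)
  · left
    exact Ord2_ne_zero_imp_mem v ha0 h1

/-- Mathlib's `T`-units in terms of `ord`. -/
theorem mem_unit_iff_ord (T : Set (HeightOneSpectrum (𝓞 K))) (x : Kˣ) :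
    x ∈ T.unit K ↔ ∀ v ∉ T, ord v (x : K) = 0 := by
  have key : ∀ v : HeightOneSpectrum (𝓞 K), v.valuation K (x : K) = 1 ↔ ord v (x : K) = 0 := by
    intro v
    rw [valuation_eq_exp_neg_ord v x.ne_zero, ← WithZero.exp_zero, WithZero.exp_inj]
    omega
  constructor
  · intro h v hv
    exact (key v).mp (h v hv)
  · intro h v hv
    exact (key v).mpr (h v hv)

/-- `x = a / b` with `a b` integers prime to `v` when `ord v x = 0`. -/
theorem exists_div_of_ord_eq_zero (v : HeightOneSpectrum (𝓞 K)) {x : K} (hx : x ≠ 0)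
    (h : ord v x = 0) : ∃ a b : 𝓞 K, a ∉ v.asIdeal ∧ b ∉ v.asIdeal ∧ x = (a : K) / (b : K) := by
  obtain ⟨a0, b0, hb, rfl⟩ := IsFractionRing.div_surjective (A := 𝓞 K) x
  have hb0 : b0 ≠ 0 := nonZeroDivisors.ne_zero hb
  have ha0 : a0 ≠ 0 := by
    rintro rfl
    simp at hx
  have hd : ord v (algebraMap (𝓞 K) K a0 / algebraMap (𝓞 K) K b0) =
      ord v (a0 : K) - ord v (b0 : K) :=
    Ord2_ord_div v (Ord2_coe_ne_zero ha0) (Ord2_coe_ne_zero hb0)
  rw [hd] at h
  obtain ⟨m, hm⟩ := Int.eq_ofNat_of_zero_le (ord_nonneg_of_isIntegral v a0)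
  have hmb : ord v (b0 : K) = m := by omega
  obtain ⟨π, hπ⟩ := exists_uniformizer v
  have hπ0 : π ≠ 0 := by
    rintro rfl
    have h0 : ((0 : 𝓞 K) : K) = 0 := map_zero (algebraMap (𝓞 K) K)
    rw [h0, Ord2_ord_zero] at hπ
    exact zero_ne_one hπ
  have hπm0 : π ^ m ≠ 0 := pow_ne_zero m hπ0
  have hordπm : ord v ((π ^ m : 𝓞 K) : K) = m := by
    rw [Ord2_coe_pow, ord_pow, hπ, mul_one]
  have hπmem : π ^ m ∈ v.asIdeal ^ m := (le_ord_iff_mem_pow v hπm0 m).mp hordπm.ge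
  obtain ⟨J, hJ⟩ : v.asIdeal ^ m ∣ Ideal.span {π ^ m} := by
    rw [Ideal.dvd_iff_le, Ideal.span_singleton_le_iff_mem]
    exact hπmem
  have hJv : ¬ J ≤ v.asIdeal := by
    intro hle
    have h1 : π ^ m ∈ v.asIdeal ^ (m + 1) := by
      have h2 : Ideal.span {π ^ m} ≤ v.asIdeal ^ (m + 1) := by
        rw [hJ, pow_succ]
        exact Ideal.mul_mono_right hle
      exact h2 (Ideal.mem_span_singleton_self _)
    have h3 := (le_ord_iff_mem_pow v hπm0 (m + 1)).mpr h1
    rw [hordπm] at h3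
    push_cast at h3
    omega
  obtain ⟨c, hcJ, hcv⟩ := SetLike.not_le_iff_exists.mp hJv
  have hc0 : c ≠ 0 := by
    rintro rfl
    exact hcv (zero_mem _)
  have hordc : ord v (c : K) = 0 := by
    by_contra hne
    exact hcv (Ord2_ne_zero_imp_mem v hc0 hne)
  have hkey : ∀ y : 𝓞 K, y ≠ 0 → ord v (y : K) = m →
      ∃ a : 𝓞 K, a ∉ v.asIdeal ∧ y * c = π ^ m * a := by
    intro y hy0 hy
    have hymem : y ∈ v.asIdeal ^ m := (le_ord_iff_mem_pow v hy0 m).mp hy.ge
    have h1 : y * c ∈ Ideal.span {π ^ m} := by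
      rw [hJ]
      exact Ideal.mul_mem_mul hymem hcJ
    obtain ⟨a, ha⟩ := Ideal.mem_span_singleton'.mp h1
    refine ⟨a, ?_, by rw [← ha, mul_comm]⟩
    have ha0' : a ≠ 0 := by
      rintro rfl
      rw [zero_mul] at ha
      exact mul_ne_zero hy0 hc0 ha.symm
    intro hav
    have hpos := (ord_pos_iff_mem v ha0').mpr hav
    have h2 : ord v ((a * π ^ m : 𝓞 K) : K) = ord v ((y * c : 𝓞 K) : K) := by rw [ha]
    rw [Ord2_coe_mul, Ord2_coe_mul, ord_mul v (Ord2_coe_ne_zero ha0') (Ord2_coe_ne_zero hπm0),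
      ord_mul v (Ord2_coe_ne_zero hy0) (Ord2_coe_ne_zero hc0), hordπm, hy, hordc] at h2
    omega
  obtain ⟨a, hav, ha⟩ := hkey a0 ha0 hm
  obtain ⟨b, hbv, hb'⟩ := hkey b0 hb0 hmb
  refine ⟨a, b, hav, hbv, ?_⟩
  have hbne : b ≠ 0 := by
    rintro rfl
    exact hbv (zero_mem _)
  have e1 : (a0 : K) * (c : K) = (π : K) ^ m * (a : K) := by
    have := congrArg (fun z : 𝓞 K => (z : K)) ha
    simpa using this
  have e2 : (b0 : K) * (c : K) = (π : K) ^ m * (b : K) := by
    have := congrArg (fun z : 𝓞 K => (z : K)) hb'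
    simpa using this
  have hcK := Ord2_coe_ne_zero hc0
  have hbK := Ord2_coe_ne_zero hbne
  have hb0K := Ord2_coe_ne_zero hb0
  have hπK : (π : K) ^ m ≠ 0 := pow_ne_zero m (Ord2_coe_ne_zero hπ0)
  change (a0 : K) / (b0 : K) = (a : K) / (b : K)
  rw [div_eq_div_iff hb0K hbK]
  apply mul_right_cancel₀ (mul_ne_zero hcK hπK)
  calc (a0 : K) * (b : K) * ((c : K) * (π : K) ^ m)
      = ((a0 : K) * (c : K)) * ((π : K) ^ m * (b : K)) := by ring
    _ = ((π : K) ^ m * (a : K)) * ((b0 : K) * (c : K)) := by rw [e1, e2]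
    _ = (a : K) * (b0 : K) * ((c : K) * (π : K) ^ m) := by ring

/-- the fractional ideal `(x)` is the product of the `v ^ ord v x`; ideal form for integers. -/
theorem span_singleton_eq_finprod (x : 𝓞 K) (hx : x ≠ 0) :
    Ideal.span {x} = ∏ᶠ v : HeightOneSpectrum (𝓞 K), v.asIdeal ^ (ord v (x : K)).toNat := by
  have hI : Ideal.span {x} ≠ 0 := by
    rw [Ne, Ideal.zero_eq_bot, Ideal.span_singleton_eq_bot]
    exact hx
  conv_lhs => rw [← Ideal.finprod_heightOneSpectrum_factorization hI]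
  apply finprod_congr
  intro v
  rw [HeightOneSpectrum.maxPowDividing]
  congr 1
  have h : v.valuation K (x : K) = v.intValuation x := v.valuation_of_algebraMap x
  rw [ord, h, v.intValuation_if_neg hx, WithZero.log_exp]
  simp

theorem Ord2_exists_common_denom (T : Finset (HeightOneSpectrum (𝓞 K)))
    (x : HeightOneSpectrum (𝓞 K) → K) :
    ∃ d : 𝓞 K, d ≠ 0 ∧ ∀ v ∈ T, ∃ a : 𝓞 K, (a : K) = (d : K) * x v := by
  classical
  induction T using Finset.induction_on with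
  | empty => exact ⟨1, one_ne_zero, by simp⟩
  | insert w T hw ih =>
    obtain ⟨d, hd, h⟩ := ih
    obtain ⟨a, b, hb, hab⟩ := IsFractionRing.div_surjective (A := 𝓞 K) (x w)
    have hb0 : b ≠ 0 := nonZeroDivisors.ne_zero hb
    refine ⟨d * b, mul_ne_zero hd hb0, ?_⟩
    intro v hv
    rcases Finset.mem_insert.mp hv with rfl | hv
    · refine ⟨d * a, ?_⟩
      rw [Ord2_coe_mul, Ord2_coe_mul, ← hab]
      have : (algebraMap (𝓞 K) K b) ≠ 0 := Ord2_coe_ne_zero hb0
      change (d : K) * (a : K) = (d : K) * (b : K) * ((a : K) / (b : K))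
      have hbK : (b : K) ≠ 0 := Ord2_coe_ne_zero hb0
      field_simp
    · obtain ⟨a', ha'⟩ := h v hv
      refine ⟨a' * b, ?_⟩
      rw [Ord2_coe_mul, Ord2_coe_mul, ha']
      ring

/-- **weak approximation, Dedekind form.** -/
theorem exists_forall_ord_sub_ge (T : Finset (HeightOneSpectrum (𝓞 K)))
    (x : HeightOneSpectrum (𝓞 K) → K) (n : ℕ) :
    ∃ y : K, ∀ v ∈ T, y - x v = 0 ∨ (n : ℤ) ≤ ord v (y - x v) := by
  classical
  obtain ⟨d, hd, h⟩ := Ord2_exists_common_denom T x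
  choose! a ha using h
  obtain ⟨y0, hy0⟩ := IsDedekindDomain.exists_forall_sub_mem_ideal (s := T)
    (fun v : HeightOneSpectrum (𝓞 K) => v.asIdeal) (fun v => n + (ord v (d : K)).toNat)
    (fun v _ => v.prime) (fun v _ w _ hvw hEq => hvw (HeightOneSpectrum.ext hEq))
    (fun v => a v.1)
  have hdK : (d : K) ≠ 0 := Ord2_coe_ne_zero hd
  refine ⟨(y0 : K) / (d : K), ?_⟩
  intro v hv
  by_cases hz : y0 - a v = 0
  · left
    have h1 : (y0 : K) = (a v : K) := by rw [sub_eq_zero.mp hz]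
    rw [h1, ha v hv]
    field_simp
    ring
  · right
    have hmem := hy0 v hv
    have h1 := (le_ord_iff_mem_pow v hz _).mpr hmem
    have h2 : (y0 : K) / (d : K) - x v = ((y0 - a v : 𝓞 K) : K) / (d : K) := by
      have h3 : ((y0 - a v : 𝓞 K) : K) = (y0 : K) - (a v : K) :=
        map_sub (algebraMap (𝓞 K) K) y0 (a v)
      rw [h3, ha v hv]
      field_simp
    rw [h2, Ord2_ord_div v (Ord2_coe_ne_zero hz) hdK]
    have h4 := ord_nonneg_of_isIntegral v d
    rw [Nat.cast_add, Int.toNat_of_nonneg h4] at h1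
    omega

theorem Ord2_ord_eq_of_lt (v : HeightOneSpectrum (𝓞 K)) {x y : K} (hx : x ≠ 0)
    (h : y - x = 0 ∨ ord v x < ord v (y - x)) : y ≠ 0 ∧ ord v y = ord v x := by
  by_cases h0 : y - x = 0
  · rw [sub_eq_zero.mp h0]
    exact ⟨hx, rfl⟩
  have hlt : ord v x < ord v (y - x) := h.resolve_left h0
  have hy : y ≠ 0 := by
    rintro rfl
    rw [zero_sub, Ord2_ord_neg] at hlt
    exact lt_irrefl _ hlt
  refine ⟨hy, ?_⟩
  have h1 : min (ord v x) (ord v (y - x)) ≤ ord v (x + (y - x)) :=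
    ord_add_ge v (by rw [add_sub_cancel]; exact hy) hx h0
  rw [add_sub_cancel] at h1
  have h2 : min (ord v y) (ord v (-(y - x))) ≤ ord v (y + -(y - x)) :=
    ord_add_ge v (by rw [← sub_eq_add_neg, sub_sub_cancel]; exact hx) hy (neg_ne_zero.mpr h0)
  rw [← sub_eq_add_neg, sub_sub_cancel, Ord2_ord_neg] at h2
  rcases le_total (ord v y) (ord v (y - x)) with h3 | h3
  · rw [min_eq_left h3] at h2
    rw [min_eq_left hlt.le] at h1
    omega
  · rw [min_eq_right h3] at h2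
    omega

/-- prescribing finitely many orders, integral elsewhere is NOT required. -/
theorem exists_forall_ord_eq (T : Finset (HeightOneSpectrum (𝓞 K)))
    (n : HeightOneSpectrum (𝓞 K) → ℤ) : ∃ y : K, y ≠ 0 ∧ ∀ v ∈ T, ord v y = n v := by
  classical
  rcases T.eq_empty_or_nonempty with rfl | hT
  · exact ⟨1, one_ne_zero, by simp⟩
  choose π hπ using fun v : HeightOneSpectrum (𝓞 K) => exists_uniformizer v
  have hπ0 : ∀ v, (π v : K) ≠ 0 := by
    intro v h0
    have := hπ v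
    rw [h0, Ord2_ord_zero] at this
    exact zero_ne_one this
  have hx0 : ∀ v, (π v : K) ^ (n v) ≠ 0 := fun v => zpow_ne_zero _ (hπ0 v)
  have hxord : ∀ v, ord v ((π v : K) ^ (n v)) = n v := by
    intro v
    rw [ord_zpow, hπ v, mul_one]
  obtain ⟨y, hy⟩ := exists_forall_ord_sub_ge T (fun v => (π v : K) ^ (n v))
    ((∑ v ∈ T, (n v).natAbs) + 1)
  have hall : ∀ v ∈ T, y ≠ 0 ∧ ord v y = n v := by
    intro v hv
    have h1 := Ord2_ord_eq_of_lt v (hx0 v) (y := y) (by
      rcases hy v hv with h | h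
      · exact Or.inl h
      · right
        rw [hxord v]
        have h2 : (n v).natAbs ≤ ∑ w ∈ T, (n w).natAbs :=
          Finset.single_le_sum (f := fun w => (n w).natAbs) (fun _ _ => Nat.zero_le _) hv
        have h3 : n v ≤ ((n v).natAbs : ℤ) := Int.le_natAbs
        have h4 : ((n v).natAbs : ℤ) ≤ ((∑ w ∈ T, (n w).natAbs : ℕ) : ℤ) := by exact_mod_cast h2
        rw [Nat.cast_add, Nat.cast_one] at h
        omega)
    rw [hxord v] at h1
    exact h1
  obtain ⟨v0, hv0⟩ := hT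
  exact ⟨y, (hall v0 hv0).1, fun v hv => (hall v hv).2⟩

end Fermat.Agent.S55.DIC
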