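import Fermat.Agent.S55.DIC.Ord
/-!
# S55-DIC (PLACE): primes of `𝓞 K` over `q`  <->  embeddings `K →+* PadicAlgCl q` modulo `Gq`
-/

set_option autoImplicit false

open NumberField IsDedekindDomain

namespace Fermat.Agent.S55.DIC

variable {q : ℕ} [Fact q.Prime] {K : Type*} [Field K] [NumberField K]

/-! ### (PL1) comparison of `‖j x‖` with the `placeOf q j`-adic valuation -/

private theorem place1_inv_pos (q : ℕ) [Fact q.Prime] : 0 < ((q : ℝ)⁻¹) :=
  inv_pos.2 (by exact_mod_cast (Fact.out : q.Prime).pos)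

private theorem place1_inv_lt_one (q : ℕ) [Fact q.Prime] : ((q : ℝ)⁻¹) < 1 :=
  inv_lt_one_of_one_lt₀ (by exact_mod_cast (Fact.out : q.Prime).one_lt)

/-- `ord v x = 0 → ‖j x‖ = 1`  (write `x = a / b`, `exists_div_of_ord_eq_zero`). -/
theorem norm_eq_one_of_ord_eq_zero (j : K →+* PadicAlgCl q) {x : K} (hx : x ≠ 0)
    (h : ord (placeOf q j) x = 0) : ‖j x‖ = 1 := by
  obtain ⟨a, b, ha, hb, rfl⟩ := exists_div_of_ord_eq_zero (placeOf q j) hx h
  rw [placeOf_asIdeal, mem_primeOf, not_lt] at ha hb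
  have ha1 : ‖j (a : K)‖ = 1 := le_antisymm (norm_emb_le_one j a) ha
  have hb1 : ‖j (b : K)‖ = 1 := le_antisymm (norm_emb_le_one j b) hb
  rw [map_div₀, norm_div, ha1, hb1, div_one]

/-- the ramification index `e = ord_v(q)` is positive. -/
theorem ord_natCast_pos (j : K →+* PadicAlgCl q) : 0 < ord (placeOf q j) ((q : ℕ) : K) := by
  have hq : ((q : ℕ) : 𝓞 K) ≠ 0 := by
    exact_mod_cast (Fact.out : q.Prime).ne_zero
  have := (ord_pos_iff_mem (placeOf q j) hq).2 (natCast_mem_primeOf j)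
  simpa using this

/-- **norm formula**: `‖j x‖ ^ e = q ^ (- ord_v x)`, `e = ord_v q`
(apply `norm_eq_one_of_ord_eq_zero` to `x ^ e / q ^ ord x`). -/
theorem norm_zpow_ord (j : K →+* PadicAlgCl q) {x : K} (hx : x ≠ 0) :
    ‖j x‖ ^ (ord (placeOf q j) ((q : ℕ) : K)) = ((q : ℝ)⁻¹) ^ (ord (placeOf q j) x) := by
  have hq : ((q : ℕ) : K) ≠ 0 := by
    exact_mod_cast (Fact.out : q.Prime).ne_zero
  set e := ord (placeOf q j) ((q : ℕ) : K) with he
  set n := ord (placeOf q j) x with hn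
  have hy : x ^ e * (((q : ℕ) : K) ^ n)⁻¹ ≠ 0 :=
    mul_ne_zero (zpow_ne_zero _ hx) (inv_ne_zero (zpow_ne_zero _ hq))
  have h0 : ord (placeOf q j) (x ^ e * (((q : ℕ) : K) ^ n)⁻¹) = 0 := by
    rw [ord_mul _ (zpow_ne_zero _ hx) (inv_ne_zero (zpow_ne_zero _ hq)), ord_inv, ord_zpow,
      ord_zpow, ← he, ← hn]
    ring
  have h1 := norm_eq_one_of_ord_eq_zero j hy h0
  rw [map_mul, map_inv₀, map_zpow₀, map_zpow₀, map_natCast, norm_mul, norm_inv, norm_zpow,
    norm_zpow, norm_natCast_self] at h1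
  have hq' : ((q : ℝ)⁻¹) ^ n ≠ 0 :=
    zpow_ne_zero _ (inv_ne_zero (by exact_mod_cast (Fact.out : q.Prime).ne_zero))
  exact (mul_inv_eq_one₀ hq').1 h1

theorem norm_le_one_iff (j : K →+* PadicAlgCl q) {x : K} (hx : x ≠ 0) :
    ‖j x‖ ≤ 1 ↔ 0 ≤ ord (placeOf q j) x := by
  have he := ord_natCast_pos (K := K) j
  have hf := norm_zpow_ord j hx
  obtain ⟨e, he'⟩ := Int.eq_ofNat_of_zero_le he.le
  rw [he'] at hf he
  have he0 : e ≠ 0 := by
    rintro rfl
    simp at he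
  rw [zpow_natCast] at hf
  rw [← pow_le_one_iff_of_nonneg (norm_nonneg _) he0, hf]
  exact zpow_le_one_iff_right_of_lt_one₀ (place1_inv_pos q) (place1_inv_lt_one q)

theorem norm_lt_one_iff (j : K →+* PadicAlgCl q) {x : K} (hx : x ≠ 0) :
    ‖j x‖ < 1 ↔ 0 < ord (placeOf q j) x := by
  have he := ord_natCast_pos (K := K) j
  have hf := norm_zpow_ord j hx
  obtain ⟨e, he'⟩ := Int.eq_ofNat_of_zero_le he.le
  rw [he'] at hf he
  have he0 : e ≠ 0 := by
    rintro rfl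
    simp at he
  rw [zpow_natCast] at hf
  rw [← pow_lt_one_iff_of_nonneg (norm_nonneg _) he0, hf]
  exact zpow_lt_one_iff_right_of_lt_one₀ (place1_inv_pos q) (place1_inv_lt_one q)

theorem norm_le_norm_iff (j : K →+* PadicAlgCl q) {x y : K} (hx : x ≠ 0) (hy : y ≠ 0) :
    ‖j x‖ ≤ ‖j y‖ ↔ ord (placeOf q j) y ≤ ord (placeOf q j) x := by
  have hjy : 0 < ‖j y‖ := norm_pos_iff.2 ((map_ne_zero j).2 hy)
  have h := norm_le_one_iff j (mul_ne_zero hx (inv_ne_zero hy))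
  rw [ord_mul _ hx (inv_ne_zero hy), ord_inv, map_mul, map_inv₀, norm_mul, norm_inv,
    ← div_eq_mul_inv, div_le_one hjy] at h
  rw [h]
  constructor <;> intro h' <;> linarith

/-- smallness in norm from largeness of `ord`. -/
theorem exists_ord_bound (j : K →+* PadicAlgCl q) {ε : ℝ} (hε : 0 < ε) :
    ∃ n : ℕ, ∀ x : K, x ≠ 0 → (n : ℤ) ≤ ord (placeOf q j) x → ‖j x‖ < ε := by
  have he := ord_natCast_pos (K := K) j
  obtain ⟨e, he'⟩ := Int.eq_ofNat_of_zero_le he.le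
  have he0 : e ≠ 0 := by
    rintro rfl
    rw [he'] at he
    simp at he
  obtain ⟨n, hn⟩ := exists_pow_lt_of_lt_one (pow_pos hε e) (place1_inv_lt_one q)
  refine ⟨n, fun x hx hnx => ?_⟩
  have hf := norm_zpow_ord j hx
  rw [he', zpow_natCast] at hf
  refine lt_of_pow_lt_pow_left₀ e hε.le ?_
  rw [hf]
  refine lt_of_le_of_lt ?_ hn
  rw [← zpow_natCast]
  exact zpow_le_zpow_right_of_le_one₀ (place1_inv_pos q) (place1_inv_lt_one q).le hnx

/-- two embeddings with the same place induce the same norm. -/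
theorem norm_eq_of_placeOf_eq (j j' : K →+* PadicAlgCl q) (h : placeOf q j = placeOf q j')
    (x : K) : ‖j x‖ = ‖j' x‖ := by
  by_cases hx : x = 0
  · simp [hx]
  have he := ord_natCast_pos (K := K) j
  have hf := norm_zpow_ord j hx
  have hf' := norm_zpow_ord j' hx
  rw [← h] at hf'
  obtain ⟨e, he'⟩ := Int.eq_ofNat_of_zero_le he.le
  have he0 : e ≠ 0 := by
    rintro rfl
    rw [he'] at he
    simp at he
  rw [he', zpow_natCast] at hf hf'
  exact (pow_left_inj₀ (norm_nonneg _) (norm_nonneg _) he0).1 (hf.trans hf'.symm)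

end Fermat.Agent.S55.DIC
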