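import Fermat.Agent.S55.DIC.Place1
/-!
# S55-DIC (PLACE): primes of `𝓞 K` over `q`  <->  embeddings `K →+* PadicAlgCl q` modulo `Gq`
-/

set_option autoImplicit false

open NumberField IsDedekindDomain

namespace Fermat.Agent.S55.DIC

variable {q : ℕ} [Fact q.Prime] {K : Type*} [Field K] [NumberField K]

/-! ### (PL2) every prime over `q` comes from an embedding -/

/-- Proof: if `v` is not of the form `placeOf q j`, choose by CRT `x ∈ 𝓞 K`, `x ∈ v`, `x ≡ 1` modulo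
all the (finitely many) `primeOf q j`. Then `N_{K/ℚ} x = ∏_j j x` (`Algebra.norm_eq_prod_embeddings`)
has norm `1` in `PadicAlgCl q`, but `N x ∈ v ∩ ℤ = q ℤ`. -/
theorem exists_emb_placeOf_eq (v : HeightOneSpectrum (𝓞 K)) (hv : ((q : ℕ) : 𝓞 K) ∈ v.asIdeal) :
    ∃ j : K →+* PadicAlgCl q, placeOf q j = v := by
  classical
  by_contra hcon
  push Not at hcon
  have hq : q.Prime := Fact.out
  -- prime avoidance
  obtain ⟨j0⟩ : Nonempty (K →ₐ[ℚ] PadicAlgCl q) := ⟨IsAlgClosed.lift⟩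
  have h1 : ¬ ((v.asIdeal : Set (𝓞 K)) ⊆
      ⋃ j ∈ ((Finset.univ : Finset (K →ₐ[ℚ] PadicAlgCl q)) : Set (K →ₐ[ℚ] PadicAlgCl q)),
        (primeOf q (j : K →+* PadicAlgCl q) : Set (𝓞 K))) := by
    rw [Ideal.subset_union_prime j0 j0 (fun j _ _ _ => primeOf_isPrime (j : K →+* PadicAlgCl q))]
    rintro ⟨j, -, hj⟩
    apply hcon (j : K →+* PadicAlgCl q)
    apply HeightOneSpectrum.ext
    rw [placeOf_asIdeal]
    exact (v.isMaximal.eq_of_le (primeOf_isPrime (j : K →+* PadicAlgCl q)).ne_top hj).symm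
  rw [Set.not_subset] at h1
  obtain ⟨x, hxv, hx⟩ := h1
  have hx1 : ∀ j : K →ₐ[ℚ] PadicAlgCl q, ‖j (x : K)‖ = 1 := by
    intro j
    have h2 : x ∉ primeOf q (j : K →+* PadicAlgCl q) := by
      intro h3
      apply hx
      simp only [Set.mem_iUnion]
      exact ⟨j, by simp, h3⟩
    rw [mem_primeOf, not_lt] at h2
    exact le_antisymm (norm_emb_le_one (j : K →+* PadicAlgCl q) x) h2
  -- the norm
  have hN : ‖algebraMap ℚ (PadicAlgCl q) (Algebra.norm ℚ (x : K))‖ = 1 := by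
    rw [Algebra.norm_eq_prod_embeddings ℚ (PadicAlgCl q) (x : K), norm_prod]
    exact Finset.prod_eq_one (fun j _ => hx1 j)
  -- the absolute norm lies in `v`
  have hm : ((Ideal.absNorm (Ideal.span {x}) : ℕ) : 𝓞 K) ∈ v.asIdeal := by
    have h3 := Ideal.absNorm_mem (Ideal.span {x})
    exact (Ideal.span_singleton_le_iff_mem _).mpr hxv h3
  rw [Ideal.absNorm_span_singleton] at hm
  set m : ℕ := (Algebra.norm ℤ x).natAbs with hmdef
  have hqm : q ∣ m := by
    by_contra hndvd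
    have hcop : Nat.Coprime q m := (Nat.Prime.coprime_iff_not_dvd hq).mpr hndvd
    have hone : ((1 : ℕ) : 𝓞 K) ∈ v.asIdeal := by
      have := Nat.isCoprime_iff_coprime.mpr hcop
      obtain ⟨a, b, hab⟩ := this
      have h4 : ((a : 𝓞 K) * ((q : ℕ) : 𝓞 K) + (b : 𝓞 K) * ((m : ℕ) : 𝓞 K)) = 1 := by
        have := congrArg (Int.cast : ℤ → 𝓞 K) hab
        push_cast at this
        exact this
      rw [Nat.cast_one, ← h4]
      exact v.asIdeal.add_mem (v.asIdeal.mul_mem_left _ hv) (v.asIdeal.mul_mem_left _ hm)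
    rw [Nat.cast_one] at hone
    exact v.isPrime.ne_top ((Ideal.eq_top_iff_one _).mpr hone)
  -- contradiction
  have hnorm : ‖((m : ℕ) : PadicAlgCl q)‖ = 1 := by
    rw [← hN, ← Algebra.coe_norm_int x]
    have : ‖((m : ℕ) : PadicAlgCl q)‖ = ‖((Algebra.norm ℤ x : ℤ) : PadicAlgCl q)‖ := by
      rcases Int.natAbs_eq (Algebra.norm ℤ x) with h5 | h5
      · rw [h5]; simp [hmdef]
      · rw [h5]; simp [hmdef]
    rw [this]
    simp
  obtain ⟨c, hc⟩ := hqm
  rw [hc, Nat.cast_mul, norm_mul, norm_natCast_self] at hnorm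
  have hc1 : ‖((c : ℕ) : PadicAlgCl q)‖ ≤ 1 :=
    norm_le_one_of_isIntegral (by exact_mod_cast isIntegral_algebraMap (R := ℤ) (x := (c : ℤ)))
  have hq1 : ((q : ℝ))⁻¹ < 1 := inv_lt_one_of_one_lt₀ (by exact_mod_cast hq.one_lt)
  have : ((q : ℝ))⁻¹ * ‖((c : ℕ) : PadicAlgCl q)‖ < 1 :=
    mul_lt_one_of_nonneg_of_lt_one_left (by positivity) hq1 hc1
  linarith

end Fermat.Agent.S55.DIC
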