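import Fermat.Agent.S55.DIC.Place2
/-!
# S55-DIC (PLACE): primes of `𝓞 K` over `q`  <->  embeddings `K →+* PadicAlgCl q` modulo `Gq`
-/

set_option autoImplicit false

open NumberField IsDedekindDomain

namespace Fermat.Agent.S55.DIC

variable {q : ℕ} [Fact q.Prime] {K : Type*} [Field K] [NumberField K]

/-! ### (PL3) embeddings with the same prime are conjugate under `Gq` -/

/-- approximation of the value of a polynomial over `ℚ_q` by the value of a rational one. -/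
theorem place3_norm_aeval_sub_le (f : Polynomial ℚ_[q]) (r : ℕ → ℚ) {ε : ℝ}
    (hr : ∀ i, ‖f.coeff i - (r i : ℚ_[q])‖ ≤ ε) (y : PadicAlgCl q) :
    ‖Polynomial.aeval y f - ∑ i ∈ Finset.range (f.natDegree + 1), (r i : PadicAlgCl q) * y ^ i‖ ≤
      ε * ∑ i ∈ Finset.range (f.natDegree + 1), ‖y‖ ^ i := by
  rw [Polynomial.aeval_eq_sum_range, ← Finset.sum_sub_distrib, Finset.mul_sum]
  refine (norm_sum_le _ _).trans (Finset.sum_le_sum fun i _ => ?_)
  have h1 : f.coeff i • y ^ i - (r i : PadicAlgCl q) * y ^ i =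
      algebraMap ℚ_[q] (PadicAlgCl q) (f.coeff i - (r i : ℚ_[q])) * y ^ i := by
    rw [Algebra.smul_def, map_sub, map_ratCast, sub_mul]
  rw [h1, norm_mul, norm_pow, PadicAlgCl.norm_extends]
  exact mul_le_mul_of_nonneg_right (hr i) (by positivity)

/-- Proof: `K = ℚ(θ)`, `f = minpoly ℚ_q (j θ)`. For `g ∈ ℚ[X]` of the same degree, coefficientwise
close to `f`: `‖g(j' θ)‖ = ‖j'(g θ)‖ = ‖j (g θ)‖ = ‖g (j θ)‖` is small, so `f (j' θ) = 0`; so `j' θ` is a
`ℚ_q`-conjugate of `j θ`: `IsConjRoot`, `isConjRoot_iff_exists_algEquiv`. -/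
theorem exists_algEquiv_of_placeOf_eq (j j' : K →+* PadicAlgCl q)
    (h : placeOf q j = placeOf q j') : ∃ τ : Gq q, ∀ x, j' x = τ (j x) := by
  have hnorm := norm_eq_of_placeOf_eq j j' h
  obtain ⟨pb, hpb⟩ : ∃ pb : PowerBasis ℚ K, pb = Field.powerBasisOfFiniteOfSeparable ℚ K :=
    ⟨_, rfl⟩
  obtain ⟨θ, hθ⟩ : ∃ θ, θ = pb.gen := ⟨_, rfl⟩
  obtain ⟨f, hf⟩ : ∃ f, f = minpoly ℚ_[q] (j θ) := ⟨_, rfl⟩
  have hint : IsIntegral ℚ_[q] (j θ) := Algebra.IsIntegral.isIntegral _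
  obtain ⟨C, hC⟩ : ∃ C, C = ∑ i ∈ Finset.range (f.natDegree + 1), ‖j θ‖ ^ i := ⟨_, rfl⟩
  have hC0 : 0 ≤ C := by rw [hC]; positivity
  have hroot : Polynomial.aeval (j' θ) f = 0 := by
    rw [← norm_le_zero_iff]
    refine le_of_forall_pos_le_add fun δ hδ => ?_
    rw [zero_add]
    obtain ⟨ε, hε, hεC⟩ : ∃ ε : ℝ, 0 < ε ∧ 2 * (ε * C) ≤ δ := by
      refine ⟨δ / (2 * (C + 1)), by positivity, ?_⟩
      have : 2 * (δ / (2 * (C + 1)) * C) = δ * (C / (C + 1)) := by field_simp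
      rw [this]
      exact mul_le_of_le_one_right hδ.le ((div_le_one (by positivity)).mpr (by linarith))
    choose r hr using fun i => Padic.rat_dense q (f.coeff i) hε
    have h1 := place3_norm_aeval_sub_le f r (fun i => (hr i).le) (j θ)
    have h2 := place3_norm_aeval_sub_le f r (fun i => (hr i).le) (j' θ)
    rw [← hnorm θ, ← hC] at h2
    rw [← hC, hf, minpoly.aeval, zero_sub, norm_neg, ← hf] at h1
    have e1 : ∑ i ∈ Finset.range (f.natDegree + 1), (r i : PadicAlgCl q) * j θ ^ i =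
        j (∑ i ∈ Finset.range (f.natDegree + 1), (r i : K) * θ ^ i) := by
      simp [map_sum]
    have e2 : ∑ i ∈ Finset.range (f.natDegree + 1), (r i : PadicAlgCl q) * j' θ ^ i =
        j' (∑ i ∈ Finset.range (f.natDegree + 1), (r i : K) * θ ^ i) := by
      simp [map_sum]
    have h3 : ‖∑ i ∈ Finset.range (f.natDegree + 1), (r i : PadicAlgCl q) * j' θ ^ i‖ ≤ ε * C := by
      rw [e2, ← hnorm, ← e1]; exact h1
    calc ‖Polynomial.aeval (j' θ) f‖
        = ‖(Polynomial.aeval (j' θ) f -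
            ∑ i ∈ Finset.range (f.natDegree + 1), (r i : PadicAlgCl q) * j' θ ^ i) +
            ∑ i ∈ Finset.range (f.natDegree + 1), (r i : PadicAlgCl q) * j' θ ^ i‖ := by
          rw [sub_add_cancel]
      _ ≤ ε * C + ε * C := (norm_add_le _ _).trans (add_le_add h2 h3)
      _ ≤ δ := by linarith
  have hconj : IsConjRoot ℚ_[q] (j θ) (j' θ) :=
    isConjRoot_of_aeval_eq_zero hint (by rw [← hf]; exact hroot)
  have : Normal ℚ_[q] (PadicAlgCl q) := IsAlgClosure.normal ℚ_[q] (PadicAlgCl q)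
  obtain ⟨σ, hσ⟩ := isConjRoot_iff_exists_algEquiv.mp hconj.symm
  refine ⟨σ, fun x => ?_⟩
  have hext : j'.toRatAlgHom = ((σ : PadicAlgCl q →+* PadicAlgCl q).comp j).toRatAlgHom := by
    refine pb.algHom_ext ?_
    rw [← hθ]
    simpa using hσ.symm
  exact DFunLike.congr_fun hext x

theorem placeOf_comp_algEquiv (j : K →+* PadicAlgCl q) (τ : Gq q) :
    placeOf q ((τ : PadicAlgCl q →+* PadicAlgCl q).comp j) = placeOf q j := by
  apply HeightOneSpectrum.ext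
  ext x
  simp only [placeOf_asIdeal, mem_primeOf, RingHom.comp_apply]
  have : ‖τ (j (x : K))‖ = ‖j (x : K)‖ := (spectralNorm_eq_of_equiv τ (j (x : K))).symm
  exact this ▸ Iff.rfl

theorem placeOf_eq_iff (j j' : K →+* PadicAlgCl q) :
    placeOf q j = placeOf q j' ↔ ∃ τ : Gq q, ∀ x, j' x = τ (j x) := by
  refine ⟨exists_algEquiv_of_placeOf_eq j j', ?_⟩
  rintro ⟨τ, hτ⟩
  have : j' = (τ : PadicAlgCl q →+* PadicAlgCl q).comp j := RingHom.ext hτ
  rw [this, placeOf_comp_algEquiv]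

/-- the residue characteristic is determined by the place. -/
theorem natCast_mem_placeOf_iff (j : K →+* PadicAlgCl q) (ℓ : ℕ) (hℓ : ℓ.Prime) :
    ((ℓ : ℕ) : 𝓞 K) ∈ (placeOf q j).asIdeal ↔ ℓ = q := by
  rw [placeOf_asIdeal, mem_primeOf]
  have h : j (((ℓ : ℕ) : 𝓞 K) : K) = algebraMap ℚ_[q] (PadicAlgCl q) (ℓ : ℚ_[q]) := by simp
  rw [h, PadicAlgCl.norm_extends, Padic.norm_natCast_lt_one_iff,
    Nat.prime_dvd_prime_iff_eq Fact.out hℓ]
  exact eq_comm

/-- every finite place has a residue characteristic. -/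
theorem exists_prime_natCast_mem (v : HeightOneSpectrum (𝓞 K)) :
    ∃ ℓ : ℕ, ℓ.Prime ∧ ((ℓ : ℕ) : 𝓞 K) ∈ v.asIdeal := by
  have : Finite (𝓞 K ⧸ v.asIdeal) := Ideal.finiteQuotientOfFreeOfNeBot v.asIdeal v.ne_bot
  have := v.isPrime
  obtain ⟨ℓ, hℓ⟩ := CharP.exists (𝓞 K ⧸ v.asIdeal)
  refine ⟨ℓ, CharP.char_is_prime (𝓞 K ⧸ v.asIdeal) ℓ, ?_⟩
  rw [← Ideal.Quotient.eq_zero_iff_mem, map_natCast]
  exact CharP.cast_eq_zero _ ℓ

end Fermat.Agent.S55.DIC
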