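import Fermat.Agent.S55.DIC.Image
import Fermat.Agent.S14.BridgeIdeal
/-!
# S55-DIC (UNRAM): `IntermediateField.IsUnramifiedOutside S`  <->  ramification indices
-/

set_option autoImplicit false

open NumberField IsDedekindDomain

namespace Fermat.Agent.S55.DIC

/-- `v` is a place of `F` outside `S`. -/
def OutsideS {F : Type*} [Field F] [NumberField F] (S : Finset Nat.Primes)
    (v : HeightOneSpectrum (𝓞 F)) : Prop :=
  ∀ ℓ ∈ S, (((ℓ : Nat.Primes) : ℕ) : 𝓞 F) ∉ v.asIdeal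

open Fermat.Agent.Lib.Frobenius in
theorem Unram1_coe_mem (F : IntermediateField ℚ Qb) [NumberField F] (A : ValuationSubring Qb)
    (x : 𝓞 F) : (((x : F) : Qb)) ∈ A := by
  refine isIntegral_mem A ?_
  have h : IsIntegral ℤ (x : F) := NumberField.RingOfIntegers.isIntegral_coe x
  exact h.map (F.val.restrictScalars ℤ)

open Fermat.Agent.Lib.Frobenius in
/-- elements of nonnegative order lie in `A`; of positive order in the maximal ideal. -/
theorem Unram1_aux (F : IntermediateField ℚ Qb) [NumberField F] (A : ValuationSubring Qb)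
    (v : HeightOneSpectrum (𝓞 F))
    (hv : ∀ x : 𝓞 F, x ∈ v.asIdeal ↔ (((x : F) : Qb)) ∈ A.nonunits) (x : F) (hx : x ≠ 0)
    (n : ℕ) (hn : ord v x = n) :
    (x : Qb) ∈ A ∧ (0 < n → (x : Qb) ∈ A.nonunits) := by
  obtain ⟨π, hπ⟩ := exists_uniformizer v
  have hπ0 : (π : F) ≠ 0 := by
    intro h
    rw [h] at hπ
    simp [ord] at hπ
  have hπ0' : π ≠ 0 := fun h => hπ0 (by rw [h]; rfl)
  have hπv : π ∈ v.asIdeal := (ord_pos_iff_mem v hπ0').mp (by rw [hπ]; exact one_pos)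
  have hπA : (((π : F) : Qb)) ∈ A.nonunits := (hv π).mp hπv
  set y : F := x / (π : F) ^ n with hy
  have hy0 : y ≠ 0 := div_ne_zero hx (pow_ne_zero _ hπ0)
  have hordy : ord v y = 0 := by
    rw [hy, div_eq_mul_inv, ord_mul v hx (inv_ne_zero (pow_ne_zero _ hπ0)), ord_inv, ord_pow, hπ,
      hn]
    ring
  obtain ⟨a, b, -, hb, hab⟩ := exists_div_of_ord_eq_zero v hy0 hordy
  have hbA : (((b : F) : Qb)) ∉ A.nonunits := fun h => hb ((hv b).mpr h)
  have hyA : (y : Qb) ∈ A := by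
    rw [hab]
    push_cast
    rw [div_eq_mul_inv]
    exact mul_mem (Unram1_coe_mem F A a)
      (inv_mem_of_not_mem_nonunits A (Unram1_coe_mem F A b) hbA)
  have hxy : (x : Qb) = ((π : F) : Qb) ^ n * (y : Qb) := by
    have : x = (π : F) ^ n * y := by
      rw [hy]; field_simp
    rw [this]
    push_cast
    rfl
  refine ⟨?_, fun hn0 => ?_⟩
  · rw [hxy]
    exact mul_mem (pow_mem (Unram1_coe_mem F A π) n) hyA
  · rw [hxy]
    obtain ⟨m, rfl⟩ : ∃ m, n = m + 1 := ⟨n - 1, by omega⟩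
    rw [pow_succ', mul_assoc]
    exact nonunits_mul A hπA (mul_mem (pow_mem (Unram1_coe_mem F A π) m) hyA)

theorem Unram1_mem_iff (F : IntermediateField ℚ Qb) [NumberField F] (A : ValuationSubring Qb)
    (v : HeightOneSpectrum (𝓞 F))
    (hv : ∀ x : 𝓞 F, x ∈ v.asIdeal ↔ (((x : F) : Qb)) ∈ A.nonunits) (x : F) (hx : x ≠ 0) :
    (x : Qb) ∈ A ↔ 0 ≤ ord v x := by
  constructor
  · intro hxA
    by_contra hneg
    push Not at hneg
    obtain ⟨n, hn⟩ : ∃ n : ℕ, ord v x⁻¹ = n := ⟨(-(ord v x)).toNat, by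
      rw [ord_inv, Int.toNat_of_nonneg (by omega)]⟩
    have hn0 : 0 < n := by
      rw [ord_inv] at hn
      omega
    have h1 := (Unram1_aux F A v hv x⁻¹ (inv_ne_zero hx) n hn).2 hn0
    have h2 : (1 : Qb) ∈ A.nonunits := by
      have h3 := Fermat.Agent.Lib.Frobenius.nonunits_mul A h1 hxA
      have hx' : (x : Qb) ≠ 0 := by exact_mod_cast hx
      have h4 : ((x⁻¹ : F) : Qb) * (x : Qb) = 1 := by
        push_cast
        exact inv_mul_cancel₀ hx'
      rwa [h4] at h3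
    rw [ValuationSubring.mem_nonunits_iff, map_one] at h2
    exact lt_irrefl _ h2
  · intro h
    obtain ⟨n, hn⟩ : ∃ n : ℕ, ord v x = n := ⟨(ord v x).toNat, (Int.toNat_of_nonneg h).symm⟩
    exact (Unram1_aux F A v hv x hx n hn).1

/-- the place of `F` below a valuation subring of `Qb`. -/
theorem exists_place_below (F : IntermediateField ℚ Qb) [NumberField F] (A : ValuationSubring Qb)
    {q : ℕ} (hq : q.Prime) (hA : A.LiesOverPrime q) :
    ∃ v : HeightOneSpectrum (𝓞 F), ((q : ℕ) : 𝓞 F) ∈ v.asIdeal ∧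
      ∀ x : F, x ≠ 0 → ((x : Qb) ∈ A ↔ 0 ≤ ord v x) := by
  let φ : 𝓞 F →+* A :=
    { toFun := fun x => ⟨((x : F) : Qb), Unram1_coe_mem F A x⟩
      map_one' := rfl
      map_mul' := fun _ _ => rfl
      map_zero' := rfl
      map_add' := fun _ _ => rfl }
  let P : Ideal (𝓞 F) := Ideal.comap φ (IsLocalRing.maximalIdeal A)
  have hPmem : ∀ x : 𝓞 F, x ∈ P ↔ (((x : F) : Qb)) ∈ A.nonunits := by
    intro x
    rw [ValuationSubring.mem_nonunits_iff_exists_mem_maximalIdeal]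
    constructor
    · intro h
      exact ⟨Unram1_coe_mem F A x, h⟩
    · rintro ⟨_, h⟩
      exact h
  have hqP : ((q : ℕ) : 𝓞 F) ∈ P := by
    rw [hPmem]
    have : ((((q : ℕ) : 𝓞 F) : F) : Qb) = (q : Qb) := by simp
    rw [this]
    exact hA
  have hP0 : P ≠ ⊥ := by
    intro h
    rw [h, Ideal.mem_bot] at hqP
    exact hq.ne_zero (by exact_mod_cast hqP)
  have hPprime : P.IsPrime := Ideal.comap_isPrime φ _
  exact ⟨⟨P, hPprime, hP0⟩, hqP, fun x hx => Unram1_mem_iff F A ⟨P, hPprime, hP0⟩ hPmem x hx⟩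

theorem exists_valuationSubring_above (F : IntermediateField ℚ Qb) [NumberField F]
    (v : HeightOneSpectrum (𝓞 F)) {q : ℕ} (hq : q.Prime) (hv : ((q : ℕ) : 𝓞 F) ∈ v.asIdeal) :
    ∃ A : ValuationSubring Qb, A.LiesOverPrime q ∧
      ∀ x : F, x ≠ 0 → ((x : Qb) ∈ A ↔ 0 ≤ ord v x) := by
  obtain ⟨A, ℓ, -, -, hA⟩ := Fermat.Agent.S14.BridgeIdeal.exists_valuationSubring F v
  refine ⟨A, ?_, fun x hx => Unram1_mem_iff F A v hA x hx⟩
  have h := (hA _).mp hv
  have : ((((q : ℕ) : 𝓞 F) : F) : Qb) = (q : Qb) := by simp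
  rw [this] at h
  exact h

end Fermat.Agent.S55.DIC
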