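import Fermat.Agent.S55.DIC.Unram2
/-!
# S55-DIC (UNRAM): `IntermediateField.IsUnramifiedOutside S`  <->  ramification indices
-/

set_option autoImplicit false

open NumberField IsDedekindDomain

namespace Fermat.Agent.S55.DIC

/-- (U3) local form: the value group of `locF q j` is `q ^ ℤ` when `e = 1`. -/
theorem exists_norm_eq_zpow_of_ord_eq_one {q : ℕ} [Fact q.Prime] {K : Type*} [Field K]
    [NumberField K] (j : K →+* PadicAlgCl q) (he : ord (placeOf q j) ((q : ℕ) : K) = 1)
    {y : PadicAlgCl q} (hy : y ∈ locF q j) (hy0 : y ≠ 0) : ∃ n : ℤ, ‖y‖ = (q : ℝ) ^ n := by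
  obtain ⟨x, hx, hyx⟩ := exists_norm_eq j hy hy0
  have h := norm_zpow_ord j hx
  rw [he, zpow_one] at h
  refine ⟨-ord (placeOf q j) x, ?_⟩
  rw [hyx, h, inv_zpow, zpow_neg]

theorem unram3_numberField (F : IntermediateField ℚ Qb) (h : FiniteDimensional ℚ F) :
    NumberField F :=
  { to_charZero := inferInstance
    to_finiteDimensional := h }

theorem exists_norm_eq_zpow_of_isUnramifiedOutside {q : ℕ} [Fact q.Prime]
    (F : IntermediateField ℚ Qb) (S : Finset Nat.Primes) (hF : F.IsUnramifiedOutside S)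
    (hq : ∀ ℓ ∈ S, ((ℓ : Nat.Primes) : ℕ) ≠ q) (σ : GQ)
    {y : PadicAlgCl q} (hy : y ∈ locF q (embOf q F σ)) (hy0 : y ≠ 0) :
    ∃ n : ℤ, ‖y‖ = (q : ℝ) ^ n := by
  have : NumberField F := unram3_numberField F hF.1
  have hqS : (⟨q, Fact.out⟩ : Nat.Primes) ∉ S := fun h => hq _ h rfl
  have he := (isUnramifiedOutside_iff F S).1 hF ⟨q, Fact.out⟩ hqS (placeOf q (embOf q F σ))
    (natCast_mem_primeOf (embOf q F σ))
  exact exists_norm_eq_zpow_of_ord_eq_one (embOf q F σ) he hy hy0

theorem unram3_ord_zero {K : Type*} [Field K] [NumberField K] (v : HeightOneSpectrum (𝓞 K)) :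
    ord v (0 : K) = 0 := by
  simp [ord]

/-- (U2) relative form: no ramification outside `S` between `S`-levels. -/
theorem ord_eq_of_isUnramifiedOutside (L K : IntermediateField ℚ Qb) [NumberField L]
    [NumberField K] (hLK : L ≤ K) (S : Finset Nat.Primes) (hK : K.IsUnramifiedOutside S)
    (w : HeightOneSpectrum (𝓞 K)) (hw : OutsideS S w) (v : HeightOneSpectrum (𝓞 L))
    (hwv : ∀ x : 𝓞 L, x ∈ v.asIdeal ↔
      0 < ord w (IntermediateField.inclusion hLK (x : L)) ∨ x = 0) (x : L) :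
    ord w (IntermediateField.inclusion hLK x) = ord v x := by
  set ι := IntermediateField.inclusion hLK with hι
  have hinj : Function.Injective ι := IntermediateField.inclusion_injective hLK
  have hne : ∀ {z : L}, z ≠ 0 → ι z ≠ 0 := fun {z} hz h => hz (hinj (by rw [h, map_zero]))
  -- integers prime to `v` are `w`-units
  have hunit : ∀ a : 𝓞 L, a ∉ v.asIdeal → ord w (ι (a : L)) = 0 := by
    intro a ha
    have h1 : ¬ 0 < ord w (ι (a : L)) := fun h => ha ((hwv a).2 (Or.inl h))
    have hint : IsIntegral ℤ (ι (a : L)) :=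
      (NumberField.RingOfIntegers.isIntegral_coe a).map ι.toRingHom.toIntAlgHom
    have h2 : 0 ≤ ord w (ι (a : L)) := ord_nonneg_of_isIntegral w ⟨ι (a : L), hint⟩
    omega
  obtain ⟨π, hπ⟩ := exists_uniformizer v
  have hπ0 : (π : L) ≠ 0 := by
    intro h
    rw [h, unram3_ord_zero] at hπ
    exact zero_ne_one hπ
  -- the relative ramification index formula
  have hform : ∀ z : L, ord w (ι z) = ord w (ι (π : L)) * ord v z := by
    intro z
    by_cases hz : z = 0
    · rw [hz, map_zero, unram3_ord_zero, unram3_ord_zero, mul_zero]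
    set n := ord v z with hn
    have hu0 : z * ((π : L) ^ n)⁻¹ ≠ 0 := mul_ne_zero hz (inv_ne_zero (zpow_ne_zero _ hπ0))
    have hu : ord v (z * ((π : L) ^ n)⁻¹) = 0 := by
      rw [ord_mul v hz (inv_ne_zero (zpow_ne_zero _ hπ0)), ord_inv, ord_zpow, hπ, mul_one, ← hn,
        add_neg_cancel]
    obtain ⟨a, b, ha, hb, hab⟩ := exists_div_of_ord_eq_zero v hu0 hu
    have ha0 : (a : L) ≠ 0 := by
      intro h
      apply ha
      have : a = 0 := NumberField.RingOfIntegers.coe_injective (h.trans (map_zero _).symm)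
      rw [this]
      exact zero_mem _
    have hb0 : (b : L) ≠ 0 := by
      intro h
      apply hb
      have : b = 0 := NumberField.RingOfIntegers.coe_injective (h.trans (map_zero _).symm)
      rw [this]
      exact zero_mem _
    have hz' : z = (a : L) * (b : L)⁻¹ * (π : L) ^ n := by
      rw [← div_eq_mul_inv, ← hab, mul_assoc, inv_mul_cancel₀ (zpow_ne_zero _ hπ0), mul_one]
    have : ord w (ι z) = ord w (ι (a : L)) + - ord w (ι (b : L)) + n * ord w (ι (π : L)) := by
      conv_lhs => rw [hz']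
      rw [map_mul, map_mul, map_inv₀, map_zpow₀,
        ord_mul w (mul_ne_zero (hne ha0) (inv_ne_zero (hne hb0))) (zpow_ne_zero _ (hne hπ0)),
        ord_mul w (hne ha0) (inv_ne_zero (hne hb0)), ord_inv, ord_zpow]
    rw [this, hunit a ha, hunit b hb]
    ring
  -- residue characteristic
  obtain ⟨ℓ, hℓ, hℓw⟩ := exists_prime_natCast_mem w
  have hℓS : (⟨ℓ, hℓ⟩ : Nat.Primes) ∉ S := fun h => hw _ h hℓw
  have he : ord w ((ℓ : ℕ) : K) = 1 := (isUnramifiedOutside_iff K S).1 hK ⟨ℓ, hℓ⟩ hℓS w hℓw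
  have h1 := hform ((ℓ : ℕ) : L)
  rw [map_natCast, he] at h1
  have hπpos : 0 ≤ ord w (ι (π : L)) := by
    have hint : IsIntegral ℤ (ι (π : L)) :=
      (NumberField.RingOfIntegers.isIntegral_coe π).map ι.toRingHom.toIntAlgHom
    exact ord_nonneg_of_isIntegral w ⟨ι (π : L), hint⟩
  have he1 : ord w (ι (π : L)) = 1 :=
    Int.eq_one_of_mul_eq_one_right hπpos h1.symm
  rw [hform x, he1, one_mul]

end Fermat.Agent.S55.DIC
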