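import Fermat.Agent.S55.DIC.Unram3
import Fermat.Agent.S05.Inertia
/-!
# S55-DIC (UNRAM): `IntermediateField.IsUnramifiedOutside S`  <->  ramification indices
-/

set_option autoImplicit false

open NumberField IsDedekindDomain

namespace Fermat.Agent.S55.DIC

/-- a root of unity of order prime to the residue characteristic which is `≡ 1` is `1`. -/
theorem Unram4_root_eq_one {L : Type*} [Field L] (A : ValuationSubring L) {q : ℕ} (hq : q.Prime)
    (hA : A.LiesOverPrime q) (n : ℕ) (hn : ¬ q ∣ n) (ξ : L) (hξ : ξ ^ n = 1)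
    (h : ξ - 1 ∈ A.nonunits) : ξ = 1 := by
  by_contra hne
  have hsum : ∑ i ∈ Finset.range n, ξ ^ i = 0 := by
    have h1 := geom_sum_mul ξ n
    rw [hξ, sub_self] at h1
    exact (mul_eq_zero.mp h1).resolve_right (sub_ne_zero.mpr hne)
  have hξA : ξ ∈ A := by
    have : ξ = (ξ - 1) + 1 := by ring
    rw [this]
    exact A.add_mem _ _ (A.nonunits_subset h) A.one_mem
  -- every `ξ ^ i - 1` is a non-unit
  have hpow : ∀ i : ℕ, ξ ^ i - 1 ∈ A.nonunits := by
    intro i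
    have h1 := geom_sum_mul ξ i
    rw [← h1, A.mem_nonunits_iff, map_mul, mul_comm]
    have h2 : A.valuation (∑ j ∈ Finset.range i, ξ ^ j) ≤ 1 :=
      (A.valuation_le_one_iff _).mpr (A.toSubring.sum_mem fun j _ => A.pow_mem hξA j)
    exact mul_lt_one_of_lt_of_le ((A.mem_nonunits_iff).mp h) h2
  have hnn : ((n : ℤ) : L) ∈ A.nonunits := by
    have h1 : ((n : ℤ) : L) = - ∑ i ∈ Finset.range n, (ξ ^ i - 1) := by
      rw [Finset.sum_sub_distrib, hsum]
      simp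
    rw [h1, A.mem_nonunits_iff, Valuation.map_neg]
    refine Valuation.map_sum_lt _ one_ne_zero fun i _ => ?_
    exact (A.mem_nonunits_iff).mp (hpow i)
  rw [Fermat.Agent.S05.intCast_mem_nonunits_iff A hq hA] at hnn
  exact hn (by exact_mod_cast hnn)

/-- an inertia element fixes an `A`-unit `γ` as soon as it fixes `γ ^ n`, `q ∤ n`. -/
theorem Unram4_fix_of_pow (A : ValuationSubring Qb) {q : ℕ} (hq : q.Prime)
    (hA : A.LiesOverPrime q) (n : ℕ) (hn : ¬ q ∣ n) (σ : GQ) (hσ : σ ∈ A.inertiaSubgroupIn ℚ)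
    (γ : Qb) (hγ : A.valuation γ = 1) (h : (σ γ) ^ n = γ ^ n) : σ γ = γ := by
  have hγ0 : γ ≠ 0 := by
    rintro rfl
    rw [map_zero] at hγ
    exact zero_ne_one hγ
  have hγA : γ ∈ A := (A.valuation_le_one_iff γ).mp hγ.le
  have h1 : σ γ / γ = 1 := by
    refine Unram4_root_eq_one A hq hA n hn _ ?_ ?_
    · rw [div_pow, h, div_self (pow_ne_zero _ hγ0)]
    · have h2 : σ γ / γ - 1 = (σ γ - γ) / γ := by field_simp
      rw [h2, A.mem_nonunits_iff, map_div₀, hγ, div_one]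
      exact (A.mem_nonunits_iff).mp (Fermat.Agent.S05.inertia_sub_mem A hσ hγA)
  exact (div_eq_one_iff_eq hγ0).mp h1

theorem Unram4_mem_fixingSubgroup_adjoin (σ : GQ) (β : Qb) (h : σ β = β) :
    σ ∈ (IntermediateField.adjoin ℚ {β}).fixingSubgroup := by
  rw [IntermediateField.mem_fixingSubgroup_iff]
  intro x hx
  induction hx using IntermediateField.adjoin_induction with
  | mem x hx => rw [Set.mem_singleton_iff.mp hx, h]
  | algebraMap a => exact σ.commutes a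
  | add x y _ _ hx hy => rw [map_add, hx, hy]
  | inv x _ hx => rw [map_inv₀, hx]
  | mul x y _ _ hx hy => rw [map_mul, hx, hy]

theorem Unram4_isIntegral (z : Qb) : IsIntegral ℚ z :=
  ((AlgebraicClosure.isAlgebraic ℚ).isAlgebraic z).isIntegral

theorem Unram4_not_dvd (S : Finset Nat.Primes) (n : ℕ)
    (hn : ∀ ℓ : Nat.Primes, (ℓ : ℕ) ∣ n → ℓ ∈ S) (q : Nat.Primes) (hq : q ∉ S) : ¬ (q : ℕ) ∣ n :=
  fun h => hq (hn q h)

/-- a place below a valuation subring over `q ∉ S` is outside `S`. -/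
theorem Unram4_outsideS {F : Type*} [Field F] [NumberField F] (S : Finset Nat.Primes)
    (q : Nat.Primes) (hq : q ∉ S) (v : HeightOneSpectrum (𝓞 F))
    (hqv : (((q : Nat.Primes) : ℕ) : 𝓞 F) ∈ v.asIdeal) : OutsideS S v := by
  intro ℓ hℓ hmem
  have hne : (ℓ : ℕ) ≠ (q : ℕ) := by
    intro h
    exact hq ((Subtype.ext h : ℓ = q) ▸ hℓ)
  have hcop : Nat.Coprime (ℓ : ℕ) (q : ℕ) := (Nat.coprime_primes ℓ.2 q.2).mpr hne
  have hcop' : IsCoprime ((ℓ : ℕ) : ℤ) ((q : ℕ) : ℤ) := Nat.isCoprime_iff_coprime.mpr hcop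
  obtain ⟨x, y, hxy⟩ := hcop'
  have h1 : (x : 𝓞 F) * (((ℓ : Nat.Primes) : ℕ) : 𝓞 F) + (y : 𝓞 F) * (((q : Nat.Primes) : ℕ) : 𝓞 F)
      = 1 := by
    exact_mod_cast congrArg (Int.cast : ℤ → 𝓞 F) hxy
  have h2 : (1 : 𝓞 F) ∈ v.asIdeal := by
    rw [← h1]
    exact v.asIdeal.add_mem (v.asIdeal.mul_mem_left _ hmem) (v.asIdeal.mul_mem_left _ hqv)
  exact v.isPrime.ne_top ((Ideal.eq_top_iff_one _).mpr h2)

/-- (U5) **Kummer extensions**: `n`-th roots of elements whose divisor is an `n`-th power outside `S`.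
Direct proof in `Qb`: `σ ∈ I_A` fixes `L`; `a = π^(n k) u`, `γ = β / π^k` is an `A`-unit, `σ γ = ζ γ`,
`σ γ - γ ∈ m_A`, so `ζ - 1 ∈ m_A`; but `ζ^n = 1`, `q ∤ n`, so `ζ = 1`. -/
theorem isUnramifiedOutside_sup_adjoin_root (S : Finset Nat.Primes) (n : ℕ) (hn0 : n ≠ 0)
    (hn : ∀ ℓ : Nat.Primes, (ℓ : ℕ) ∣ n → ℓ ∈ S)
    (L : IntermediateField ℚ Qb) [NumberField L] (hL : L.IsUnramifiedOutside S) (a : L)
    (ha : a ≠ 0) (hord : ∀ v : HeightOneSpectrum (𝓞 L), OutsideS S v → (n : ℤ) ∣ ord v a)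
    (β : Qb) (hβ : β ^ n = (a : Qb)) :
    (L ⊔ IntermediateField.adjoin ℚ {β}).IsUnramifiedOutside S := by
  have hfdL := hL.1
  have hfd : FiniteDimensional ℚ (IntermediateField.adjoin ℚ {β}) :=
    IntermediateField.adjoin.finiteDimensional (Unram4_isIntegral β)
  refine ⟨IntermediateField.finiteDimensional_sup _ _, fun q hq A hA σ hσ => ?_⟩
  rw [IntermediateField.fixingSubgroup_sup]
  have hσL' := hL.2 q hq A hA hσ
  refine ⟨hσL', Unram4_mem_fixingSubgroup_adjoin σ β ?_⟩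
  have hσL : ∀ x : L, σ (x : Qb) = x := fun x =>
    (IntermediateField.mem_fixingSubgroup_iff L σ).mp hσL' x x.2
  obtain ⟨v, hqv, hv⟩ := exists_place_below L A q.2 hA
  obtain ⟨k, hk⟩ := hord v (Unram4_outsideS S q hq v hqv)
  obtain ⟨π, hπ⟩ := exists_uniformizer v
  have hπ0 : (π : L) ≠ 0 := by
    intro h
    rw [h] at hπ
    simp [ord] at hπ
  set w : L := ((π : L) ^ k)⁻¹ with hw
  have hw0 : w ≠ 0 := inv_ne_zero (zpow_ne_zero _ hπ0)
  have hordw : ord v w = -k := by rw [hw, ord_inv, ord_zpow, hπ, mul_one]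
  set u : L := a * w ^ n with hu
  have hu0 : u ≠ 0 := mul_ne_zero ha (pow_ne_zero _ hw0)
  have hordu : ord v u = 0 := by
    rw [hu, ord_mul v ha (pow_ne_zero _ hw0), ord_pow, hordw, hk]
    ring
  have huA : (u : Qb) ∈ A := (hv u hu0).mpr hordu.ge
  have huA' : ((u⁻¹ : L) : Qb) ∈ A := (hv u⁻¹ (inv_ne_zero hu0)).mpr (by rw [ord_inv, hordu, neg_zero])
  have hvalu : A.valuation (u : Qb) = 1 := by
    apply le_antisymm ((A.valuation_le_one_iff _).mpr huA)
    have h1 := (A.valuation_le_one_iff _).mpr huA'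
    rw [IntermediateField.coe_inv, map_inv₀] at h1
    have hpos : 0 < A.valuation (u : Qb) := by
      rw [zero_lt_iff, ne_eq, map_eq_zero]
      exact_mod_cast hu0
    exact (inv_le_one₀ hpos).mp h1
  set γ : Qb := β * (w : Qb) with hγ
  have hγn : γ ^ n = (u : Qb) := by
    rw [hγ, mul_pow, hβ, hu]
    push_cast
    ring
  have hvalγ : A.valuation γ = 1 := by
    have h1 : A.valuation γ ^ n = 1 := by rw [← map_pow, hγn, hvalu]
    exact (pow_eq_one_iff.mp h1).resolve_right hn0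
  have hfix : σ γ = γ := by
    refine Unram4_fix_of_pow A q.2 hA n (Unram4_not_dvd S n hn q hq) σ hσ γ hvalγ ?_
    rw [← map_pow, hγn, hσL]
  rw [hγ, map_mul, hσL] at hfix
  have hw0' : (w : Qb) ≠ 0 := by exact_mod_cast hw0
  exact mul_right_cancel₀ hw0' hfix

/-- (U4) cyclotomic fields. -/
theorem isUnramifiedOutside_adjoin_rootOfUnity (S : Finset Nat.Primes) (n : ℕ) (hn0 : n ≠ 0)
    (hn : ∀ ℓ : Nat.Primes, (ℓ : ℕ) ∣ n → ℓ ∈ S) (ζ : Qb) (hζ : ζ ^ n = 1) :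
    (IntermediateField.adjoin ℚ {ζ}).IsUnramifiedOutside S := by
  refine ⟨IntermediateField.adjoin.finiteDimensional (Unram4_isIntegral ζ),
    fun q hq A hA σ hσ => Unram4_mem_fixingSubgroup_adjoin σ ζ ?_⟩
  refine Unram4_fix_of_pow A q.2 hA n (Unram4_not_dvd S n hn q hq) σ hσ ζ ?_ ?_
  · have h1 : A.valuation ζ ^ n = 1 := by rw [← map_pow, hζ, map_one]
    exact (pow_eq_one_iff.mp h1).resolve_right hn0
  · rw [← map_pow, hζ, map_one]

end Fermat.Agent.S55.DIC
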