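import Fermat.Agent.S55.DIC.Unram4
/-!
# S55-DIC (UNRAM): `IntermediateField.IsUnramifiedOutside S`  <->  ramification indices
-/

set_option autoImplicit false

open NumberField IsDedekindDomain

namespace Fermat.Agent.S55.DIC

/-- `0 < ord` in terms of a valuation subring inducing the place. -/
theorem unram5_ord_pos_iff (F : IntermediateField ℚ Qb) [NumberField F] (A : ValuationSubring Qb)
    (v : HeightOneSpectrum (𝓞 F)) (hv : ∀ x : F, x ≠ 0 → ((x : Qb) ∈ A ↔ 0 ≤ ord v x))
    {x : F} (hx : x ≠ 0) : 0 < ord v x ↔ ((x : Qb)⁻¹ ∉ A) := by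
  have h := hv x⁻¹ (inv_ne_zero hx)
  rw [ord_inv] at h
  have h' : ((x⁻¹ : F) : Qb) = (x : Qb)⁻¹ := rfl
  rw [h'] at h
  rw [h]
  omega

/-- (U6) converse of (U5). -/
theorem dvd_ord_of_isUnramifiedOutside (S : Finset Nat.Primes) (n : ℕ)
    (L : IntermediateField ℚ Qb) [NumberField L] (a : L) (ha : a ≠ 0) (β : Qb)
    (hβ : β ^ n = (a : Qb)) (hK : (L ⊔ IntermediateField.adjoin ℚ {β}).IsUnramifiedOutside S)
    (v : HeightOneSpectrum (𝓞 L)) (hv : OutsideS S v) : (n : ℤ) ∣ ord v a := by
  have halg : Algebra.IsAlgebraic ℚ Qb := AlgebraicClosure.isAlgebraic ℚ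
  have hfin1 : FiniteDimensional ℚ L := NumberField.to_finiteDimensional
  have hfin2 : FiniteDimensional ℚ (IntermediateField.adjoin ℚ {β}) :=
    IntermediateField.adjoin.finiteDimensional (Algebra.IsAlgebraic.isAlgebraic β).isIntegral
  have hfin : FiniteDimensional ℚ ↥(L ⊔ IntermediateField.adjoin ℚ {β}) :=
    IntermediateField.finiteDimensional_sup L _
  generalize hKdef : L ⊔ IntermediateField.adjoin ℚ {β} = K at hK hfin
  have hLK : L ≤ K := hKdef ▸ le_sup_left
  have hβK : β ∈ K := by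
    rw [← hKdef]
    exact (le_sup_right : IntermediateField.adjoin ℚ {β} ≤ _)
      (IntermediateField.mem_adjoin_simple_self ℚ β)
  have : NumberField K := { to_charZero := inferInstance, to_finiteDimensional := hfin }
  obtain ⟨q, hq, hqv⟩ := exists_prime_natCast_mem v
  obtain ⟨A, hA, hAv⟩ := exists_valuationSubring_above L v hq hqv
  obtain ⟨w, hqw, hAw⟩ := exists_place_below K A hq hA
  have hw : OutsideS S w := by
    intro ℓ hℓ hℓw
    have hne : (ℓ : ℕ) ≠ q := by
      intro h
      exact hv ℓ hℓ (h ▸ hqv)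
    have hcop : Nat.Coprime (ℓ : ℕ) q := (Nat.coprime_primes ℓ.2 hq).mpr hne
    have h1 : ((1 : ℤ) : 𝓞 K) ∈ w.asIdeal := by
      rw [← Nat.isCoprime_iff_coprime] at hcop
      obtain ⟨s, t, hst⟩ := hcop
      rw [← hst]
      push_cast
      exact add_mem (Ideal.mul_mem_left _ _ hℓw) (Ideal.mul_mem_left _ _ hqw)
    exact w.isPrime.ne_top ((Ideal.eq_top_iff_one _).mpr (by simpa using h1))
  have hwv : ∀ x : 𝓞 L, x ∈ v.asIdeal ↔
      0 < ord w (IntermediateField.inclusion hLK (x : L)) ∨ x = 0 := by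
    intro x
    by_cases hx : x = 0
    · simp [hx]
    · have hx' : (x : L) ≠ 0 := by
        intro h
        exact hx (NumberField.RingOfIntegers.coe_injective (by simpa using h))
      have hx'' : IntermediateField.inclusion hLK (x : L) ≠ 0 := by
        rw [Ne, map_eq_zero]; exact hx'
      rw [← ord_pos_iff_mem v hx, unram5_ord_pos_iff L A v hAv hx',
        unram5_ord_pos_iff K A w hAw hx'']
      simp [hx]
  have h1 := ord_eq_of_isUnramifiedOutside L K hLK S hK w hw v hwv a
  have h2 : IntermediateField.inclusion hLK a = (⟨β, hβK⟩ : K) ^ n := by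
    apply Subtype.ext
    simp [hβ]
  rw [← h1, h2, ord_pow]
  exact dvd_mul_right _ _

end Fermat.Agent.S55.DIC
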